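import Fermat.Agent.LT.K.Dens
import Fermat.Agent.LT.Top.KillOcta

/-!
# LT: the inputs of `uniqueness_sparse` on the side of `L`

`C : Cub R.K R.L`, `T` a finite set of places of `R.L`, `P = {w // w ∉ T}`.

* `summable_out` : `∑_{w ∉ T} q_w^{-s} < ∞` for `s > 1`;
* `summable_fix` : `∑_{σ w = w} q_w^{-1/2} < ∞`;
* `tendsto_lam_sq` : `∑_{w ∉ T, σ w ≠ w} λ_w² q_w^{-s} → ∞` as `s → 1+`;
* `abs_lam_le`, `two_le_qv`.

(helper51)
-/

set_option autoImplicit false

open NumberField IsDedekindDomain Filter Topology
open Fermat.LT Fermat.Agent.LT.D Fermat.Agent.CFT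

namespace Fermat.Agent.LT.K

section general

variable {F : Type} [Field F] [NumberField F]

theorem two_le_qv (w : Pl F) : 2 ≤ qv w := by
  have h1 := one_lt_qv w
  rw [qv] at h1 ⊢
  have h2 : 1 < Ideal.absNorm w.asIdeal := by exact_mod_cast h1
  exact_mod_cast h2

theorem summable_qv {s : ℝ} (hs : 1 < s) : Summable fun w : Pl F => qv w ^ (-s) :=
  Octa.summable_absNorm F hs

/-- (L1) -/
theorem summable_out (T : Finset (Pl F)) {s : ℝ} (hs : 1 < s) :
    Summable fun v : {w : Pl F // w ∉ T} => qv v.1 ^ (-s) :=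
  (summable_qv hs).comp_injective Subtype.val_injective

variable {K L : Type} [Field K] [NumberField K] [Field L] [NumberField L] [Algebra K L]

/-- (L2), over all places -/
theorem summable_fix (C : Cub K L) :
    Summable fun w : Pl L => {w | pl C w = w}.indicator (fun w => qv w ^ (-(1 / 2) : ℝ)) w := by
  classical
  set Rm : Set (Pl L) := {w | pl C w = w ∧ (Ideal.absNorm w.asIdeal).Prime} with hRm
  have hRam : {w : Pl L | Ram C (SUH.below K w) w}.Finite := by
    refine Set.Finite.of_injOn (f := fun w : Pl L => SUH.below K w)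
      (t := {v : Pl K | ∃ w, Ram C v w}) (fun w hw => ⟨w, hw⟩) ?_ (ram_finite C)
    intro w hw w' hw' h
    have h2 : Ram C (SUH.below K w) w := hw
    have h3 : Ram C (SUH.below K w') w' := hw'
    have h4 : SUH.below K w = SUH.below K w' := h
    rw [← h4] at h3
    exact (eq_of_fix C h2.above h3.above h2.fix).symm
  -- the ramified places
  have h1 : Summable fun w : Pl L =>
      {w : Pl L | Ram C (SUH.below K w) w}.indicator (fun w => qv w ^ (-(1 / 2) : ℝ)) w := by
    refine summable_of_hasFiniteSupport ?_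
    refine hRam.subset fun w hw => ?_
    by_contra h
    exact hw (Set.indicator_of_notMem h _)
  -- the inert places
  have h2 : Summable fun w : Pl L =>
      {w : Pl L | Inert C (SUH.below K w) w}.indicator (fun w => qv w ^ (-(1 / 2) : ℝ)) w := by
    have h3 : Summable fun w : {w : Pl L // Inert C (SUH.below K w) w} =>
        qv (SUH.below K w.1) ^ (-(3 / 2) : ℝ) := by
      refine (summable_qv (F := K) (s := 3 / 2) (by norm_num)).comp_injective
        (i := fun w : {w : Pl L // Inert C (SUH.below K w) w} => SUH.below K w.1) ?_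
      intro w w' h
      have h2 := w.2
      have h3 := w'.2
      have h4 : SUH.below K w.1 = SUH.below K w'.1 := h
      rw [← h4] at h3
      exact Subtype.ext (eq_of_fix C h2.above h3.above h2.fix).symm
    have h4 : Summable ((fun w : Pl L => qv w ^ (-(1 / 2) : ℝ)) ∘
        (Subtype.val : {w : Pl L | Inert C (SUH.below K w) w} → Pl L)) := by
      refine h3.congr fun w => ?_
      have h5 := w.2.q_eq
      have h6 : (0 : ℝ) ≤ qv (SUH.below K w.1) := by linarith [two_le_qv (SUH.below K w.1)]
      change _ = qv w.1 ^ (-(1 / 2) : ℝ)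
      rw [h5, ← Real.rpow_natCast, ← Real.rpow_mul h6]
      norm_num
    exact summable_subtype_iff_indicator.mp h4
  refine Summable.of_nonneg_of_le (fun w => Set.indicator_nonneg (fun w _ => by
    have := two_le_qv w; positivity) w) (fun w => ?_) (h1.add h2)
  have hpos : (0 : ℝ) ≤ qv w ^ (-(1 / 2) : ℝ) := by
    have := two_le_qv w; positivity
  by_cases hw : pl C w = w
  · rw [Set.indicator_of_mem (by exact hw)]
    rcases trichotomy C (above_below (K := K) w) with h | h | h
    · exact absurd hw h.ne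
    · rw [Set.indicator_of_mem (s := {w : Pl L | Inert C (SUH.below K w) w}) (by exact h)]
      have : 0 ≤ {w : Pl L | Ram C (SUH.below K w) w}.indicator
        (fun w => qv w ^ (-(1 / 2) : ℝ)) w := Set.indicator_nonneg (fun w _ => by
          have := two_le_qv w; positivity) w
      linarith
    · rw [Set.indicator_of_mem (s := {w : Pl L | Ram C (SUH.below K w) w}) (by exact h)]
      have : 0 ≤ {w : Pl L | Inert C (SUH.below K w) w}.indicator
        (fun w => qv w ^ (-(1 / 2) : ℝ)) w := Set.indicator_nonneg (fun w _ => by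
          have := two_le_qv w; positivity) w
      linarith
  · rw [Set.indicator_of_notMem (by exact hw)]
    exact add_nonneg (Set.indicator_nonneg (fun w _ => by
      have := two_le_qv w; positivity) w) (Set.indicator_nonneg (fun w _ => by
      have := two_le_qv w; positivity) w)

/-- (L2) -/
theorem summable_fix_out (C : Cub K L) (T : Finset (Pl L)) :
    Summable fun v : {w : Pl L // w ∉ T} => {v : {w : Pl L // w ∉ T} | pl C v.1 ≠ v.1}ᶜ.indicator
      (fun v => qv v.1 ^ (-(1 / 2) : ℝ)) v := by
  refine ((summable_fix C).comp_injective (i := fun v : {w : Pl L // w ∉ T} => v.1)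
    Subtype.val_injective).congr fun v => ?_
  change {w : Pl L | pl C w = w}.indicator (fun w => qv w ^ (-(1 / 2) : ℝ)) v.1 = _
  by_cases h : pl C v.1 = v.1
  · rw [Set.indicator_of_mem (s := {w : Pl L | pl C w = w}) h,
      Set.indicator_of_mem (s := {v : {w : Pl L // w ∉ T} | pl C v.1 ≠ v.1}ᶜ) (fun h2 => h2 h)]
  · rw [Set.indicator_of_notMem (s := {w : Pl L | pl C w = w}) h,
      Set.indicator_of_notMem (s := {v : {w : Pl L // w ∉ T} | pl C v.1 ≠ v.1}ᶜ)
        (fun h2 => h2 h)]

end general

namespace Octa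

variable (R : Octa)

/-- (L4) -/
theorem abs_lam_le (w : Pl R.L) : |(R.lam w : ℝ)| ≤ 2 := by
  rcases R.lam_eq_or w with h | h | h <;> rw [h] <;> norm_num

theorem lam_sq_of_mem {w : Pl R.L} (h : (R.fr w : G3) ∈ Z2) : (R.lam w : ℝ) ^ 2 = 4 := by
  rw [lam]
  rcases mem_Z2.mp h with h | h
  · rw [h]
    have : trQ (1 : G3) = 2 := by rw [trQ, if_pos rfl]
    rw [this]; norm_num
  · rw [h]
    have h1 : (-1 : G3) ≠ 1 := by decide
    have : trQ (-1 : G3) = -2 := by rw [trQ, if_neg h1, if_pos rfl]
    rw [this]; norm_num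

/-- (L3) -/
theorem tendsto_lam_sq (C : Cub R.K R.L) (T : Finset (Pl R.L)) :
    Tendsto (fun s : ℝ => ∑' v : {w : Pl R.L // w ∉ T},
      {v : {w : Pl R.L // w ∉ T} | pl C v.1 ≠ v.1}.indicator
        (fun v => (R.lam v.1 : ℝ) ^ 2 * qv v.1 ^ (-s)) v) (𝓝[>] 1) atTop := by
  classical
  set A : Set {w : Pl R.L // w ∉ T} := {v | pl C v.1 ≠ v.1} with hA
  set l : {w : Pl R.L // w ∉ T} → ℝ := fun v => A.indicator (fun v => (R.lam v.1 : ℝ) ^ 2) v with hl
  have hfin : (Set.range (Subtype.val : {w : Pl R.L // w ∉ T} → Pl R.L))ᶜ.Finite := by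
    refine T.finite_toSet.subset fun w hw => ?_
    by_contra h
    exact hw ⟨⟨w, h⟩, rfl⟩
  have h1 := R.eventually_le_tsum Q8 (Z2_le_C4.trans C4_le_Q8)
    (ι := (Subtype.val : {w : Pl R.L // w ∉ T} → Pl R.L)) Subtype.val_injective hfin
    ((Top.finite_fix_prime C).toFinset.image DedekindEuler.below) l
    (fun v => Set.indicator_nonneg (fun _ _ => sq_nonneg _) _) (C := 4)
    (fun v => by
      have := R.abs_lam_le v.1
      rw [abs_le] at this
      rw [hl]
      by_cases hv : v ∈ A
      · simp only
        rw [Set.indicator_of_mem hv]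
        nlinarith
      · simp only
        rw [Set.indicator_of_notMem hv]
        norm_num) (c := 4) (by norm_num)
    (fun v hv hZ hp _ => by
      have hvA : v ∈ A := by
        intro hfix
        apply hv
        exact Finset.mem_image_of_mem _ (by rw [Set.Finite.mem_toFinset]; exact ⟨hfix, hp⟩)
      rw [hl]
      simp only
      rw [Set.indicator_of_mem hvA, R.lam_sq_of_mem hZ]) (κ := 1 / 2) (by
        rw [card_Q8]; norm_num)
  refine tendsto_atTop_mono' _ ?_
    ((Fermat.Agent.FrobDensity.tendsto_log_atTop).const_mul_atTop (by norm_num : (0 : ℝ) < 1 / 2))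
  filter_upwards [h1] with s hs
  refine hs.trans (le_of_eq (tsum_congr fun v => ?_))
  by_cases hv : v ∈ A
  · rw [hl]
    simp only
    rw [Set.indicator_of_mem hv, Set.indicator_of_mem hv]
    rfl
  · rw [hl]
    simp only
    rw [Set.indicator_of_notMem hv, Set.indicator_of_notMem hv, zero_mul]

end Octa

end Fermat.Agent.LT.K
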