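import Fermat.Agent.LT.K.Surj
import Fermat.Agent.S13Lib.Dichotomy
import Fermat.Agent.DR.InertiaValue

/-!
# LT piece K: the local representation at `3`

* `not_fixed_of_kernel`: a nonzero `3`-torsion point in the kernel of reduction at a place over `3`
  is not fixed by inertia;
* `tameAtThree_of_fixed`: if some nonzero point of `E[3]` is fixed by the inertia group at `3`
  then inertia at `3` acts on `E[3]` through a group of exponent `2`.
-/

set_option autoImplicit false

open WeierstrassCurve WeierstrassCurve.Affine WeierstrassCurve.Affine.Point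
open scoped WeierstrassCurve.Affine Pointwise
open Polynomial Fermat.Agent.EllRed Fermat.Agent.LOC Fermat.Agent.RedHom

namespace Fermat.Agent.LT.K

local notation "Γℚ" => (AlgebraicClosure ℚ ≃ₐ[ℚ] AlgebraicClosure ℚ)
local notation "ℚbar" => AlgebraicClosure ℚ

section val

variable {K Γ₀ : Type*} [Field K] [LinearOrderedCommGroupWithZero Γ₀] {v : Valuation K Γ₀}

theorem quartic_ne_zero {b₂ b₄ b₆ b₈ x : K} (h2 : v b₂ ≤ 1) (h4 : v b₄ ≤ 1) (h6 : v b₆ ≤ 1)
    (h8 : v b₈ ≤ 1) (hv3 : v (3 : K) < 1) (hx : 1 < v (3 : K) * v x) :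
    3 * x ^ 4 + b₂ * x ^ 3 + 3 * b₄ * x ^ 2 + 3 * b₆ * x + b₈ ≠ 0 := by
  have hx0 : 0 < v x := by
    rcases (zero_le : 0 ≤ v x).lt_or_eq with h | h
    · exact h
    · rw [← h, mul_zero] at hx; exact absurd hx (not_lt.mpr zero_le)
  have hx1 : 1 < v x := by
    refine hx.trans_le ?_
    calc v (3 : K) * v x ≤ 1 * v x := mul_le_mul' hv3.le le_rfl
      _ = v x := one_mul _
  intro h
  have e : 3 * x ^ 4 = -(b₂ * x ^ 3 + (3 * b₄ * x ^ 2 + (3 * b₆ * x + b₈))) := by
    linear_combination h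
  have h01 : (1 : Γ₀) ≤ v x ^ 3 := one_le_pow₀ hx1.le
  have hle : v (b₂ * x ^ 3 + (3 * b₄ * x ^ 2 + (3 * b₆ * x + b₈))) ≤ v x ^ 3 := by
    refine v.map_add_le ?_ (v.map_add_le ?_ (v.map_add_le ?_ ?_))
    · rw [map_mul, map_pow]
      exact mul_le_of_le_one_left' h2
    · rw [map_mul, map_mul, map_pow]
      calc v 3 * v b₄ * v x ^ 2 ≤ 1 * 1 * v x ^ 2 := mul_le_mul' (mul_le_mul' hv3.le h4) le_rfl
        _ = v x ^ 2 := by rw [one_mul, one_mul]
        _ ≤ v x ^ 3 := pow_le_pow_right₀ hx1.le (by norm_num)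
    · rw [map_mul, map_mul]
      calc v 3 * v b₆ * v x ≤ 1 * 1 * v x := mul_le_mul' (mul_le_mul' hv3.le h6) le_rfl
        _ = v x ^ 1 := by rw [one_mul, one_mul, pow_one]
        _ ≤ v x ^ 3 := pow_le_pow_right₀ hx1.le (by norm_num)
    · exact h8.trans h01
  have h5 := congrArg v e
  rw [Valuation.map_neg, map_mul, map_pow] at h5
  rw [← h5, pow_succ, mul_comm (v x ^ 3), ← mul_assoc] at hle
  have h6' : v x ^ 3 < v 3 * v x * v x ^ 3 := by
    calc v x ^ 3 = 1 * v x ^ 3 := (one_mul _).symm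
      _ < v 3 * v x * v x ^ 3 := by
        exact mul_lt_mul_of_pos_right hx (pow_pos hx0 3)
  exact absurd hle (not_le.mpr h6')

end val

variable {W : WeierstrassCurve ℤ}

theorem baseChange_eq_map (W : WeierstrassCurve ℤ) :
    ((W.map (Int.castRingHom ℚ))⁄ℚbar) = W.map (Int.castRingHom ℚbar) :=
  S13Lib.map_map_eq rfl

theorem not_fixed_of_kernel (hΔ : W.Δ ≠ 0) {A : ValuationSubring ℚbar} (hA : A.LiesOverPrime 3)
    {x y : ℚbar} {h : ((W.map (Int.castRingHom ℚ))⁄ℚbar).Nonsingular x y}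
    (h3 : 3 • (Point.some x y h : ((W.map (Int.castRingHom ℚ))⁄ℚbar).Point) = 0) (hx : x ∉ A)
    (hfx : ∀ σ ∈ A.inertiaSubgroupIn ℚ, σ x = x) (hfy : ∀ σ ∈ A.inertiaSubgroupIn ℚ, σ y = y) :
    False := by
  have hroot := S13Lib.aeval_preΨ'_eq_zero (W₀ := W) (E := W.map (Int.castRingHom ℚ)) rfl hΔ
    (p := 3) (by decide) h3
  rw [WeierstrassCurve.preΨ'_three, WeierstrassCurve.Ψ₃] at hroot
  have hv3 : A.valuation (3 : ℚbar) < 1 := by
    have h1 : ((3 : ℕ) : ℚbar) ∈ A.nonunits := hA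
    have := (A.mem_nonunits_iff).mp h1
    simpa using this
  have hv30 : A.valuation (3 : ℚbar) ≠ 0 := by
    rw [Ne, Valuation.zero_iff]; norm_num
  have hvx : 1 < A.valuation x := by
    rw [← not_le, ValuationSubring.valuation_le_one_iff]; exact hx
  have hint : ∀ n : ℤ, A.valuation ((n : ℤ) : ℚbar) ≤ 1 := fun n =>
    (A.valuation_le_one_iff _).mpr (intCast_mem A n)
  have hW : ECRed.IntCoeff A.valuation ((W.map (Int.castRingHom ℚ))⁄ℚbar) := by
    rw [baseChange_eq_map]
    exact ⟨hint _, hint _, hint _, hint _, hint _⟩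
  obtain ⟨hlt, hsq⟩ := ECRed.v_y_sq hW h.1 hvx
  have hx0 : x ≠ 0 := by rintro rfl; rw [_root_.map_zero] at hvx; exact absurd hvx (not_lt.mpr zero_le)
  have hy0 : y ≠ 0 := by
    rintro rfl
    rw [_root_.map_zero] at hlt
    exact absurd hlt (not_lt.mpr zero_le)
  obtain ⟨k, hk⟩ := DR.InertiaValue.exists_zpow_of_inertia_fixed A Nat.prime_three hA hx0 hfx
  obtain ⟨m, hm⟩ := DR.InertiaValue.exists_zpow_of_inertia_fixed A Nat.prime_three hA hy0 hfy
  rw [map_mul, map_zpow₀] at hk hm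
  push_cast at hk hm
  set t := A.valuation (3 : ℚbar) with ht
  set X := A.valuation x with hX
  set Y := A.valuation y with hY
  have hXk : X = t ^ (-k) := by
    rw [zpow_neg]; exact eq_inv_of_mul_eq_one_left hk
  have hYm : Y = t ^ (-m) := by
    rw [zpow_neg]; exact eq_inv_of_mul_eq_one_left hm
  have htpos : 0 < t := zero_lt_iff.mpr hv30
  have hk0 : 0 < k := by
    by_contra hle
    push Not at hle
    rw [hXk] at hvx
    have : t ^ (-k) ≤ 1 := by
      obtain ⟨n, hn⟩ := Int.eq_ofNat_of_zero_le (show 0 ≤ -k by omega)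
      rw [hn, zpow_natCast]
      exact pow_le_one' hv3.le n
    exact absurd hvx (not_lt.mpr this)
  have heq : 2 * m = 3 * k := by
    rw [hXk, hYm] at hsq
    rw [← zpow_natCast, ← zpow_natCast, ← zpow_mul, ← zpow_mul] at hsq
    have h1 := (zpow_right_injective₀ htpos hv3.ne).eq_iff.mp hsq
    push_cast at h1
    omega
  have hk2 : 2 ≤ k := by omega
  have hbig : 1 < t * X := by
    rw [hXk]
    have h1 : t * t ^ (-k) = (t⁻¹) ^ (k - 1) := by
      rw [inv_zpow, ← zpow_neg, ← zpow_one_add₀ hv30]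
      congr 1
      ring
    rw [h1]
    obtain ⟨n, hn⟩ := Int.eq_ofNat_of_zero_le (show 0 ≤ k - 1 by omega)
    rw [hn, zpow_natCast]
    exact one_lt_pow₀ ((one_lt_inv₀ htpos).mpr hv3) (by omega)
  refine quartic_ne_zero (v := A.valuation) (x := x) (hint W.b₂) (hint W.b₄) (hint W.b₆)
    (hint W.b₈) hv3 hbig ?_
  have h3' : (aeval x) (3 : ℤ[X]) = (3 : ℚbar) := map_ofNat _ 3
  simpa [h3'] using hroot

/-- the kernel of reduction -/
theorem curveRed3 (W : WeierstrassCurve ℤ) (A : ValuationSubring ℚbar) :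
    CurveRed (IsLocalRing.residue A) ((W.map (Int.castRingHom ℚ))⁄ℚbar)
      (W.map (Int.castRingHom (IsLocalRing.ResidueField A))) := curveRed_int _ W

set_option synthInstance.maxHeartbeats 200000 in
set_option synthInstance.maxSize 4000 in
theorem key_sq : ∀ a b c d : ZMod 3, (a * d - b * c) * (a * d - b * c) = 1 →
    (a - 1) * (a - 1) + b * c = 0 → (a - 1) * b + b * (d - 1) = 0 →
    c * (a - 1) + (d - 1) * c = 0 → c * b + (d - 1) * (d - 1) = 0 → a * d - b * c = 1 := by
  decide +kernel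

theorem dt_eq_one_of_sq {g : G3} (h : ((g : Matrix (Fin 2) (Fin 2) (ZMod 3)) - 1) *
    ((g : Matrix (Fin 2) (Fin 2) (ZMod 3)) - 1) = 0) : dt g = 1 := by
  have e00 := congrFun (congrFun h 0) 0
  have e01 := congrFun (congrFun h 0) 1
  have e10 := congrFun (congrFun h 1) 0
  have e11 := congrFun (congrFun h 1) 1
  simp only [Matrix.mul_apply, Fin.sum_univ_two, Matrix.sub_apply, Matrix.one_apply_eq,
    Matrix.zero_apply, ne_eq, zero_ne_one, not_false_eq_true, Matrix.one_apply_ne, sub_zero,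
    one_ne_zero] at e00 e01 e10 e11
  exact key_sq _ _ _ _ (dt_mul_self g) e00 e01 e10 e11

/-- **A nonzero point of `E[3]` fixed by inertia at `3` forces exponent `2`.** -/
theorem tameAtThree_of_fixed (hΔ : W.Δ ≠ 0) (hss : W.IsSemistableModel)
    (hirr : W.ModRepIsIrreducible 3) (b : Module.Basis (Fin 2) (ZMod 3) (T3 W))
    {A : ValuationSubring ℚbar} (hA : A.LiesOverPrime 3) {x : T3 W} (hx0 : x ≠ 0)
    (hfix : ∀ σ ∈ A.inertiaSubgroupIn ℚ, σ • x = x) : TameAtThree (repOf b) := by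
  classical
  let R : Octa := ⟨repOf b, isOcta_repOf b hΔ hss hirr⟩
  have hR := curveRed3 W A
  -- membership in the kernel of reduction
  let Ker : Set (T3 W) := {P | PointRed (V := ((W.map (Int.castRingHom ℚ))⁄ℚbar))
    (U := W.map (Int.castRingHom (IsLocalRing.ResidueField A))) (IsLocalRing.residue A)
    (P : ((W.map (Int.castRingHom ℚ))⁄ℚbar).Point) 0}
  have hKsub : ∀ P Q : T3 W, P ∈ Ker → Q ∈ Ker → P - Q ∈ Ker := by
    intro P Q hP hQ
    have := PointRed.sub hR hP hQ
    rwa [sub_zero] at this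
  have hKzero : (0 : T3 W) ∈ Ker := by
    change PointRed _ _ _
    exact pointRed_zero_right_iff.mpr (Or.inl rfl)
  have hKsmul : ∀ (k : ZMod 3) (P : T3 W), P ∈ Ker → k • P ∈ Ker := by
    intro k P hP
    have h1 : ∀ k : ZMod 3, k = 0 ∨ k = 1 ∨ k = -1 := by decide
    rcases h1 k with rfl | rfl | rfl
    · rw [zero_smul]; exact hKzero
    · rw [one_smul]; exact hP
    · rw [neg_one_smul, ← zero_sub]
      exact hKsub _ _ hKzero hP
  have hss3 : (W.map (Int.castRingHom (IsLocalRing.ResidueField A))).Δ ≠ 0 ∨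
      (W.map (Int.castRingHom (IsLocalRing.ResidueField A))).c₄ ≠ 0 := by
    rw [WeierstrassCurve.map_Δ, WeierstrassCurve.map_c₄]
    by_cases h : (3 : ℤ) ∣ W.Δ
    · right
      exact intCast_residueField_ne_zero Nat.prime_three hA (hss 3 Nat.prime_three h)
    · left
      exact intCast_residueField_ne_zero Nat.prime_three hA h
  have hE0 : ∀ σ ∈ A.inertiaSubgroupIn ℚ, ∀ P : T3 W,
      ((σ • P - P : T3 W) : ((W.map (Int.castRingHom ℚ))⁄ℚbar).Point) ∈ E0 hR := by
    intro σ hσ P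
    exact smul_sub_mem_E0 two_ne_zero hR hss3 hσ _
  have hE1 : ∀ σ ∈ A.inertiaSubgroupIn ℚ, ∀ P : T3 W,
      (P : ((W.map (Int.castRingHom ℚ))⁄ℚbar).Point) ∈ E0 hR → σ • P - P ∈ Ker := by
    intro σ hσ P hP
    exact smul_sub_mem_ker hR hσ hP
  have hKE0 : ∀ P ∈ Ker, (P : ((W.map (Int.castRingHom ℚ))⁄ℚbar).Point) ∈ E0 hR := by
    intro P hP
    exact ⟨_, hP⟩
  -- `x` is not in the kernel
  have hxK : x ∉ Ker := by
    intro hx
    rcases pointRed_zero_right_iff.mp hx with h0 | ⟨u, v, h, hP, hu⟩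
    · exact hx0 (Subtype.ext h0)
    · have h3 : 3 • (Point.some u v h : ((W.map (Int.castRingHom ℚ))⁄ℚbar).Point) = 0 := by
        rw [← hP]
        have := (Submodule.mem_torsionBy_iff ((3 : ℕ) : ℤ) x.1).1 x.2
        rwa [Nat.cast_smul_eq_nsmul] at this
      have hσ : ∀ σ ∈ A.inertiaSubgroupIn ℚ, σ u = u ∧ σ v = v := by
        intro σ hσ
        have h4 := congrArg Subtype.val (hfix σ hσ)
        have h5 : σ • (x : ((W.map (Int.castRingHom ℚ))⁄ℚbar).Point) = x := h4
        rw [hP, algEquiv_smul_def, Point.map_some] at h5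
        have h6 := Point.some.inj h5
        exact h6
      exact not_fixed_of_kernel hΔ hA h3 hu (fun σ h => (hσ σ h).1) (fun σ h => (hσ σ h).2)
  -- an element of inertia with determinant `-1`
  obtain ⟨c, hc, hdc⟩ : ∃ c ∈ A.inertiaSubgroupIn ℚ, dt (repOf b c) = -1 := by
    obtain ⟨g, hg, hdg⟩ := R.exists_inertia_dt' (P := R.cen A) (by
      have := (R.natCast_mem_cen (A := A) (q := 3)).mpr hA
      simpa using this)
    obtain ⟨σ, hσ, hσg⟩ := (R.mem_inertia_iff Nat.prime_three hA).mp hg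
    exact ⟨σ, hσ, by rw [show repOf b σ = g from hσg]; exact hdg⟩
  -- a nonzero element of the kernel
  obtain ⟨y, hy0, hyK⟩ : ∃ y : T3 W, y ≠ 0 ∧ y ∈ Ker := by
    by_contra hall
    push Not at hall
    have h1 : ∀ P : T3 W, c • (c • P - P) - (c • P - P) = 0 := by
      intro P
      by_contra hne
      exact hall _ hne (hE1 c hc _ (hE0 c hc P))
    have h2 : (galoisRepModuleEnd (K := ℚbar) ℚ (W.map (Int.castRingHom ℚ)) 3 c - 1) *
        (galoisRepModuleEnd (K := ℚbar) ℚ (W.map (Int.castRingHom ℚ)) 3 c - 1) = 0 := by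
      refine LinearMap.ext fun P => ?_
      exact h1 P
    have h3 := congrArg (LinearMap.toMatrix b b) h2
    rw [LinearMap.toMatrix_mul, map_sub, _root_.map_zero, LinearMap.toMatrix_one, ← repOf_coe] at h3
    have h4 := dt_eq_one_of_sq h3
    rw [hdc] at h4
    exact absurd h4 (by decide)
  -- `x, y` is a basis
  have hli : LinearIndependent (ZMod 3) ![x, y] := by
    rw [LinearIndependent.pair_iff]
    intro s t hst
    have hs : s = 0 := by
      by_contra hs
      apply hxK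
      have h1 : x = (-(s⁻¹ * t)) • y := by
        have h2 : s • x = -(t • y) := eq_neg_of_add_eq_zero_left hst
        have h3 : x = s⁻¹ • (s • x) := by rw [smul_smul, inv_mul_cancel₀ hs, one_smul]
        rw [h3, h2, smul_neg, smul_smul, neg_smul]
      rw [h1]
      exact hKsmul _ _ hyK
    rw [hs, zero_smul, zero_add] at hst
    exact ⟨hs, (smul_eq_zero.mp hst).resolve_right hy0⟩
  have hspan : ∀ P : T3 W, ∃ s t : ZMod 3, P = s • x + t • y := by
    intro P
    have hfr : Module.finrank (ZMod 3) (T3 W) = 2 := by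
      rw [Module.finrank_eq_card_basis b]; rfl
    have hfin : Module.Finite (ZMod 3) (T3 W) := Module.Finite.of_basis b
    have h1 := hli.span_eq_top_of_card_eq_finrank' (by rw [hfr]; rfl)
    have h2 : P ∈ Submodule.span (ZMod 3) (Set.range ![x, y]) := by rw [h1]; trivial
    rw [Matrix.range_cons, Matrix.range_cons, Matrix.range_empty, Set.union_empty,
      Set.singleton_union, Submodule.mem_span_pair] at h2
    obtain ⟨s, t, hst⟩ := h2
    exact ⟨s, t, hst.symm⟩
  -- the kernel is the line of `y`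
  have hline : ∀ P ∈ Ker, ∃ t : ZMod 3, P = t • y := by
    intro P hP
    obtain ⟨s, t, rfl⟩ := hspan P
    have h1 : s • x ∈ Ker := by
      have := hKsub _ _ hP (hKsmul t y hyK)
      rwa [add_sub_cancel_right] at this
    have hs : s = 0 := by
      by_contra hs
      apply hxK
      have := hKsmul s⁻¹ _ h1
      rwa [smul_smul, inv_mul_cancel₀ hs, one_smul] at this
    exact ⟨t, by rw [hs, zero_smul, zero_add]⟩
  -- squares of inertia elements are trivial
  have hsq : ∀ σ ∈ A.inertiaSubgroupIn ℚ, (repOf b σ) ^ 2 = 1 := by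
    intro σ hσ
    obtain ⟨t, ht⟩ := hline _ (hE1 σ hσ y (hKE0 y hyK))
    have hσy : σ • y = (1 + t) • y := by
      rw [add_smul, one_smul, ← ht]; abel
    have hne : (1 + t) ≠ 0 := by
      intro h
      rw [h, zero_smul] at hσy
      exact hy0 ((smul_eq_zero_iff_eq σ).mp hσy)
    have h2 : (1 + t) * (1 + t) = 1 := by
      have : ∀ u : ZMod 3, u ≠ 0 → u * u = 1 := by decide
      exact this _ hne
    rw [sq, ← map_mul, repOf_eq_one_iff]
    intro P
    obtain ⟨s, u, rfl⟩ := hspan P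
    rw [mul_smul]
    simp only [smul_add, smul_comm σ, hfix σ hσ, hσy, smul_smul]
    rw [mul_assoc, h2, mul_one]
  -- all places above `3`
  intro B hB σ hσ
  obtain ⟨γ, rfl⟩ := FrobExists.exists_smul_eq A B Nat.prime_three hA hB
  have h6 : γ⁻¹ * σ * γ ∈ A.inertiaSubgroupIn ℚ := by
    have := TWP.Place.mem_inertia_conj γ⁻¹ hσ
    rwa [inv_smul_smul, inv_inv] at this
  have h7 := hsq _ h6
  have h8 : repOf b σ = repOf b γ * repOf b (γ⁻¹ * σ * γ) * (repOf b γ)⁻¹ := by
    rw [← map_mul, ← map_inv, ← map_mul]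
    congr 1
    group
  rw [h8, conj_pow, h7, mul_one, mul_inv_cancel]

end Fermat.Agent.LT.K
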