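import Fermat.Agent.LT.K.W3

/-!
# LT piece K-D: a pair of weight two eigenforms of level `N`, `3 ∥ N`, congruent up to `χ_{-3}`

(helper51, LT/K.)
-/

set_option autoImplicit false

noncomputable section

open UpperHalfPlane ModularForm ModularFormClass CongruenceSubgroup Matrix.SpecialLinearGroup
open scoped MatrixGroups ModularForm

namespace Fermat.Agent.LT.K

open Fermat.Agent Fermat.Agent.DS.Hecke1 Fermat.Agent.FrobExists

/-- Simultaneous eigenvectors of commuting operators. -/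
theorem exists_simultaneous {V : Type*} [AddCommGroup V] [Module ℂ V] [FiniteDimensional ℂ V]
    {ι : Type*} (T : ι → Module.End ℂ V) (hcomm : ∀ i j x, T i (T j x) = T j (T i x))
    (W₀ : Submodule ℂ V) (hW₀ : W₀ ≠ ⊥) (hst : ∀ i, ∀ x ∈ W₀, T i x ∈ W₀) :
    ∃ v ∈ W₀, v ≠ 0 ∧ ∀ i, ∃ c : ℂ, T i v = c • v := by
  let S : Set (Submodule ℂ V) := {W | W ≤ W₀ ∧ W ≠ ⊥ ∧ ∀ i, ∀ x ∈ W, T i x ∈ W}
  have hne : S.Nonempty := ⟨W₀, le_rfl, hW₀, hst⟩
  obtain ⟨W, ⟨hW1, hW2, hW3⟩, hmin⟩ := WellFounded.has_min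
    (wellFounded_lt : WellFounded (fun a b : Submodule ℂ V => a < b)) S hne
  obtain ⟨v, hv, hv0⟩ := Submodule.exists_mem_ne_zero_of_ne_bot hW2
  refine ⟨v, hW1 hv, hv0, fun i => ?_⟩
  -- eigenvalue of `T i` on `W`
  have : Nontrivial W := Submodule.nontrivial_iff_ne_bot.mpr hW2
  let Ti : Module.End ℂ W := (T i).restrict (hW3 i)
  obtain ⟨c, hc⟩ := Module.End.exists_eigenvalue Ti
  obtain ⟨u, hu⟩ := hc.exists_hasEigenvector
  refine ⟨c, ?_⟩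
  let E : Submodule ℂ V := W ⊓ LinearMap.ker (T i - c • (1 : Module.End ℂ V))
  have hE : E ∈ S := by
    refine ⟨inf_le_left.trans hW1, ?_, ?_⟩
    · intro h
      have h1 : (u : V) ∈ E := by
        refine ⟨u.2, ?_⟩
        rw [SetLike.mem_coe, LinearMap.mem_ker, LinearMap.sub_apply, LinearMap.smul_apply,
          Module.End.one_apply, sub_eq_zero]
        have h2 := congrArg Subtype.val hu.apply_eq_smul
        exact h2
      rw [h, Submodule.mem_bot] at h1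
      exact hu.2 (Subtype.ext h1)
    · rintro j x ⟨hx1, hx2⟩
      refine ⟨hW3 j x hx1, ?_⟩
      rw [SetLike.mem_coe, LinearMap.mem_ker, LinearMap.sub_apply, LinearMap.smul_apply,
        Module.End.one_apply, sub_eq_zero] at hx2 ⊢
      rw [hcomm, hx2, map_smul]
  have hEW : E = W := by
    by_contra hne
    exact hmin E hE (lt_of_le_of_ne inf_le_left hne)
  have hvE : v ∈ E := by rw [hEW]; exact hv
  have h1 := hvE.2
  rwa [SetLike.mem_coe, LinearMap.mem_ker, LinearMap.sub_apply, LinearMap.smul_apply,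
    Module.End.one_apply, sub_eq_zero] at h1

variable {N : ℕ} [NeZero N]

/-- The primes not dividing `N`. -/
abbrev GoodPrime (N : ℕ) := {p : ℕ // p.Prime ∧ ¬ p ∣ N}

/-- The space of forms of weight one with character `χ_{-3}` and given eigenvalues on `P`. -/
def relSpace (N : ℕ) [NeZero N] (P : Set (GoodPrime N)) (t : GoodPrime N → ℂ) :
    Submodule ℂ (CuspForm (Gamma1 N) 1) where
  carrier := {f | IsChi3 f ∧ ∀ p ∈ P, Tp p.2.1 p.2.2 f = t p • f}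
  add_mem' := by
    rintro f g ⟨hf, hf'⟩ ⟨hg, hg'⟩
    refine ⟨fun γ hγ => ?_, fun p hp => ?_⟩
    · have h : ⇑(f + g) = ⇑f + ⇑g := rfl
      rw [h, SlashAction.add_slash, hf γ hγ, hg γ hγ, smul_add]
    · rw [map_add, hf' p hp, hg' p hp, smul_add]
  zero_mem' := by
    refine ⟨fun γ hγ => ?_, fun p hp => ?_⟩
    · have h : ⇑(0 : CuspForm (Gamma1 N) 1) = 0 := rfl
      rw [h, SlashAction.zero_slash, smul_zero]
    · rw [map_zero, smul_zero]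
  smul_mem' := by
    rintro c f ⟨hf, hf'⟩
    refine ⟨hf.smul c, fun p hp => ?_⟩
    rw [map_smul, hf' p hp, smul_comm]

/-- There is a simultaneous eigenform with the same eigenvalues on `P`. -/
theorem exists_eigenform_rel (P : Set (GoodPrime N)) (t : GoodPrime N → ℂ)
    {f : CuspForm (Gamma1 N) 1} (hχ : IsChi3 f) (hf : f ≠ 0)
    (hP : ∀ p ∈ P, Tp p.2.1 p.2.2 f = t p • f) :
    ∃ g : CuspForm (Gamma1 N) 1, IsChi3 g ∧ g ≠ 0 ∧ (∀ p ∈ P, Tp p.2.1 p.2.2 g = t p • g) ∧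
      ∀ p : GoodPrime N, ∃ c : ℂ, Tp p.2.1 p.2.2 g = c • g := by
  obtain ⟨g, ⟨hg1, hg2⟩, hg0, hg3⟩ := exists_simultaneous
    (T := fun p : GoodPrime N => Tp (k := 1) p.2.1 p.2.2)
    (fun p q x => Tp_comm p.2.1 p.2.2 q.2.1 q.2.2 x) (relSpace N P t)
    (by
      intro h
      have h1 : f ∈ relSpace N P t := ⟨hχ, hP⟩
      rw [h, Submodule.mem_bot] at h1
      exact hf h1)
    (by
      rintro q x ⟨hx, hx'⟩
      refine ⟨isChi3_Tp hx _ _, fun p hp => ?_⟩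
      rw [Tp_comm, hx' p hp, map_smul])
  exact ⟨g, hg1, hg0, hg2, hg3⟩

/-- **K-D**: for `3 ∥ N` there are two weight two eigenforms of level `Γ₀(N)`, both having the
given eigenvalues on `P` modulo the maximal ideal, congruent to each other up to the twist by
`χ_{-3}`. -/
theorem exists_pair_weightTwo (h3 : 3 ∣ N) (h9 : ¬ 9 ∣ N) (B : ValuationSubring ℂ)
    (hB : B.LiesOverPrime 3) (P : Set ℕ) (t : ℕ → ℤ)
    (hPp : ∀ p ∈ P, p.Prime ∧ ¬ p ∣ N ∧ chi3 p = 1)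
    {f : CuspForm (Gamma1 N) 1} (hχ : IsChi3 f) (hf : f ≠ 0)
    (hP : ∀ p ∈ P, ∀ n, qCoeff ⇑f (p * n) + (if p ∣ n then qCoeff ⇑f (n / p) else 0) =
      (t p : ℂ) * qCoeff ⇑f n) :
    ∃ h h' : CuspForm (Gamma0 N) 2, h.IsNormalizedEigenform ∧ h'.IsNormalizedEigenform ∧
      (∀ p ∈ P, ∃ a : integralClosure ℤ ℂ, (a : ℂ) = qCoeff ⇑h p ∧
        a - ((t p : ℤ) : integralClosure ℤ ℂ) ∈ center B) ∧
      (∀ p ∈ P, ∃ a : integralClosure ℤ ℂ, (a : ℂ) = qCoeff ⇑h' p ∧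
        a - ((t p : ℤ) : integralClosure ℤ ℂ) ∈ center B) ∧
      ∀ ℓ : ℕ, ℓ.Prime → ¬ ℓ ∣ N → ∃ a a' : integralClosure ℤ ℂ,
        (a : ℂ) = qCoeff ⇑h ℓ ∧ (a' : ℂ) = qCoeff ⇑h' ℓ ∧
        a' - ((chi3 ℓ : ℤ) : integralClosure ℤ ℂ) * a ∈ center B := by
  obtain ⟨w⟩ := exists_wData h3 h9
  obtain ⟨g, hg1, hg0, hg2, hg3⟩ := exists_eigenform_rel {p : GoodPrime N | (p : ℕ) ∈ P}
    (fun p => ((t p : ℤ) : ℂ)) hχ hf (by
      intro p hp
      obtain ⟨-, -, hp1⟩ := hPp _ hp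
      rw [Tp_eq_smul_iff h3 hχ]
      intro n
      rw [← hP _ hp n, hp1]
      simp)
  obtain ⟨h, hh, hc⟩ := exists_weightTwo_of_chi3 h3 B hB g hg1 hg0
  obtain ⟨h', hh', hc'⟩ := exists_weightTwo_of_chi3 h3 B hB (W3 h3 w g hg1)
    (isChi3_W3 h3 w g hg1) (W3_ne_zero h3 w hg1 hg0)
  refine ⟨h, h', hh, hh', fun p hp => ?_, fun p hp => ?_, fun ℓ hℓ hℓN => ?_⟩
  · obtain ⟨hp1, hp2, hp3⟩ := hPp p hp
    have h1 := hg2 ⟨p, hp1, hp2⟩ hp
    rw [Tp_eq_smul_iff h3 hg1] at h1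
    obtain ⟨-, a, ha, hva⟩ := hc p hp1 hp2 _ h1
    refine ⟨a, ha, ?_⟩
    rw [mem_center_iff_valuation]
    simpa using hva
  · obtain ⟨hp1, hp2, hp3⟩ := hPp p hp
    have h1 := Tp_W3 h3 w hg1 hp1 hp2 (hg2 ⟨p, hp1, hp2⟩ hp)
    rw [hp3, Int.cast_one, one_mul, Tp_eq_smul_iff h3 (isChi3_W3 h3 w g hg1)] at h1
    obtain ⟨-, a, ha, hva⟩ := hc' p hp1 hp2 _ h1
    refine ⟨a, ha, ?_⟩
    rw [mem_center_iff_valuation]
    simpa using hva
  · obtain ⟨c, hcc⟩ := hg3 ⟨ℓ, hℓ, hℓN⟩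
    have h1 := hcc
    rw [Tp_eq_smul_iff h3 hg1] at h1
    obtain ⟨hcB, a, ha, hva⟩ := hc ℓ hℓ hℓN _ h1
    have h2 := Tp_W3 h3 w hg1 hℓ hℓN hcc
    rw [Tp_eq_smul_iff h3 (isChi3_W3 h3 w g hg1)] at h2
    obtain ⟨-, a', ha', hva'⟩ := hc' ℓ hℓ hℓN _ h2
    refine ⟨a, a', ha, ha', ?_⟩
    rw [mem_center_iff_valuation]
    have h4 : (((a' - ((chi3 ℓ : ℤ) : integralClosure ℤ ℂ) * a : integralClosure ℤ ℂ)) : ℂ) =
        ((a' : ℂ) - ((chi3 ℓ : ℤ) : ℂ) * c) - ((chi3 ℓ : ℤ) : ℂ) * ((a : ℂ) - c) := by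
      push_cast
      ring
    rw [h4]
    refine Valuation.map_sub_lt _ hva' (val_mul_lt B ?_ hva)
    exact (B.valuation_le_one_iff _).mpr (intCast_mem B _)

end Fermat.Agent.LT.K
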