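import Fermat.Agent.LT.K.SurjB
import Fermat.Agent.EllRed.FrobeniusMain
import Fermat.Agent.EllTorsion.Frey
import Fermat.Agent.LOC.Component

/-!
# LT piece K: the mod 3 representation of a semistable elliptic curve

`exists_rep`: for `W` semistable with `E[3]` irreducible, the matrix representation `ρ` on `E[3]`
satisfies `IsOcta` (in particular it is surjective).
-/

set_option autoImplicit false

open Matrix WeierstrassCurve WeierstrassCurve.Affine.Point
open scoped WeierstrassCurve.Affine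

namespace Fermat.Agent.LT.K

local notation "Γℚ" => (AlgebraicClosure ℚ ≃ₐ[ℚ] AlgebraicClosure ℚ)
local notation "ℚbar" => AlgebraicClosure ℚ

section rep

variable (W : WeierstrassCurve ℤ)

/-- the 3-torsion of the curve -/
abbrev T3 : Type := Submodule.torsionBy ℤ ((W.map (Int.castRingHom ℚ))⁄ℚbar).Point (3 : ℕ)

variable {W}
variable (b : Module.Basis (Fin 2) (ZMod 3) (T3 W))

/-- the matrix representation attached to a basis of `E[3]` -/
noncomputable def repOf : Γℚ →* G3 :=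
  (Units.map ((LinearMap.toMatrixAlgEquiv b : Module.End (ZMod 3) (T3 W) ≃ₐ[ZMod 3]
    Matrix (Fin 2) (Fin 2) (ZMod 3)) : Module.End (ZMod 3) (T3 W) →*
      Matrix (Fin 2) (Fin 2) (ZMod 3))).comp
    (galoisRepModuleEnd (K := ℚbar) ℚ (W.map (Int.castRingHom ℚ)) 3).toHomUnits

theorem repOf_coe (σ : Γℚ) : ((repOf b σ : G3) : Matrix (Fin 2) (Fin 2) (ZMod 3)) =
    LinearMap.toMatrix b b (galoisRepModuleEnd (K := ℚbar) ℚ (W.map (Int.castRingHom ℚ)) 3 σ) :=
  rfl

theorem repOf_apply (σ : Γℚ) (i j : Fin 2) : (repOf b σ) i j = b.repr (σ • b j) i := by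
  rw [repOf_coe, LinearMap.toMatrix_apply]
  rfl

theorem repOf_eq_one_iff {σ : Γℚ} : repOf b σ = 1 ↔ ∀ x : T3 W, σ • x = x := by
  rw [Units.ext_iff, repOf_coe, Units.val_one, ← LinearMap.toMatrix_one b,
    (LinearMap.toMatrix b b).injective.eq_iff, LinearMap.ext_iff]
  rfl

theorem det_repOf (hΔ : W.Δ ≠ 0) (σ : Γℚ) :
    Matrix.GeneralLinearGroup.det (repOf b σ) = modThreeCyclotomicChar σ := by
  rw [modThreeCyclotomicChar_eq_cyc]
  apply Units.ext
  have h := EllRed.det_galoisRepModuleEnd W hΔ 3 σ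
  rw [← h, ← LinearMap.det_toMatrix b]
  rfl

theorem continuous_repOf (hΔ : W.Δ ≠ 0) : Continuous (repOf b) := by
  have : (W.map (Int.castRingHom ℚ)).IsElliptic := EllTorsion.isElliptic_map_of_Δ_ne_zero hΔ
  obtain ⟨L, hL, hfix⟩ := EllTorsion.galoisRepModuleEnd_factorsThroughFiniteLevel
    (W.map (Int.castRingHom ℚ)) (n := 3) (by norm_num)
  have hle : L.fixingSubgroup ≤ (repOf b).ker := by
    intro σ hσ
    rw [MonoidHom.mem_ker, repOf_eq_one_iff]
    intro x
    have h1 := hfix σ ((IntermediateField.mem_fixingSubgroup_iff L σ).mp hσ)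
    exact LinearMap.congr_fun h1 x
  have hopen : IsOpen (((repOf b).ker : Subgroup Γℚ) : Set Γℚ) :=
    Subgroup.isOpen_mono hle (IntermediateField.fixingSubgroup_isOpen L)
  refine continuous_of_continuousAt_one (repOf b) ?_
  rw [ContinuousAt, map_one, nhds_discrete G3, Filter.tendsto_pure]
  exact hopen.mem_nhds (one_mem _)

theorem tame_repOf (hΔ : W.Δ ≠ 0) (hss : W.IsSemistableModel) (q : ℕ) (hq : q.Prime) (hq3 : q ≠ 3)
    (A : ValuationSubring ℚbar) (hA : A.LiesOverPrime q) (σ : Γℚ)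
    (hσ : σ ∈ A.inertiaSubgroupIn ℚ) : (repOf b σ) ^ 3 = 1 := by
  have h1 := LOC.inertia_sub_one_mul_sub_one W hΔ hq (hss q hq) (n := 3)
    (fun h => hq3 ((Nat.prime_dvd_prime_iff_eq hq Nat.prime_three).mp h)) A hA hσ hσ
  have h2 := congrArg (LinearMap.toMatrix b b) h1
  rw [LinearMap.toMatrix_mul, map_sub, _root_.map_zero, LinearMap.toMatrix_one, ← repOf_coe] at h2
  apply Units.ext
  rw [Units.val_pow_eq_pow_val, Units.val_one]
  set g : Matrix (Fin 2) (Fin 2) (ZMod 3) := ((repOf b σ : G3) : Matrix (Fin 2) (Fin 2) (ZMod 3))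
  have h3 : (3 : Matrix (Fin 2) (Fin 2) (ZMod 3)) = 0 := by
    ext i j
    fin_cases i <;> fin_cases j <;> decide
  have h4 : g ^ 3 - 1 = (g - 1) * (g - 1) * (g + 2) + 3 * (g - 1) := by noncomm_ring
  rw [h2, zero_mul, h3, zero_mul, add_zero, sub_eq_zero] at h4
  exact h4

theorem irr_repOf (hirr : W.ModRepIsIrreducible 3) : Irr (repOf b).range := by
  intro x y hxy
  by_contra hall
  push Not at hall
  set v : T3 W := x • b 0 + y • b 1 with hv
  have hrepr : b.repr v = Finsupp.single 0 x + Finsupp.single 1 y := by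
    rw [hv, map_add, map_smul, map_smul, b.repr_self, b.repr_self]
    simp
  have hv0 : v ≠ 0 := by
    intro h
    rw [h, _root_.map_zero] at hrepr
    apply hxy
    have h0 := DFunLike.congr_fun hrepr 0
    have h1 := DFunLike.congr_fun hrepr 1
    simp at h0 h1
    exact ⟨h0.symm, h1.symm⟩
  have hstab : WeierstrassCurve.Affine.Point.IsGaloisStable ℚ (Submodule.span (ZMod 3) {v}) := by
    intro σ w hw
    obtain ⟨k, rfl⟩ := Submodule.mem_span_singleton.mp hw
    have h1 : σ • (k • v) = k • (σ • v) := smul_comm σ k v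
    rw [h1]
    refine Submodule.smul_mem _ k ?_
    have h2 := hall (repOf b σ) ⟨σ, rfl⟩
    -- coordinates of `σ v`
    have hσb : ∀ j, σ • b j = (repOf b σ) 0 j • b 0 + (repOf b σ) 1 j • b 1 := by
      intro j
      have h3 := b.sum_repr (σ • b j)
      rw [Fin.sum_univ_two] at h3
      rw [repOf_apply, repOf_apply, h3]
    have h4 : σ • v = (x * (repOf b σ) 0 0 + y * (repOf b σ) 0 1) • b 0 +
        (x * (repOf b σ) 1 0 + y * (repOf b σ) 1 1) • b 1 := by
      rw [hv, smul_add, smul_comm σ x, smul_comm σ y, hσb, hσb]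
      module
    have key : ∀ x y x' y' : ZMod 3, ¬ (x = 0 ∧ y = 0) → x * y' - y * x' = 0 →
      ∃ k : ZMod 3, x' = k * x ∧ y' = k * y := by decide
    obtain ⟨k, hk1, hk2⟩ := key x y _ _ (fun h => hxy h) h2
    rw [Submodule.mem_span_singleton]
    refine ⟨k, ?_⟩
    rw [h4, hv, smul_add, smul_smul, smul_smul, ← hk1, ← hk2]
    congr 2 <;> ring
  rcases hirr.2 _ hstab with h | h
  · rw [Submodule.span_singleton_eq_bot] at h
    exact hv0 h
  · have h1 : Module.finrank (ZMod 3) (Submodule.span (ZMod 3) {v}) = 1 := finrank_span_singleton hv0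
    rw [h, finrank_top, Module.finrank_eq_card_basis b] at h1
    simp at h1

theorem isOcta_repOf (hΔ : W.Δ ≠ 0) (hss : W.IsSemistableModel) (hirr : W.ModRepIsIrreducible 3) :
    IsOcta (repOf b) where
  cont := continuous_repOf b hΔ
  surj := surjective_of_irr _ (continuous_repOf b hΔ) (det_repOf b hΔ) (tame_repOf b hΔ hss)
    (irr_repOf b hirr)
  det := det_repOf b hΔ
  tame := tame_repOf b hΔ hss

theorem nonempty_basis (hΔ : W.Δ ≠ 0) : Nonempty (Module.Basis (Fin 2) (ZMod 3) (T3 W)) := by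
  have : (W.map (Int.castRingHom ℚ)).IsElliptic := EllTorsion.isElliptic_map_of_Δ_ne_zero hΔ
  exact EllTorsion.nonempty_basis_torsionBy_rat (W.map (Int.castRingHom ℚ)) (n := 3) (by norm_num)

/-- trace of Frobenius -/
theorem tr_repOf_frob {ℓ : ℕ} (hℓ : ℓ.Prime) (hW : W.IsGoodPrimeFor ℓ) (hℓ3 : ℓ ≠ 3)
    (A : ValuationSubring ℚbar) (hA : A.LiesOverPrime ℓ) {σ : Γℚ} (hσ : A.IsFrobeniusAt σ ℓ) :
    tr (repOf b σ) = ((W.apOfModel ℓ : ℤ) : ZMod 3) := by
  rw [tr_eq, repOf_coe, ← LinearMap.trace_eq_matrix_trace (ZMod 3) b]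
  exact EllRed.galoisTrace_frob W hℓ hW (n := 3)
    (fun h => hℓ3 ((Nat.prime_dvd_prime_iff_eq hℓ Nat.prime_three).mp h)) A hA hσ

end rep

end Fermat.Agent.LT.K
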