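import Fermat.Agent.LT.K.Prod

/-!
# LT piece K-C: the twist of a weight two eigenform by `χ_{-3}`

(helper51, LT/K.)
-/

set_option autoImplicit false

noncomputable section

open UpperHalfPlane ModularForm ModularFormClass CongruenceSubgroup Matrix.SpecialLinearGroup
open scoped MatrixGroups ModularForm

namespace Fermat.Agent.LT.K

open Fermat.Agent Fermat.Agent.DS.Hecke1 Fermat.Agent.HeckeDuality

/-! ### The translation matrix -/

/-- Translation by `u / 3`, rational. -/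
def shQ (u : ℤ) : GL (Fin 2) ℚ :=
  Matrix.GeneralLinearGroup.mkOfDetNeZero !![1, (u : ℚ) / 3; 0, 1] (by
    rw [Matrix.det_fin_two_of]; norm_num)

/-- Translation by `u / 3`, real. -/
def shR (u : ℤ) : GL (Fin 2) ℝ := Matrix.GeneralLinearGroup.map (Rat.castHom ℝ) (shQ u)

theorem shR_val (u : ℤ) : (shR u : Matrix (Fin 2) (Fin 2) ℝ) = !![1, (u : ℝ) / 3; 0, 1] := by
  ext i j
  fin_cases i <;> fin_cases j <;> simp [shR, shQ, Matrix.GeneralLinearGroup.mkOfDetNeZero]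

theorem det_shR (u : ℤ) : ((shR u).det : ℝ) = 1 := by
  rw [Matrix.GeneralLinearGroup.val_det_apply, shR_val, Matrix.det_fin_two_of]
  norm_num

theorem slash_shR (f : ℍ → ℂ) (k : ℤ) (u : ℤ) (τ : ℍ) :
    (f ∣[k] shR u) τ = f (((u : ℝ) / 3) +ᵥ τ) := by
  have hσ : UpperHalfPlane.σ (shR u) = .refl ℝ ℂ := by
    rw [UpperHalfPlane.σ, if_pos (by rw [det_shR]; norm_num)]
  have hden : UpperHalfPlane.denom (shR u) τ = 1 := by
    rw [UpperHalfPlane.denom, shR_val]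
    simp
  have hsm : shR u • τ = ((u : ℝ) / 3) +ᵥ τ := by
    ext
    rw [UpperHalfPlane.coe_smul_of_det_pos (by rw [det_shR]; norm_num), hden]
    simp only [UpperHalfPlane.num, shR_val]
    simp [add_comm]
  rw [ModularForm.slash_apply, hσ, det_shR, hden, hsm]
  simp

variable {M N : ℕ}

theorem exists_conj_sh (h9 : 9 ∣ N) (hMN : M ∣ N) (u : ℤ) {γ : SL(2, ℤ)} (hγ : γ ∈ Gamma0 N) :
    ∃ δ : SL(2, ℤ), δ ∈ Gamma0 M ∧
      shR u * (mapGL ℝ γ : GL (Fin 2) ℝ) = mapGL ℝ δ * shR u := by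
  have hN : (N : ℤ) ∣ γ 1 0 := by
    rw [Gamma0_mem] at hγ
    exact (ZMod.intCast_zmod_eq_zero_iff_dvd _ _).1 hγ
  obtain ⟨c, hc⟩ : (9 : ℤ) ∣ γ 1 0 := (by exact_mod_cast h9 : (9 : ℤ) ∣ (N : ℤ)).trans hN
  have hdet := det_eq γ
  obtain ⟨e, he⟩ : (3 : ℤ) ∣ γ 1 1 - γ 0 0 := by
    have h1 : (γ 0 0 * γ 1 1) % 3 = 1 := by
      have : γ 0 0 * γ 1 1 = 1 + 3 * (3 * γ 0 1 * c) := by linear_combination hdet + γ 0 1 * hc
      omega
    have h2 : γ 0 0 % 3 = 0 ∨ γ 0 0 % 3 = 1 ∨ γ 0 0 % 3 = 2 := by omega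
    have h4 : γ 1 1 % 3 = 0 ∨ γ 1 1 % 3 = 1 ∨ γ 1 1 % 3 = 2 := by omega
    rw [Int.mul_emod] at h1
    rcases h2 with h2 | h2 | h2 <;> rcases h4 with h4 | h4 | h4 <;> rw [h2, h4] at h1 <;>
      omega
  obtain ⟨a, ha⟩ : ∃ a : ℤ, a = γ 0 0 := ⟨_, rfl⟩
  obtain ⟨b, hb⟩ : ∃ b : ℤ, b = γ 0 1 := ⟨_, rfl⟩
  obtain ⟨d, hd⟩ : ∃ d : ℤ, d = γ 1 1 := ⟨_, rfl⟩
  rw [← ha, ← hb, ← hd, hc] at hdet
  rw [← ha, ← hd] at he
  have hdetA : (!![a + 3 * u * c, b + u * e - u ^ 2 * c; 9 * c, d - 3 * u * c] :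
      Matrix (Fin 2) (Fin 2) ℤ).det = 1 := by
    rw [Matrix.det_fin_two_of]
    linear_combination hdet + 3 * u * c * he
  obtain ⟨δ, h00, h01, h10, h11⟩ : ∃ δ : SL(2, ℤ), δ 0 0 = a + 3 * u * c ∧
      δ 0 1 = b + u * e - u ^ 2 * c ∧ δ 1 0 = 9 * c ∧ δ 1 1 = d - 3 * u * c :=
    ⟨⟨!![a + 3 * u * c, b + u * e - u ^ 2 * c; 9 * c, d - 3 * u * c], hdetA⟩, rfl, rfl, rfl, rfl⟩
  refine ⟨δ, ?_, ?_⟩
  · rw [Gamma0_mem, ZMod.intCast_zmod_eq_zero_iff_dvd, h10, ← hc]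
    exact (Int.natCast_dvd_natCast.mpr hMN).trans hN
  · have he' := congrArg (Int.cast : ℤ → ℝ) he
    push_cast at he'
    have hγ' : ((mapGL ℝ γ : GL (Fin 2) ℝ) : Matrix (Fin 2) (Fin 2) ℝ) =
        !![(a : ℝ), (b : ℝ); 9 * (c : ℝ), (d : ℝ)] := by
      ext i j
      fin_cases i <;> fin_cases j
      · simp [ha]
      · simp [hb]
      · simp [hc]
      · simp [hd]
    have hδ' : ((mapGL ℝ δ : GL (Fin 2) ℝ) : Matrix (Fin 2) (Fin 2) ℝ) =
        !![(a : ℝ) + 3 * u * c, (b : ℝ) + u * e - u ^ 2 * c; 9 * (c : ℝ), (d : ℝ) - 3 * u * c] := by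
      ext i j
      fin_cases i <;> fin_cases j
      · simp [h00]
      · simp [h01]
      · simp [h10]
      · simp [h11]
    apply Units.ext
    rw [Units.val_mul, Units.val_mul, shR_val, hγ', hδ', Matrix.mul_fin_two, Matrix.mul_fin_two]
    congr 1
    funext i j
    fin_cases i <;> fin_cases j
    · simp; ring
    · simp
      linear_combination ((u : ℝ) / 3) * he'
    · simp
    · simp; ring

/-- The translate `h(z + u/3)` as a cusp form on `Γ₀(N)`. -/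
def shForm [NeZero M] [NeZero N] (h9 : 9 ∣ N) (hMN : M ∣ N) (u : ℤ) (h : CuspForm (Gamma0 M) 2) :
    CuspForm (Gamma0 N) 2 where
  toFun := ⇑h ∣[(2 : ℤ)] shR u
  slash_action_eq' := by
    rintro _ ⟨γ, hγ, rfl⟩
    obtain ⟨δ, hδ, h1⟩ := exists_conj_sh h9 hMN u hγ
    rw [← SlashAction.slash_mul, h1, SlashAction.slash_mul]
    congr 1
    exact SlashInvariantFormClass.slash_action_eq h _ ⟨δ, hδ, rfl⟩
  holo' := (CuspFormClass.holo h).slash 2 _
  zero_at_cusps' := fun {c} hc => by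
    refine P2MW.S_CuspFormClass_isZeroAt_heckeT.ModularForm.S06W2.isZeroAt_slash_ratCast h (shQ u) ?_
    rw [Subgroup.IsArithmetic.isCusp_iff_isCusp_SL2Z] at hc ⊢
    exact hc

theorem good0 [NeZero N] (h : CuspForm (Gamma0 N) 2) : Good ⇑h :=
  Good.of_form (CongruenceSubgroup.one_mem_strictPeriods_Gamma0 N) h

theorem qCoeff_shForm [NeZero M] [NeZero N] (h9 : 9 ∣ N) (hMN : M ∣ N) (u : ℤ)
    (h : CuspForm (Gamma0 M) 2) (n : ℕ) :
    qCoeff ⇑(shForm h9 hMN u h) n =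
      Complex.exp (2 * Real.pi * Complex.I * (u * n / 3)) * qCoeff ⇑h n := by
  refine qCoeff_of_hasSum (c := fun n : ℕ => Complex.exp (2 * Real.pi * Complex.I * (u * n / 3)) *
    qCoeff ⇑h n) (good0 _) (fun τ => ?_) n
  have h1 := ModularForm.hasSum_qExpansion (h := 1) h one_pos
    (CongruenceSubgroup.one_mem_strictPeriods_Gamma0 M) (((u : ℝ) / 3) +ᵥ τ)
  have h2 : (⇑(shForm h9 hMN u h) : ℍ → ℂ) τ = h (((u : ℝ) / 3) +ᵥ τ) := slash_shR _ 2 u τ
  rw [h2]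
  have h3 : (fun n : ℕ => Complex.exp (2 * Real.pi * Complex.I * (u * n / 3)) * qCoeff ⇑h n *
      Complex.exp (2 * Real.pi * Complex.I * n * τ)) = fun n : ℕ => (qExpansion 1 ⇑h).coeff n *
        Function.Periodic.qParam 1 ((((u : ℝ) / 3) +ᵥ τ : ℍ) : ℂ) ^ n := by
    funext n
    rw [qParam_pow, mul_right_comm, ← Complex.exp_add, mul_comm, UpperHalfPlane.coe_vadd]
    congr 1
    congr 1
    push_cast
    ring
  rw [h3]
  exact h1

/-! ### The twist -/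

/-- `ω - ω²`. -/
def gaussThree : ℂ := Complex.exp (2 * Real.pi * Complex.I * (1 / 3)) -
  Complex.exp (2 * Real.pi * Complex.I * (-1 / 3))

theorem exp_int_period (x : ℂ) (m : ℤ) :
    Complex.exp (2 * Real.pi * Complex.I * (x + m)) = Complex.exp (2 * Real.pi * Complex.I * x) := by
  rw [mul_add, Complex.exp_add, show 2 * Real.pi * Complex.I * (m : ℂ) =
    (m : ℂ) * (2 * Real.pi * Complex.I) by ring, Complex.exp_int_mul_two_pi_mul_I, mul_one]

theorem gauss_eq (n : ℕ) : Complex.exp (2 * Real.pi * Complex.I * (((1 : ℤ) : ℂ) * n / 3)) -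
    Complex.exp (2 * Real.pi * Complex.I * (((-1 : ℤ) : ℂ) * n / 3)) =
      ((chi3 n : ℤ) : ℂ) * gaussThree := by
  obtain ⟨q, r, hr, hn⟩ : ∃ q r : ℕ, r < 3 ∧ n = 3 * q + r :=
    ⟨n / 3, n % 3, Nat.mod_lt _ (by norm_num), (Nat.div_add_mod n 3).symm⟩
  have e1 : Complex.exp (2 * Real.pi * Complex.I * (((1 : ℤ) : ℂ) * n / 3)) =
      Complex.exp (2 * Real.pi * Complex.I * ((r : ℂ) / 3)) := by
    rw [← exp_int_period ((r : ℂ) / 3) q, hn]
    congr 2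
    push_cast
    ring
  have e2 : Complex.exp (2 * Real.pi * Complex.I * (((-1 : ℤ) : ℂ) * n / 3)) =
      Complex.exp (2 * Real.pi * Complex.I * (-(r : ℂ) / 3)) := by
    rw [← exp_int_period (-(r : ℂ) / 3) (-(q : ℤ)), hn]
    congr 2
    push_cast
    ring
  rw [e1, e2, gaussThree]
  have hχ : chi3 (n : ℤ) = chi3 (r : ℤ) := by
    rw [chi3_mod (n : ℤ), chi3_mod (r : ℤ)]
    congr 1
    rw [hn]
    push_cast
    omega
  rw [hχ]
  interval_cases r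
  · simp [chi3_zero']
  · simp [chi3_one]
  · have h2 : Complex.exp (2 * Real.pi * Complex.I * (((2 : ℕ) : ℂ) / 3)) =
        Complex.exp (2 * Real.pi * Complex.I * (-1 / 3)) := by
      rw [← exp_int_period (-1 / 3) 1]
      congr 2
      push_cast
      ring
    have h3 : Complex.exp (2 * Real.pi * Complex.I * (-((2 : ℕ) : ℂ) / 3)) =
        Complex.exp (2 * Real.pi * Complex.I * (1 / 3)) := by
      rw [← exp_int_period (1 / 3) (-1)]
      congr 2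
      push_cast
      ring
    rw [h2, h3]
    have : chi3 ((2 : ℕ) : ℤ) = -1 := chi3_two
    rw [this]
    push_cast
    ring

theorem gaussThree_ne_zero : gaussThree ≠ 0 := by
  intro h
  rw [gaussThree, sub_eq_zero] at h
  have h1 : Complex.exp (2 * Real.pi * Complex.I * (1 / 3) - 2 * Real.pi * Complex.I * (-1 / 3)) = 1 := by
    rw [Complex.exp_sub, h, div_self (Complex.exp_ne_zero _)]
  rw [Complex.exp_eq_one_iff] at h1
  obtain ⟨n, hn⟩ := h1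
  have h2 : (2 * Real.pi * Complex.I : ℂ) ≠ 0 := Complex.two_pi_I_ne_zero
  have h3 : (2 * Real.pi * Complex.I : ℂ) * (2 - 3 * n) = 0 := by
    linear_combination 3 * hn
  have h4 : (2 - 3 * (n : ℂ)) = 0 := (mul_eq_zero.mp h3).resolve_left h2
  have h5 : (2 : ℤ) - 3 * n = 0 := by exact_mod_cast h4
  omega

section twist

variable [NeZero M] [NeZero N]

/-- The twist `h ⊗ χ_{-3}`. -/
def twist3 (h9 : 9 ∣ N) (hMN : M ∣ N) (h : CuspForm (Gamma0 M) 2) : CuspForm (Gamma0 N) 2 :=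
  gaussThree⁻¹ • (shForm h9 hMN 1 h - shForm h9 hMN (-1) h)

theorem qCoeff_twist3 (h9 : 9 ∣ N) (hMN : M ∣ N) (h : CuspForm (Gamma0 M) 2) (n : ℕ) :
    qCoeff ⇑(twist3 h9 hMN h) n = ((chi3 n : ℤ) : ℂ) * qCoeff ⇑h n := by
  rw [twist3, qc_smul, qc_sub, qCoeff_shForm, qCoeff_shForm, ← sub_mul, gauss_eq]
  have := gaussThree_ne_zero
  field_simp

/-- **K-C**: the twist by `χ_{-3}` of a normalised eigenform is a normalised eigenform. -/
theorem isNormalizedEigenform_twist3 (h9 : 9 ∣ N) (hMN : M ∣ N)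
    (hN : ∀ p : ℕ, p.Prime → p ∣ N → p ∣ M ∨ p = 3) {h : CuspForm (Gamma0 M) 2}
    (hh : h.IsNormalizedEigenform) : (twist3 h9 hMN h).IsNormalizedEigenform := by
  have hpow : ∀ (p r : ℕ), chi3 ((p ^ r : ℕ) : ℤ) = chi3 (p : ℤ) ^ r := by
    intro p r
    induction r with
    | zero => simp [chi3_one]
    | succ r ih => rw [pow_succ, Nat.cast_mul, chi3_mul, ih, pow_succ]
  have hsq : ∀ p : ℕ, p.Prime → p ≠ 3 → chi3 (p : ℤ) ^ 2 = 1 := by
    intro p hp hp3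
    rw [pow_two]
    refine chi3_mul_self fun h3 => hp3 ?_
    have h3' : 3 ∣ p := by exact_mod_cast h3
    exact ((Nat.prime_dvd_prime_iff_eq Nat.prime_three hp).mp h3').symm
  refine ⟨?_, ?_, ?_, ?_⟩
  · rw [qCoeff_twist3, hh.qCoeff_one, Nat.cast_one, chi3_one]; simp
  · intro m n hmn
    rw [qCoeff_twist3, qCoeff_twist3, qCoeff_twist3, hh.qCoeff_mul_of_coprime m n hmn,
      Nat.cast_mul, chi3_mul]
    push_cast
    ring
  · intro p r hp hpN
    have hp3 : p ≠ 3 := by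
      rintro rfl
      exact hpN (dvd_trans (by norm_num) h9)
    have hpM : ¬ p ∣ M := fun h => hpN (h.trans hMN)
    have h2 : ((chi3 (p : ℤ) : ℤ) : ℂ) ^ 2 = 1 := by exact_mod_cast hsq p hp hp3
    rw [qCoeff_twist3, qCoeff_twist3, qCoeff_twist3, qCoeff_twist3,
      hh.qCoeff_prime_pow_of_not_dvd p r hp hpM, hpow, hpow, hpow]
    push_cast
    linear_combination (-(p : ℂ) * qCoeff ⇑h (p ^ r) * (chi3 (p : ℤ) : ℂ) ^ r) * h2
  · intro p r hp hpN
    rw [qCoeff_twist3, qCoeff_twist3, qCoeff_twist3, hpow, hpow]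
    rcases hN p hp hpN with hpM | rfl
    · rw [hh.qCoeff_prime_pow_of_dvd p r hp hpM]
      push_cast
      ring
    · have : chi3 ((3 : ℕ) : ℤ) = 0 := by
        rcases chi3_cases ((3 : ℕ) : ℤ) with ⟨_, h⟩ | ⟨h, _⟩ | ⟨h, _⟩
        · exact h
        · norm_num at h
        · norm_num at h
      rw [this]
      simp

/-- **K-C**: existence form, level `lcm(M, 9)`. -/
theorem exists_twist3 {M : ℕ} (hM : M ≠ 0) {h : CuspForm (Gamma0 M) 2}
    (hh : h.IsNormalizedEigenform) :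
    ∃ g : CuspForm (Gamma0 (Nat.lcm M 9)) 2, g.IsNormalizedEigenform ∧
      ∀ n, qCoeff ⇑g n = ((chi3 n : ℤ) : ℂ) * qCoeff ⇑h n := by
  have : NeZero M := ⟨hM⟩
  have : NeZero (Nat.lcm M 9) := ⟨Nat.lcm_ne_zero hM (by norm_num)⟩
  refine ⟨twist3 (Nat.dvd_lcm_right M 9) (Nat.dvd_lcm_left M 9) h,
    isNormalizedEigenform_twist3 _ _ (fun p hp hpN => ?_) hh, qCoeff_twist3 _ _ h⟩
  have h1 : p ∣ M * 9 := hpN.trans (Nat.lcm_dvd_mul M 9)
  rcases (Nat.Prime.dvd_mul hp).mp h1 with h1 | h1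
  · exact Or.inl h1
  · right
    have h2 : p ∣ 3 ^ 2 := by simpa using h1
    exact (Nat.prime_dvd_prime_iff_eq hp Nat.prime_three).mp (hp.dvd_of_dvd_pow h2)

theorem not_cube_dvd_lcm {M : ℕ} (hM : ∀ q : ℕ, q.Prime → q ≠ 3 → ¬ q ^ 3 ∣ M) (q : ℕ)
    (hq : q.Prime) (hq3 : q ≠ 3) : ¬ q ^ 3 ∣ Nat.lcm M 9 := by
  intro h
  refine hM q hq hq3 ?_
  have h1 : q ^ 3 ∣ M * 9 := h.trans (Nat.lcm_dvd_mul M 9)
  refine Nat.Coprime.dvd_of_dvd_mul_right ?_ h1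
  have h2 : Nat.Coprime q 3 := (Nat.coprime_primes hq Nat.prime_three).mpr hq3
  exact Nat.Coprime.pow 3 2 h2

end twist

end Fermat.Agent.LT.K
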