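import Fermat.Agent.LT.K.Compare
import Fermat.Agent.LT.K.Surj
import Fermat.Agent.LT.K.At3
import Fermat.Agent.LT.K.Pair
import Fermat.Agent.LT.K.Twist2
import Fermat.Agent.S29

/-!
# LT piece K: `LTCore` implies residual modularity at `3` (statement S50)
-/

set_option autoImplicit false

open WeierstrassCurve WeierstrassCurve.Affine WeierstrassCurve.Affine.Point
open CongruenceSubgroup ModularFormClass Fermat.Agent.FrobExists Polynomial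
open scoped WeierstrassCurve.Affine
open scoped MatrixGroups ModularForm

namespace Fermat.Agent.LT.K

local notation "Γℚ" => (AlgebraicClosure ℚ ≃ₐ[ℚ] AlgebraicClosure ℚ)
local notation "ℚbar" => AlgebraicClosure ℚ

theorem chi3_cast (d : ℤ) : ((chi3 d : ℤ) : ZMod 3) = (d : ZMod 3) := by
  have h := three_dvd_sub_chi3 d
  have h2 : ((d - chi3 d : ℤ) : ZMod 3) = 0 := (ZMod.intCast_zmod_eq_zero_iff_dvd _ 3).mpr h
  rw [Int.cast_sub, sub_eq_zero] at h2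
  exact h2.symm

namespace Octa

variable (R : Octa)

/-- `det ρ(Frob_ℓ) = ℓ` -/
theorem dt_frob {ℓ : ℕ} (hℓ : ℓ.Prime) (h3 : ℓ ≠ 3) {A : ValuationSubring ℚbar}
    (hA : A.LiesOverPrime ℓ) {σ : Γℚ} (hσ : A.IsFrobeniusAt σ ℓ) :
    dt (R.ρ σ) = ((ℓ : ℕ) : ZMod 3) := by
  have h1 := congrArg (fun u : (ZMod 3)ˣ => (u : ZMod 3)) (R.isOcta.det σ)
  have h2 : ((R.ρ σ : G3) : Matrix (Fin 2) (Fin 2) (ZMod 3)).det = ((ℓ : ℕ) : ZMod 3) := by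
    refine Eq.trans h1 ?_
    exact Cyclotomic.cyc_frobenius (n := 3) hℓ
      (fun h => h3 ((Nat.prime_dvd_prime_iff_eq hℓ Nat.prime_three).mp h)) A hA hσ
  rw [dt_eq, h2]

/-- An eigenform of weight two is congruent to `ρ`. -/
def Cong {M : ℕ} (h : CuspForm (Gamma0 M) 2) (𝔪 : Ideal (integralClosure ℤ ℂ)) : Prop :=
  ∀ ℓ : ℕ, ℓ.Prime → ¬ ℓ ∣ M → ∀ (A : ValuationSubring ℚbar) (σ : Γℚ), A.LiesOverPrime ℓ →
    A.IsFrobeniusAt σ ℓ → ∀ t : ℤ, (t : ZMod 3) = tr (R.ρ σ) →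
      ∃ a : integralClosure ℤ ℂ, (a : ℂ) = qCoeff ⇑h ℓ ∧ a - (t : integralClosure ℤ ℂ) ∈ 𝔪

/-- An eigenform of weight two is congruent to `ρ ⊗ χ`. -/
def Cong' {M : ℕ} (h : CuspForm (Gamma0 M) 2) (𝔪 : Ideal (integralClosure ℤ ℂ)) : Prop :=
  ∀ ℓ : ℕ, ℓ.Prime → ¬ ℓ ∣ M → ∀ (A : ValuationSubring ℚbar) (σ : Γℚ), A.LiesOverPrime ℓ →
    A.IsFrobeniusAt σ ℓ → ∀ t : ℤ, (t : ZMod 3) = dt (R.ρ σ) * tr (R.ρ σ) →
      ∃ a : integralClosure ℤ ℂ, (a : ℂ) = qCoeff ⇑h ℓ ∧ a - (t : integralClosure ℤ ℂ) ∈ 𝔪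

theorem cong_or {N : ℕ} (hN : N ≠ 0) (h3N : 3 ∣ N) {h : CuspForm (Gamma0 N) 2}
    (hh : h.IsNormalizedEigenform) {𝔪 : Ideal (integralClosure ℤ ℂ)} (hm : 𝔪.IsMaximal)
    (h3 : ((3 : ℕ) : integralClosure ℤ ℂ) ∈ 𝔪) (T : Finset ℕ)
    (hrel : ∀ p : ℕ, p.Prime → p ∉ T → ¬ p ∣ N → ∀ (A : ValuationSubring ℚbar) (σ : Γℚ),
      A.LiesOverPrime p → A.IsFrobeniusAt σ p → R.ρ σ ∈ Q8 →
      ∃ a : integralClosure ℤ ℂ, (a : ℂ) = qCoeff ⇑h p ∧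
        a - ((trQ (R.ρ σ) : ℤ) : integralClosure ℤ ℂ) ∈ 𝔪) :
    R.Cong h 𝔪 ∨ R.Cong' h 𝔪 := by
  classical
  let _ : Field (integralClosure ℤ ℂ ⧸ 𝔪) := Ideal.Quotient.field 𝔪
  have hnt : Nontrivial (integralClosure ℤ ℂ ⧸ 𝔪) := inferInstance
  have hchar : CharP (integralClosure ℤ ℂ ⧸ 𝔪) 3 := by
    refine (CharP.charP_iff_prime_eq_zero Nat.prime_three).mpr ?_
    have := Ideal.Quotient.eq_zero_iff_mem.mpr h3
    rwa [map_natCast] at this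
  obtain ⟨RR, hRR, -⟩ := S29.result hh Nat.prime_three (Ideal.Quotient.mk 𝔪)
  -- traces and determinants of Frobenius
  have key : ∀ ℓ : ℕ, ℓ.Prime → ¬ ℓ ∣ N → ∀ (A : ValuationSubring ℚbar) (σ : Γℚ),
      A.LiesOverPrime ℓ → A.IsFrobeniusAt σ ℓ → ∃ a : integralClosure ℤ ℂ,
        (a : ℂ) = qCoeff ⇑h ℓ ∧
        LinearMap.trace _ RR.V (RR.ρ σ) = Ideal.Quotient.mk 𝔪 a ∧
        LinearMap.det (RR.ρ σ) = ((ℓ : ℕ) : integralClosure ℤ ℂ ⧸ 𝔪) := by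
    intro ℓ hℓ hℓN A σ hA hσ
    have hℓ3 : ((ℓ : ℕ) : integralClosure ℤ ℂ ⧸ 𝔪) ≠ 0 := by
      rw [Ne, CharP.cast_eq_zero_iff _ 3]
      intro h
      rw [(Nat.prime_dvd_prime_iff_eq Nat.prime_three hℓ).mp h] at h3N
      exact hℓN h3N
    obtain ⟨a, ha, hcp⟩ := hRR ℓ hℓ hℓN hℓ3 A hA σ hσ
    rw [BN2.charpoly_eq_of_finrank_two RR.finrank_eq] at hcp
    have c0 := congrArg (fun p => p.coeff 0) hcp
    have c1 := congrArg (fun p => p.coeff 1) hcp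
    refine ⟨a, ha, ?_, ?_⟩
    · simpa [coeff_X, coeff_C] using c1
    · simpa [coeff_X, coeff_C] using c0
  rcases R.compare RR (T ∪ N.primeFactors) (by
      intro p hp hpT A σ hA hσ hQ
      rw [Finset.mem_union, not_or, Nat.mem_primeFactors] at hpT
      have hpN : ¬ p ∣ N := fun h => hpT.2 ⟨hp, h, hN⟩
      obtain ⟨a, ha, htr, -⟩ := key p hp hpN A σ hA hσ
      obtain ⟨a', ha', hmem⟩ := hrel p hp hpT.1 hpN A σ hA hσ hQ
      obtain rfl : a' = a := Subtype.ext (ha'.trans ha.symm)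
      rw [htr, ← sub_eq_zero, ← map_intCast (Ideal.Quotient.mk 𝔪), ← map_sub,
        Ideal.Quotient.eq_zero_iff_mem]
      exact hmem) (by
      intro p hp hpT A σ hA hσ
      rw [Finset.mem_union, not_or, Nat.mem_primeFactors] at hpT
      have hpN : ¬ p ∣ N := fun h => hpT.2 ⟨hp, h, hN⟩
      obtain ⟨a, ha, -, hdet⟩ := key p hp hpN A σ hA hσ
      exact hdet) with hall | hall
  · left
    intro ℓ hℓ hℓN A σ hA hσ t ht
    obtain ⟨a, ha, htr, -⟩ := key ℓ hℓ hℓN A σ hA hσ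
    refine ⟨a, ha, ?_⟩
    rw [← Ideal.Quotient.eq_zero_iff_mem, map_sub, map_intCast, ← htr, hall σ, ← ht, map_intCast,
      sub_self]
  · right
    intro ℓ hℓ hℓN A σ hA hσ t ht
    obtain ⟨a, ha, htr, -⟩ := key ℓ hℓ hℓN A σ hA hσ
    refine ⟨a, ha, ?_⟩
    rw [← Ideal.Quotient.eq_zero_iff_mem, map_sub, map_intCast, ← htr, hall σ, ← ht, map_intCast,
      sub_self]

/-- **The mod 3 part of LT**: `LTCore` gives a weight two eigenform congruent to `ρ`. -/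
theorem exists_cong (hLT : LTCore) :
    ∃ (M : ℕ) (h : CuspForm (Gamma0 M) 2) (𝔪 : Ideal (integralClosure ℤ ℂ)), M ≠ 0 ∧ 3 ∣ M ∧
      h.IsNormalizedEigenform ∧ 𝔪.IsMaximal ∧ ((3 : ℕ) : integralClosure ℤ ℂ) ∈ 𝔪 ∧ R.Cong h 𝔪 ∧
      (∀ q : ℕ, q.Prime → q ≠ 3 → ¬ q ^ 3 ∣ M) ∧ (TameAtThree R.ρ → ¬ 9 ∣ M) := by
  classical
  obtain ⟨N, f, T, hN0, h3N, hf0, hχ, hcube, htame, hrel⟩ := hLT R.ρ R.isOcta
  have : NeZero N := ⟨hN0⟩
  obtain ⟨B, hB⟩ := exists_liesOverPrime ℂ Nat.prime_three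
  have hm := center_isMaximal B Nat.prime_three hB
  have h3m := natCast_mem_center B hB
  have hne3 : ∀ ℓ : ℕ, ¬ ℓ ∣ N → ℓ ≠ 3 := by
    rintro ℓ h rfl
    exact h h3N
  -- a nonzero coefficient
  obtain ⟨n0, hn0⟩ : ∃ n, qCoeff ⇑f n ≠ 0 := by
    by_contra hall
    push Not at hall
    apply hf0
    refine DS.Hecke1.ext_qc fun n => ?_
    rw [DS.Hecke1.qc_apply, _root_.map_zero, hall n]
  have hrel' : ∀ p : ℕ, p.Prime → p ∉ T → ∀ (A : ValuationSubring ℚbar) (σ : Γℚ),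
      A.LiesOverPrime p → A.IsFrobeniusAt σ p → R.ρ σ ∈ Q8 →
      ∀ n : ℕ, qCoeff ⇑f (p * n) + (if p ∣ n then qCoeff ⇑f (n / p) else 0) =
        (trQ (R.ρ σ) : ℂ) * qCoeff ⇑f n := by
    intro p hp hpT A σ hA hσ hQ
    obtain ⟨h1, h2⟩ := mem_Q8_iff.mp hQ
    exact hrel p hp hpT A hA σ hσ h1 h2
  have hchi : ∀ p : ℕ, p.Prime → ¬ p ∣ N → ∀ (A : ValuationSubring ℚbar) (σ : Γℚ),
      A.LiesOverPrime p → A.IsFrobeniusAt σ p → R.ρ σ ∈ Q8 → chi3 p = 1 := by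
    intro p hp hpN A σ hA hσ hQ
    have h1 : dt (R.ρ σ) = 1 := Q8_le_SLs hQ
    rw [R.dt_frob hp (hne3 p hpN) hA hσ] at h1
    have h2 := chi3_cast p
    rw [Int.cast_natCast, h1] at h2
    rcases chi3_cases p with h | h | h
    · rw [h.2] at h2; exact absurd h2 (by decide)
    · exact h.2
    · rw [h.2] at h2; exact absurd h2 (by decide)
  by_cases h9 : 9 ∣ N
  · -- level divisible by `9`
    obtain ⟨h, hh, hc⟩ := exists_weightTwo_of_rel h3N B hB f hχ hf0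
    rcases R.cong_or hN0 h3N hh hm h3m T (by
        intro p hp hpT hpN A σ hA hσ hQ
        exact hc p hp hpN (hchi p hp hpN A σ hA hσ hQ) _ (hrel' p hp hpT A σ hA hσ hQ))
      with h1 | h1
    · exact ⟨N, h, center B, hN0, h3N, hh, hm, h3m, h1, hcube, htame⟩
    · obtain ⟨g, hg, hgc⟩ := exists_twist3 hN0 hh
      refine ⟨Nat.lcm N 9, g, center B, Nat.lcm_ne_zero hN0 (by norm_num),
        h3N.trans (Nat.dvd_lcm_left _ _), hg, hm, h3m, ?_, not_cube_dvd_lcm hcube,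
        fun ht => absurd h9 (htame ht)⟩
      intro ℓ hℓ hℓN A σ hA hσ t ht
      have hℓN' : ¬ ℓ ∣ N := fun h => hℓN (h.trans (Nat.dvd_lcm_left _ _))
      have hℓ3 := hne3 ℓ hℓN'
      obtain ⟨a, ha, ham⟩ := h1 ℓ hℓ hℓN' A σ hA hσ (chi3 ℓ * t) (by
        rw [Int.cast_mul, chi3_cast, Int.cast_natCast, R.dt_frob hℓ hℓ3 hA hσ, ht])
      refine ⟨(chi3 ℓ : ℤ) * a, ?_, ?_⟩
      · rw [hgc, ← ha]
        simp
      · have h2 : ((chi3 ℓ : ℤ) : integralClosure ℤ ℂ) * (chi3 ℓ : ℤ) = 1 := by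
          rw [← Int.cast_mul, chi3_mul_self (by
            intro h
            have h3 : 3 ∣ ℓ := by exact_mod_cast h
            exact hℓ3 ((Nat.prime_dvd_prime_iff_eq Nat.prime_three hℓ).mp h3).symm), Int.cast_one]
        have h4 : ((chi3 ℓ : ℤ) : integralClosure ℤ ℂ) * a - (t : integralClosure ℤ ℂ) =
            ((chi3 ℓ : ℤ) : integralClosure ℤ ℂ) *
              (a - ((chi3 ℓ * t : ℤ) : integralClosure ℤ ℂ)) := by
          rw [Int.cast_mul]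
          linear_combination (t : integralClosure ℤ ℂ) * h2
        rw [h4]
        exact Ideal.mul_mem_left _ _ ham
  · -- level prime to `9`
    let P : Set ℕ := {p | p.Prime ∧ p ∉ T ∧ ¬ p ∣ N ∧ ∃ (A : ValuationSubring ℚbar) (σ : Γℚ),
      A.LiesOverPrime p ∧ A.IsFrobeniusAt σ p ∧ R.ρ σ ∈ Q8}
    let t : ℕ → ℤ := fun p => if hp : ∃ (A : ValuationSubring ℚbar) (σ : Γℚ),
      A.LiesOverPrime p ∧ A.IsFrobeniusAt σ p ∧ R.ρ σ ∈ Q8 then trQ (R.ρ hp.choose_spec.choose)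
      else 0
    have ht : ∀ p ∈ P, ∀ (A : ValuationSubring ℚbar) (σ : Γℚ),
        A.LiesOverPrime p → A.IsFrobeniusAt σ p → R.ρ σ ∈ Q8 → t p = trQ (R.ρ σ) := by
      rintro p ⟨hp, hpT, hpN, hex⟩ A σ hA hσ hQ
      have ht1 : t p = trQ (R.ρ hex.choose_spec.choose) := dif_pos hex
      obtain ⟨hA', hσ', hQ'⟩ := hex.choose_spec.choose_spec
      have e1 := hrel' p hp hpT A σ hA hσ hQ n0
      have e2 := hrel' p hp hpT _ _ hA' hσ' hQ' n0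
      rw [e1] at e2
      have e3 := mul_right_cancel₀ hn0 e2
      rw [ht1]
      exact_mod_cast e3.symm
    obtain ⟨h, h', hh, hh', hc, hc', hpair⟩ := exists_pair_weightTwo h3N h9 B hB P t (by
        rintro p ⟨hp, hpT, hpN, A, σ, hA, hσ, hQ⟩
        exact ⟨hp, hpN, hchi p hp hpN A σ hA hσ hQ⟩) hχ hf0 (by
        intro p hpP n
        obtain ⟨hp, hpT, hpN, A, σ, hA, hσ, hQ⟩ := hpP
        rw [ht p ⟨hp, hpT, hpN, A, σ, hA, hσ, hQ⟩ A σ hA hσ hQ]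
        exact hrel' p hp hpT A σ hA hσ hQ n)
    rcases R.cong_or hN0 h3N hh hm h3m T (by
        intro p hp hpT hpN A σ hA hσ hQ
        have hpP : p ∈ P := ⟨hp, hpT, hpN, A, σ, hA, hσ, hQ⟩
        rw [← ht p hpP A σ hA hσ hQ]
        exact hc p hpP) with h1 | h1
    · exact ⟨N, h, center B, hN0, h3N, hh, hm, h3m, h1, hcube, htame⟩
    · refine ⟨N, h', center B, hN0, h3N, hh', hm, h3m, ?_, hcube, htame⟩
      intro ℓ hℓ hℓN A σ hA hσ t ht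
      have hℓ3 := hne3 ℓ hℓN
      obtain ⟨a, ha, ham⟩ := h1 ℓ hℓ hℓN A σ hA hσ (chi3 ℓ * t) (by
        rw [Int.cast_mul, chi3_cast, Int.cast_natCast, R.dt_frob hℓ hℓ3 hA hσ, ht])
      obtain ⟨a1, a', ha1, ha', hm'⟩ := hpair ℓ hℓ hℓN
      obtain rfl : a1 = a := Subtype.ext (ha1.trans ha.symm)
      refine ⟨a', ha', ?_⟩
      have h2 : ((chi3 ℓ : ℤ) : integralClosure ℤ ℂ) * (chi3 ℓ : ℤ) = 1 := by
        rw [← Int.cast_mul, chi3_mul_self (by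
          intro h
          have h3 : 3 ∣ ℓ := by exact_mod_cast h
          exact hℓ3 ((Nat.prime_dvd_prime_iff_eq Nat.prime_three hℓ).mp h3).symm), Int.cast_one]
      have h4 : a' - (t : integralClosure ℤ ℂ) =
          (a' - ((chi3 ℓ : ℤ) : integralClosure ℤ ℂ) * a1) + ((chi3 ℓ : ℤ) : integralClosure ℤ ℂ) *
            (a1 - ((chi3 ℓ * t : ℤ) : integralClosure ℤ ℂ)) := by
        rw [Int.cast_mul]
        linear_combination (t : integralClosure ℤ ℂ) * h2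
      rw [h4]
      exact Ideal.add_mem _ hm' (Ideal.mul_mem_left _ _ ham)

end Octa

/-- **S50 from `LTCore`**. -/
theorem s50_of_LTCore (hLT : LTCore)
    (W : WeierstrassCurve ℤ) (hΔ : W.Δ ≠ 0) (hW : W.IsSemistableModel)
    (h3 : W.ModRepIsIrreducible 3) :
    ∃ M : ℕ, 0 < M ∧ W.IsResiduallyModularOfLevel 3 M ∧
      (∀ q : ℕ, q.Prime → q ≠ 3 → ¬ q ^ 3 ∣ M) ∧
      (3 ^ 2 ∣ M →
        ∀ A : ValuationSubring (AlgebraicClosure ℚ), A.LiesOverPrime 3 →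
          ∀ x : Submodule.torsionBy ℤ
              ((W.map (Int.castRingHom ℚ))⁄(AlgebraicClosure ℚ)).Point (3 : ℕ),
            (∀ σ ∈ A.inertiaSubgroupIn ℚ, σ • x = x) → x = 0) := by
  obtain ⟨b⟩ := nonempty_basis hΔ
  let R : Octa := ⟨repOf b, isOcta_repOf b hΔ hW h3⟩
  obtain ⟨M, h, 𝔪, hM0, h3M, hh, hm, h3m, hc, hcube, htame⟩ := R.exists_cong hLT
  refine ⟨M, Nat.pos_of_ne_zero hM0, ⟨h, 𝔪, hh, hm, h3m, ?_⟩, hcube, ?_⟩
  · intro ℓ hℓ hgood hℓM hℓ3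
    obtain ⟨A, hA⟩ := exists_liesOverPrime ℚbar hℓ
    obtain ⟨σ, hσ⟩ := exists_isFrobeniusAt A hℓ hA
    exact hc ℓ hℓ hℓM A σ hA hσ (W.apOfModel ℓ) (tr_repOf_frob b hℓ hgood hℓ3 A hA hσ).symm
  · intro h9 A hA x hx
    by_contra hx0
    exact htame (tameAtThree_of_fixed hΔ hW h3 b hA hx0 hx) h9

end Fermat.Agent.LT.K
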