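import Fermat.Agent.LT.K.Places

/-!
# LT piece K: Frobenius elements over `fld H`, the numbers `λ_w`

* `frob_down`: if `g ∈ H` is a Frobenius (over `ℤ`) at `P` then the residue field of `fld H`
  below `P` is the prime field, and `g` is the Frobenius at `P` over `fld H`.
* `lam w` (`w` a prime of `L`): `trQ` of the Frobenius; `lam_eq` : independence of choices.
* `lam_cen`: for `A` over `p`, `σ` a Frobenius at `A` with `ρ σ ∈ Q8`: `lam (A ∩ L) = trQ (ρ σ)`.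
-/

set_option autoImplicit false

open Matrix NumberField Pointwise IsDedekindDomain

namespace Fermat.Agent.LT.K

local notation "Γℚ" => (AlgebraicClosure ℚ ≃ₐ[ℚ] AlgebraicClosure ℚ)
local notation "ℚbar" => AlgebraicClosure ℚ

theorem trQ_conj (g h : G3) : trQ (h * g * h⁻¹) = trQ g := by
  have h1 : h * g * h⁻¹ = 1 ↔ g = 1 := by
    constructor
    · intro e
      have := congrArg (fun x => h⁻¹ * x * h) e
      simpa [mul_assoc] using this
    · rintro rfl; simp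
  have h2 : h * g * h⁻¹ = -1 ↔ g = -1 := by
    constructor
    · intro e
      have := congrArg (fun x => h⁻¹ * x * h) e
      simpa [mul_assoc] using this
    · rintro rfl; simp
  simp only [trQ, h1, h2]

theorem trQ_inv (g : G3) : trQ g⁻¹ = trQ g := by
  have h1 : g⁻¹ = 1 ↔ g = 1 := inv_eq_one
  have h2 : g⁻¹ = -1 ↔ g = -1 := by
    rw [inv_eq_iff_eq_inv]; simp
  simp only [trQ, h1, h2]

theorem trQ_eq_or (g : G3) : trQ g = 2 ∨ trQ g = -2 ∨ trQ g = 0 := by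
  rw [trQ]; split_ifs <;> simp

/-- `trQ` reduces to the trace on `Q8` -/
theorem trQ_cast {g : G3} (hg : g ∈ Q8) : ((trQ g : ℤ) : ZMod 3) = tr g := by
  have h1 : g = 1 ↔ (g 0 0 = 1 ∧ g 0 1 = 0 ∧ g 1 0 = 0 ∧ g 1 1 = 1) := G3.ext_iff'
  have h2 : g = -1 ↔ (g 0 0 = -1 ∧ g 0 1 = 0 ∧ g 1 0 = 0 ∧ g 1 1 = -1) := G3.ext_iff'
  rw [trQ, tr]
  rw [mem_Q8] at hg
  have key : ∀ a b c d : ZMod 3, isQ a b c d → ¬ (a = 1 ∧ b = 0 ∧ c = 0 ∧ d = 1) →
    ¬ (a = -1 ∧ b = 0 ∧ c = 0 ∧ d = -1) → a + d = 0 := by decide +kernel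
  split_ifs with h h'
  · rw [h1] at h
    rw [h.1, h.2.2.2]; decide
  · rw [h2] at h'
    rw [h'.1, h'.2.2.2]; decide
  · rw [key _ _ _ _ hg (fun e => h (h1.mpr e)) (fun e => h' (h2.mpr e))]; rfl

namespace Octa

variable (R : Octa) {H H' : Subgroup G3}

instance finite_quot (P : Ideal (𝓞 R.N)) [hP : NeZero P] : Finite (𝓞 R.N ⧸ P) :=
  Ideal.finiteQuotientOfFreeOfNeBot _ hP.out

variable (H) in
instance isGaloisGroup_int : IsGaloisGroup H (𝓞 (R.fld H)) (𝓞 R.N) :=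
  IsGaloisGroup.of_isFractionRing H (𝓞 (R.fld H)) (𝓞 R.N) (R.fld H) R.N

theorem isPrime_under (P : Ideal (𝓞 R.N)) [P.IsPrime] : (P.under (𝓞 (R.fld H))).IsPrime :=
  inferInstance

theorem under_ne_bot {P : Ideal (𝓞 R.N)} (hP : P ≠ ⊥) : P.under (𝓞 (R.fld H)) ≠ ⊥ :=
  fun h => hP (Ideal.eq_bot_of_comap_eq_bot h)

variable (H) in
/-- the prime of `fld H` below a nonzero prime of `N` -/
noncomputable def und (P : Ideal (𝓞 R.N)) [hp : P.IsPrime] (hP : P ≠ ⊥) :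
    HeightOneSpectrum (𝓞 (R.fld H)) where
  asIdeal := P.under (𝓞 (R.fld H))
  isPrime := inferInstance
  ne_bot := R.under_ne_bot hP

theorem smul_algebraMap_eq (g : H) (x : 𝓞 (R.fld H)) :
    g • (algebraMap (𝓞 (R.fld H)) (𝓞 R.N) x) = algebraMap (𝓞 (R.fld H)) (𝓞 R.N) x :=
  smul_algebraMap g x

/-- If the Frobenius at `P` lies in `H` then it is the Frobenius over `fld H`, and the residue
field of `fld H` is the prime field. -/
theorem frob_down {P : Ideal (𝓞 R.N)} [P.IsPrime] (hP : P ≠ ⊥) {g : G3} (hg : g ∈ H)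
    (hF : IsArithFrobAt ℤ g P) :
    Nat.card (𝓞 (R.fld H) ⧸ P.under (𝓞 (R.fld H))) = Nat.card (ℤ ⧸ P.under ℤ) ∧
      IsArithFrobAt (𝓞 (R.fld H)) (⟨g, hg⟩ : H) P := by
  set w : Ideal (𝓞 (R.fld H)) := P.under (𝓞 (R.fld H)) with hw
  set n := Nat.card (ℤ ⧸ P.under ℤ) with hn
  have hw0 : w ≠ ⊥ := R.under_ne_bot hP
  have hwp : w.IsPrime := inferInstance
  have hmax : w.IsMaximal := hwp.isMaximal hw0
  let _ : Field (𝓞 (R.fld H) ⧸ w) := Ideal.Quotient.field w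
  have hfin : Finite (𝓞 (R.fld H) ⧸ w) := Ideal.finiteQuotientOfFreeOfNeBot _ hw0
  have hpow : ∀ x : 𝓞 (R.fld H) ⧸ w, x ^ n = x := by
    intro x
    obtain ⟨y, rfl⟩ := Ideal.Quotient.mk_surjective x
    rw [← map_pow, eq_comm, Ideal.Quotient.eq]
    have h1 := hF (algebraMap (𝓞 (R.fld H)) (𝓞 R.N) y)
    have h2 : g • (algebraMap (𝓞 (R.fld H)) (𝓞 R.N) y) = algebraMap (𝓞 (R.fld H)) (𝓞 R.N) y :=
      R.smul_algebraMap_eq ⟨g, hg⟩ y
    change g • (algebraMap (𝓞 (R.fld H)) (𝓞 R.N) y) - _ ∈ P at h1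
    rw [h2, ← map_pow, ← map_sub] at h1
    exact h1
  have hn1 : 1 < n := by
    have h0 : P.under ℤ ≠ ⊥ := fun h => hP (Ideal.eq_bot_of_comap_eq_bot h)
    have : Finite (ℤ ⧸ P.under ℤ) := Ideal.finiteQuotientOfFreeOfNeBot _ h0
    have : Nontrivial (ℤ ⧸ P.under ℤ) := Ideal.Quotient.nontrivial_iff.mpr
      (Ideal.IsPrime.ne_top inferInstance)
    exact Finite.one_lt_card
  have hle : Nat.card (𝓞 (R.fld H) ⧸ w) ≤ n := by
    classical
    have hfint := Fintype.ofFinite (𝓞 (R.fld H) ⧸ w)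
    let f : Polynomial (𝓞 (R.fld H) ⧸ w) := Polynomial.X ^ n - Polynomial.X
    have hf0 : f ≠ 0 := FiniteField.X_pow_card_sub_X_ne_zero _ hn1
    have hdeg : f.natDegree = n := FiniteField.X_pow_card_sub_X_natDegree_eq _ hn1
    have h1 : (Finset.univ : Finset (𝓞 (R.fld H) ⧸ w)) ⊆ f.roots.toFinset := by
      intro x _
      rw [Multiset.mem_toFinset, Polynomial.mem_roots hf0]
      simp [f, Polynomial.IsRoot, hpow x]
    rw [Nat.card_eq_fintype_card]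
    calc Fintype.card (𝓞 (R.fld H) ⧸ w) = (Finset.univ : Finset (𝓞 (R.fld H) ⧸ w)).card := rfl
      _ ≤ f.roots.toFinset.card := Finset.card_le_card h1
      _ ≤ f.roots.card := Multiset.toFinset_card_le _
      _ ≤ f.natDegree := Polynomial.card_roots' f
      _ = n := hdeg
  have hge : n ≤ Nat.card (𝓞 (R.fld H) ⧸ w) := by
    have hlo : w.LiesOver (P.under ℤ) := ⟨by rw [hw, Ideal.under_under]⟩
    exact Nat.card_le_card_of_injective (algebraMap (ℤ ⧸ P.under ℤ) (𝓞 (R.fld H) ⧸ w))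
      (FaithfulSMul.algebraMap_injective _ _)
  have hcard : Nat.card (𝓞 (R.fld H) ⧸ w) = n := le_antisymm hle hge
  refine ⟨hcard, fun x => ?_⟩
  rw [hcard]
  exact hF x

/-! ### the numbers `λ_w` -/

theorem exists_over (w : HeightOneSpectrum (𝓞 (R.fld H))) :
    ∃ P : Ideal (𝓞 R.N), P.IsPrime ∧ P ≠ ⊥ ∧ P.under (𝓞 (R.fld H)) = w.asIdeal := by
  have h1 := w.isPrime
  have h2 : w.asIdeal.IsMaximal := w.isMaximal
  obtain ⟨P, hP, hPo⟩ := Ideal.exists_maximal_ideal_liesOver_of_isIntegral (S := 𝓞 R.N) w.asIdeal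
  refine ⟨P, hP.isPrime, ?_, hPo.over.symm⟩
  rintro rfl
  apply w.ne_bot
  rw [hPo.over, Ideal.under_bot]

/-- a chosen prime of `N` above `w` -/
noncomputable def ab (w : HeightOneSpectrum (𝓞 (R.fld H))) : Ideal (𝓞 R.N) :=
  (R.exists_over w).choose

instance isPrime_ab (w : HeightOneSpectrum (𝓞 (R.fld H))) : (R.ab w).IsPrime :=
  (R.exists_over w).choose_spec.1

theorem ab_ne_bot (w : HeightOneSpectrum (𝓞 (R.fld H))) : R.ab w ≠ ⊥ :=
  (R.exists_over w).choose_spec.2.1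

instance neZero_ab (w : HeightOneSpectrum (𝓞 (R.fld H))) : NeZero (R.ab w) := ⟨R.ab_ne_bot w⟩

theorem under_ab (w : HeightOneSpectrum (𝓞 (R.fld H))) :
    (R.ab w).under (𝓞 (R.fld H)) = w.asIdeal := (R.exists_over w).choose_spec.2.2

/-- a chosen Frobenius element at `w`, in `H` -/
noncomputable def fr (w : HeightOneSpectrum (𝓞 (R.fld H))) : H :=
  arithFrobAt (𝓞 (R.fld H)) H (R.ab w)

theorem fr_spec (w : HeightOneSpectrum (𝓞 (R.fld H))) :
    IsArithFrobAt (𝓞 (R.fld H)) (R.fr w) (R.ab w) :=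
  IsArithFrobAt.arithFrobAt (𝓞 (R.fld H)) H (R.ab w)

/-- transitivity -/
theorem exists_smul_ab (w : HeightOneSpectrum (𝓞 (R.fld H))) (P : Ideal (𝓞 R.N)) [P.IsPrime]
    (hP : P.under (𝓞 (R.fld H)) = w.asIdeal) : ∃ h : H, P = h • R.ab w := by
  obtain ⟨h, hh⟩ := Algebra.IsInvariant.exists_smul_of_under_eq (𝓞 (R.fld H)) (𝓞 R.N) H
    (R.ab w) P ((R.under_ab w).trans hP.symm)
  exact ⟨h, hh⟩

/-- Frobenius elements at primes above `w` are conjugate to `fr w`, if there is no ramification. -/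
theorem exists_conj_fr (w : HeightOneSpectrum (𝓞 (R.fld H))) (P : Ideal (𝓞 R.N)) [P.IsPrime]
    (hP : P.under (𝓞 (R.fld H)) = w.asIdeal) (hI : P.inertia H = ⊥) {g : H}
    (hg : IsArithFrobAt (𝓞 (R.fld H)) g P) : ∃ h : H, g = h * R.fr w * h⁻¹ := by
  obtain ⟨h, rfl⟩ := R.exists_smul_ab w P hP
  refine ⟨h, ?_⟩
  have h1 := (R.fr_spec w).conj h
  have h2 := hg.mul_inv_mem_inertia h1
  rw [hI, Subgroup.mem_bot, mul_inv_eq_one] at h2
  exact h2

/-- **The eigenvalues** `λ_w = tr σ(Frob_w) ∈ {2, -2, 0}`, `w` a prime of `L`. -/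
noncomputable def lam (w : HeightOneSpectrum (𝓞 R.L)) : ℤ := trQ (R.fr w : G3)

theorem lam_eq_or (w : HeightOneSpectrum (𝓞 R.L)) : R.lam w = 2 ∨ R.lam w = -2 ∨ R.lam w = 0 :=
  trQ_eq_or _

theorem lam_eq (w : HeightOneSpectrum (𝓞 R.L)) (P : Ideal (𝓞 R.N)) [P.IsPrime]
    (hP : P.under (𝓞 R.L) = w.asIdeal) (hI : P.inertia Q8 = ⊥) {g : Q8}
    (hg : IsArithFrobAt (𝓞 R.L) g P) : R.lam w = trQ (g : G3) := by
  obtain ⟨h, rfl⟩ := R.exists_conj_fr w P hP hI hg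
  rw [lam, Subgroup.coe_mul, Subgroup.coe_mul, InvMemClass.coe_inv, trQ_conj]

/-- compatibility with Frobenius elements over `ℚ` -/
theorem lam_cen {A : ValuationSubring ℚbar} {ℓ : ℕ} (hℓ : ℓ.Prime) (hA : A.LiesOverPrime ℓ)
    (hI : (R.cen A).inertia Q8 = ⊥) {σ : Γℚ} (hσ : A.IsFrobeniusAt σ ℓ) (hQ : R.ρ σ ∈ Q8) :
    R.lam (R.und Q8 (R.cen A) (R.cen_ne_bot hℓ hA)) = trQ (R.ρ σ) := by
  have h1 := R.frob_down (R.cen_ne_bot hℓ hA) hQ (R.isArithFrobAt_of_isFrobeniusAt hℓ hA hσ)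
  exact R.lam_eq _ (R.cen A) rfl hI h1.2

/-- If `ρ(Frob) ∈ H` then the prime of `fld H` below `A` has norm `ℓ`. -/
theorem card_und_cen {A : ValuationSubring ℚbar} {ℓ : ℕ} (hℓ : ℓ.Prime) (hA : A.LiesOverPrime ℓ)
    {σ : Γℚ} (hσ : A.IsFrobeniusAt σ ℓ) (hQ : R.ρ σ ∈ H) :
    Nat.card (𝓞 (R.fld H) ⧸ (R.und H (R.cen A) (R.cen_ne_bot hℓ hA)).asIdeal) = ℓ := by
  have h1 := R.frob_down (R.cen_ne_bot hℓ hA) hQ (R.isArithFrobAt_of_isFrobeniusAt hℓ hA hσ)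
  rw [R.card_quot_int hℓ hA] at h1
  exact h1.1

end Octa

end Fermat.Agent.LT.K
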