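import Fermat.Agent.LT.K.Tower
import Fermat.Agent.FlatOrd.InertiaLift

/-!
# LT piece K: places of `ℚ̄` and primes of `N`, `Frobenius` and `inertia`

* `R.cen A : Ideal (𝓞 R.N)` : the prime of `N` below the place `A` of `ℚ̄`;
* `exists_cen_eq`: every nonzero prime of `N` is a `cen A`;
* `mem_inertia_iff`: the inertia group of `cen A` in `GL₂(𝔽₃)` is the image of the inertia group
  of `A`;
* `isArithFrobAt_of_isFrobeniusAt`: Frobenius elements at `A` map to Frobenius elements at `cen A`.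
* `isArithFrobAt_fld`: if the Frobenius `g` at `P` lies in `H` then it is the Frobenius at `P`
  over `fld H`, and the prime of `fld H` below `P` has norm `ℓ`.
-/

set_option autoImplicit false

open Matrix NumberField Pointwise IsDedekindDomain
open Fermat.Agent.FrobExists Fermat.Agent.FrobPlaceLift

namespace Fermat.Agent.LT.K

local notation "Γℚ" => (AlgebraicClosure ℚ ≃ₐ[ℚ] AlgebraicClosure ℚ)
local notation "ℚbar" => AlgebraicClosure ℚ

namespace Octa

variable (R : Octa) {H : Subgroup G3}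

/-- the prime of `N` below a place of `ℚ̄` -/
noncomputable abbrev cen (A : ValuationSubring ℚbar) : Ideal (𝓞 R.N) := centerOn R.N A

theorem mem_cen {A : ValuationSubring ℚbar} {x : 𝓞 R.N} :
    x ∈ R.cen A ↔ (((x : R.N) : ℚbar)) ∈ A.nonunits := mem_centerOn R.N A x

theorem coe_ρ_smul_int (σ : Γℚ) (x : 𝓞 R.N) :
    ((((R.ρ σ • x : 𝓞 R.N) : R.N)) : ℚbar) = σ ((x : R.N) : ℚbar) := R.coe_ρ_smul σ x

theorem ρ_smul_eq (σ : Γℚ) (x : 𝓞 R.N) : R.ρ σ • x = (AlgEquiv.restrictNormal σ R.N) • x := by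
  apply RingOfIntegers.ext
  apply Subtype.ext
  rw [coe_ρ_smul_int]
  exact (R.resN_apply σ (x : R.N)).symm

theorem cen_smul (σ : Γℚ) (A : ValuationSubring ℚbar) : R.cen (σ • A) = R.ρ σ • R.cen A := by
  rw [cen, centerOn_smul]
  ext x
  rw [Ideal.mem_pointwise_smul_iff_inv_smul_mem, Ideal.mem_pointwise_smul_iff_inv_smul_mem]
  have : (AlgEquiv.restrictNormal σ R.N)⁻¹ • x = (R.ρ σ)⁻¹ • x := by
    rw [← map_inv, ρ_smul_eq]
    congr 1
    exact (map_inv R.resN σ).symm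
  rw [this]

theorem under_int {A : ValuationSubring ℚbar} {ℓ : ℕ} (hℓ : ℓ.Prime) (hA : A.LiesOverPrime ℓ) :
    (R.cen A).under ℤ = Ideal.span {(ℓ : ℤ)} := (centerOn_liesOver R.N A hℓ hA).over.symm

theorem cen_ne_bot {A : ValuationSubring ℚbar} {ℓ : ℕ} (hℓ : ℓ.Prime) (hA : A.LiesOverPrime ℓ) :
    R.cen A ≠ ⊥ := by
  intro h
  have h1 := R.under_int hℓ hA
  rw [h, Ideal.under_bot, eq_comm, Ideal.span_singleton_eq_bot] at h1
  exact hℓ.ne_zero (by exact_mod_cast h1)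

theorem isMaximal_span {ℓ : ℕ} (hℓ : ℓ.Prime) : (Ideal.span {(ℓ : ℤ)}).IsMaximal :=
  PrincipalIdealRing.isMaximal_of_irreducible (Nat.prime_iff_prime_int.mp hℓ).irreducible

/-- Every nonzero prime of `N` lies below a place of `ℚ̄`. -/
theorem exists_cen_eq (P : Ideal (𝓞 R.N)) [P.IsPrime] (hP : P ≠ ⊥) :
    ∃ (ℓ : ℕ) (A : ValuationSubring ℚbar), ℓ.Prime ∧ A.LiesOverPrime ℓ ∧ R.cen A = P := by
  obtain ⟨ℓ, hℓ, hℓP⟩ : ∃ ℓ : ℕ, ℓ.Prime ∧ P.under ℤ = Ideal.span {(ℓ : ℤ)} := by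
    have h1 : P.under ℤ ≠ ⊥ := fun h => hP (Ideal.eq_bot_of_comap_eq_bot h)
    have h2 : (P.under ℤ).IsPrime := inferInstance
    obtain ⟨a, ha⟩ := IsPrincipalIdealRing.principal (P.under ℤ)
    rw [Ideal.submodule_span_eq] at ha
    rw [ha] at h1 h2
    have ha0 : a ≠ 0 := fun h => h1 (by rw [h]; simp)
    have h3 := (Ideal.span_singleton_prime ha0).mp h2
    refine ⟨a.natAbs, Int.prime_iff_natAbs_prime.mp h3, ?_⟩
    rw [ha, Ideal.span_singleton_eq_span_singleton]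
    exact (Int.associated_natAbs a)
  obtain ⟨A₀, hA₀⟩ := exists_liesOverPrime ℚbar hℓ
  obtain ⟨g, hg⟩ := Algebra.IsInvariant.exists_smul_of_under_eq ℤ (𝓞 R.N) G3
    (R.cen A₀) P ((R.under_int hℓ hA₀).trans hℓP.symm)
  obtain ⟨σ, rfl⟩ := R.isOcta.surj g
  exact ⟨ℓ, σ • A₀, hℓ, smul_liesOverPrime σ A₀ hA₀, by rw [cen_smul, hg]⟩

/-- the inertia group of `cen A` is the image of the inertia group of `A` -/
theorem mem_inertia_iff {A : ValuationSubring ℚbar} {ℓ : ℕ} (hℓ : ℓ.Prime)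
    (hA : A.LiesOverPrime ℓ) {g : G3} :
    g ∈ (R.cen A).inertia G3 ↔ ∃ σ ∈ A.inertiaSubgroupIn ℚ, R.ρ σ = g := by
  constructor
  · intro hg
    obtain ⟨τ, hτ⟩ := R.isOcta.surj g
    obtain ⟨σ, hσ, hστ⟩ := FlatOrd.InertiaLift.exists_mul_mem_inertia_of_intermediateField R.N A hℓ
      hA τ (by
        intro x hx
        have hint : IsIntegral ℤ (⟨(x : ℚbar), hx⟩ : R.N) := by
          have := x.2
          exact (isIntegral_algebraMap_iff (A := R.N) (B := ℚbar)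
            (algebraMap R.N ℚbar).injective).mp this
        obtain ⟨y, hy⟩ : ∃ y : 𝓞 R.N, ((y : R.N) : ℚbar) = (x : ℚbar) :=
          ⟨⟨⟨(x : ℚbar), hx⟩, hint⟩, rfl⟩
        have h1 : R.ρ τ • y - y ∈ R.cen A := by
          rw [hτ]; exact hg y
        have h2 := R.mem_cen.mp h1
        rw [mem_center]
        have h4 : ((((R.ρ τ • y - y : 𝓞 R.N) : R.N)) : ℚbar) =
            ((τ • x - x : integralClosure ℤ ℚbar) : ℚbar) := by
          change _ = τ (x : ℚbar) - (x : ℚbar)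
          rw [← hy, ← R.coe_ρ_smul_int τ y]
          rfl
        rw [← h4]
        exact h2)
    refine ⟨σ, hσ, ?_⟩
    rw [← hτ]
    have h1 : R.ρ (τ⁻¹ * σ) ∈ (⊥ : Subgroup G3) := by
      rw [← R.fixes_iff]
      intro x hx
      rw [AlgEquiv.mul_apply, hστ x hx]
      exact τ.symm_apply_apply x
    rw [Subgroup.mem_bot, map_mul, map_inv, inv_mul_eq_one] at h1
    exact h1.symm
  · rintro ⟨σ, hσ, rfl⟩ x
    change R.ρ σ • x - x ∈ R.cen A
    rw [mem_cen]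
    have h1 : (((R.ρ σ • x - x : 𝓞 R.N) : R.N) : ℚbar) =
        σ ((x : R.N) : ℚbar) - ((x : R.N) : ℚbar) := by
      rw [← R.coe_ρ_smul_int σ x]
      rfl
    rw [h1]
    exact FlatOrd.InertiaLift.sub_mem_nonunits_of_mem_inertia A hσ
      (mem_of_isIntegral A ((RingOfIntegers.isIntegral_coe x).map
        ((algebraMap R.N ℚbar).toIntAlgHom)))

theorem card_quot_int {A : ValuationSubring ℚbar} {ℓ : ℕ} (hℓ : ℓ.Prime)
    (hA : A.LiesOverPrime ℓ) : Nat.card (ℤ ⧸ (R.cen A).under ℤ) = ℓ := by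
  rw [R.under_int hℓ hA]
  exact Int.card_ideal_quot ℓ

/-- Frobenius elements at `A` map to Frobenius elements at `cen A`. -/
theorem isArithFrobAt_of_isFrobeniusAt {A : ValuationSubring ℚbar} {ℓ : ℕ} (hℓ : ℓ.Prime)
    (hA : A.LiesOverPrime ℓ) {σ : Γℚ} (hσ : A.IsFrobeniusAt σ ℓ) :
    IsArithFrobAt ℤ (R.ρ σ) (R.cen A) := by
  intro x
  have h1 := sub_pow_mem_centerOn R.N A hσ x
  rw [← ρ_smul_eq] at h1
  rw [R.card_quot_int hℓ hA]
  exact h1

end Octa

end Fermat.Agent.LT.K
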