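import Fermat.Agent.LT.K.Frob
import Fermat.Agent.LOC.Minkowski

/-!
# LT piece K: ramification in the tower `ℚ ⊂ K ⊂ L ⊂ M ⊂ B ⊂ N`

* `inertia_pow_three`: inertia outside `3` has exponent `3`; `inertia_Q8`: `N / L` is unramified
  outside `3`.
* `exists_inertia_dt`: `K / ℚ` is ramified at `3`.
* `inertia_SLs_of_tame`: if `TameAtThree`, then `N / K` is unramified above `3`.
-/

set_option autoImplicit false

open Matrix NumberField Pointwise IsDedekindDomain

namespace Fermat.Agent.LT.K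

local notation "Γℚ" => (AlgebraicClosure ℚ ≃ₐ[ℚ] AlgebraicClosure ℚ)
local notation "ℚbar" => AlgebraicClosure ℚ

/-! ### involutions in inertia groups -/

section invol

variable {S G : Type*} [CommRing S] [IsDedekindDomain S] [Group G]
  [MulSemiringAction G S] {P : Ideal S}

omit [IsDedekindDomain S] in
theorem smul_sub_mem_pow {σ : G} (h0 : ∀ x : S, σ • x - x ∈ P)
    (h1 : ∀ x ∈ P, σ • x - x ∈ P ^ 2) (i : ℕ) : ∀ x ∈ P ^ i, σ • x - x ∈ P ^ (i + 1) := by
  induction i with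
  | zero => intro x _; simpa using h0 x
  | succ i ih =>
    intro x hx
    rw [pow_succ] at hx
    refine Submodule.mul_induction_on hx (fun a ha b hb => ?_) (fun a b ha hb => ?_)
    · have e : σ • (a * b) - a * b = (σ • a - a) * (σ • b) + a * (σ • b - b) := by
        rw [smul_mul']; ring
      rw [e]
      have hb' : σ • b ∈ P := by
        have := P.add_mem (h0 b) hb
        rwa [sub_add_cancel] at this
      refine Ideal.add_mem _ ?_ ?_
      · rw [pow_succ]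
        exact Ideal.mul_mem_mul (ih a ha) hb'
      · rw [show i + 1 + 1 = i + 2 from rfl, pow_add]
        exact Ideal.mul_mem_mul ha (h1 b hb)
    · have e : σ • (a + b) - (a + b) = (σ • a - a) + (σ • b - b) := by
        rw [smul_add]; ring
      rw [e]
      exact Ideal.add_mem _ ha hb

omit [IsDedekindDomain S] in
theorem two_pow_mul_mem {σ : G} (h0 : ∀ x : S, σ • x - x ∈ P)
    (h1 : ∀ x ∈ P, σ • x - x ∈ P ^ 2) (hσ : σ * σ = 1) (x : S) (k : ℕ) :
    2 ^ k * (σ • x - x) ∈ P ^ (k + 1) := by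
  induction k with
  | zero => simpa using h0 x
  | succ k ih =>
    have h2 := smul_sub_mem_pow h0 h1 (k + 1) _ ih
    have h3 : σ • ((2 : S) ^ k) = 2 ^ k := by
      have := map_natCast (MulSemiringAction.toRingHom G S σ) (2 ^ k)
      push_cast at this
      exact this
    have h4 : σ • (2 ^ k * (σ • x - x)) - 2 ^ k * (σ • x - x) = - (2 ^ (k + 1) * (σ • x - x)) := by
      rw [smul_mul', h3, smul_sub, ← mul_smul, hσ, one_smul]
      ring
    rw [h4] at h2
    exact neg_mem_iff.mp h2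

omit [IsDedekindDomain S] in
theorem mem_pow_of_mul_mem [hP : P.IsMaximal] {a z : S} (ha : a ∉ P) {k : ℕ}
    (h : a * z ∈ P ^ k) : z ∈ P ^ k := by
  have h1 : Ideal.span {a} ⊔ P ^ k = ⊤ := by
    by_contra hne
    obtain ⟨M, hM, hle⟩ := Ideal.exists_le_maximal _ hne
    have h2 : P ^ k ≤ M := le_sup_right.trans hle
    have h3 : a ∈ M := hle (Ideal.mem_sup_left (Ideal.mem_span_singleton_self a))
    rcases Nat.eq_zero_or_pos k with rfl | hk
    · rw [pow_zero, Ideal.one_eq_top, top_le_iff] at h2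
      exact hM.ne_top h2
    · have h4 : P ≤ M := hM.isPrime.le_of_pow_le h2
      have h5 : P = M := hP.eq_of_le hM.ne_top h4
      exact ha (h5 ▸ h3)
  have h2 : (1 : S) ∈ Ideal.span {a} ⊔ P ^ k := h1 ▸ trivial
  obtain ⟨u, hu, v, hv, huv⟩ := Submodule.mem_sup.mp h2
  obtain ⟨c, rfl⟩ := Ideal.mem_span_singleton'.mp hu
  have h3 : z = c * (a * z) + v * z := by
    calc z = 1 * z := (one_mul z).symm
      _ = (c * a + v) * z := by rw [huv]
      _ = _ := by ring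
  rw [h3]
  exact Ideal.add_mem _ (Ideal.mul_mem_left _ _ h) (Ideal.mul_mem_right _ _ hv)

theorem eq_one_of_involution [hP : P.IsMaximal] [FaithfulSMul G S] (h2 : (2 : S) ∉ P)
    (hPtop : P ≠ ⊤) {σ : G} (h0 : ∀ x : S, σ • x - x ∈ P)
    (h1 : ∀ x ∈ P, σ • x - x ∈ P ^ 2) (hσ : σ * σ = 1) : σ = 1 := by
  apply FaithfulSMul.eq_of_smul_eq_smul (α := S)
  intro x
  rw [one_smul]
  have h3 : σ • x - x ∈ (⨅ i : ℕ, P ^ i) := by
    rw [Ideal.mem_iInf]
    intro k
    rcases k with _ | k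
    · simp
    · refine mem_pow_of_mul_mem (a := 2 ^ k) ?_ (two_pow_mul_mem h0 h1 hσ x k)
      intro h
      exact h2 (hP.isPrime.mem_of_pow_mem k h)
  rw [Ideal.iInf_pow_eq_bot_of_isDomain _ hPtop, Ideal.mem_bot, sub_eq_zero] at h3
  exact h3

theorem smul_add_mem_of_involution [hP : P.IsMaximal] [FaithfulSMul G S] (h2 : (2 : S) ∉ P)
    {σ : G} (h0 : ∀ x : S, σ • x - x ∈ P) (hσ : σ * σ = 1) (hne : σ ≠ 1) :
    ∀ x ∈ P, σ • x + x ∈ P ^ 2 := by
  obtain ⟨x0, hx0, hx0'⟩ : ∃ x ∈ P, σ • x - x ∉ P ^ 2 := by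
    by_contra hall
    push Not at hall
    exact hne (eq_one_of_involution h2 hP.ne_top h0 hall hσ)
  set π := σ • x0 - x0 with hπ
  have hπP : π ∈ P := h0 x0
  have hσπ : σ • π = -π := by
    rw [hπ, smul_sub, ← mul_smul, hσ, one_smul]; ring
  have hP2 : ∀ e ∈ P ^ 2, σ • e + e ∈ P ^ 2 := by
    intro e he
    have hσP : ∀ b ∈ P, σ • b ∈ P := fun b hb => by
      have := P.add_mem (h0 b) hb
      rwa [sub_add_cancel] at this
    refine Ideal.add_mem _ ?_ he
    rw [sq] at he ⊢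
    refine Submodule.mul_induction_on he (fun a ha b hb => ?_) (fun a b ha hb => ?_)
    · rw [smul_mul']
      exact Ideal.mul_mem_mul (hσP a ha) (hσP b hb)
    · rw [smul_add]
      exact Ideal.add_mem _ ha hb
  intro x hx
  have hbot : P ≠ ⊥ := by
    intro hb
    rw [hb, Ideal.mem_bot] at hπP
    exact hx0' (by rw [hπP]; exact Ideal.zero_mem _)
  obtain ⟨d, e, he, hde⟩ := Ideal.exists_mul_add_mem_pow_succ (P := P) hbot (i := 1) π x
    (by simpa using hπP) hx0' (by simpa using hx)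
  rw [← hde, smul_add, smul_mul', hσπ]
  have e1 : -π * σ • d + σ • e + (π * d + e) = -(π * (σ • d - d)) + (σ • e + e) := by ring
  rw [e1]
  refine Ideal.add_mem _ (neg_mem ?_) (hP2 e he)
  rw [sq]
  exact Ideal.mul_mem_mul hπP (h0 d)

/-- Two commuting involutions in an inertia group at a prime of odd residue characteristic
coincide. -/
theorem involution_unique [hP : P.IsMaximal] [FaithfulSMul G S] (h2 : (2 : S) ∉ P)
    {σ τ : G} (hσ0 : σ ∈ P.inertia G) (hτ0 : τ ∈ P.inertia G) (hσ : σ * σ = 1) (hτ : τ * τ = 1)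
    (hc : σ * τ = τ * σ) (hσ1 : σ ≠ 1) (hτ1 : τ ≠ 1) : σ = τ := by
  have h3 := smul_add_mem_of_involution h2 hσ0 hσ hσ1
  have h4 := smul_add_mem_of_involution h2 hτ0 hτ hτ1
  have h5 : ∀ x : S, (σ * τ) • x - x ∈ P := fun x => (P.inertia G).mul_mem hσ0 hτ0 x
  have h6 : ∀ x ∈ P, (σ * τ) • x - x ∈ P ^ 2 := by
    intro x hx
    have hτx : τ • x ∈ P := by
      have := P.add_mem (hτ0 x) hx
      change τ • x - x + x ∈ P at this
      rwa [sub_add_cancel] at this
    have e : (σ * τ) • x - x = (σ • (τ • x) + τ • x) - (τ • x + x) := by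
      rw [mul_smul]; ring
    rw [e]
    exact sub_mem (h3 _ hτx) (h4 _ hx)
  have h7 : (σ * τ) * (σ * τ) = 1 := by
    calc (σ * τ) * (σ * τ) = σ * (τ * σ) * τ := by group
      _ = σ * (σ * τ) * τ := by rw [hc]
      _ = (σ * σ) * (τ * τ) := by group
      _ = 1 := by rw [hσ, hτ, one_mul]
  have h8 := eq_one_of_involution h2 hP.ne_top h5 h6 h7
  rw [mul_eq_one_iff_eq_inv] at h8
  rw [h8, inv_eq_iff_mul_eq_one, hτ]

end invol

namespace Octa

variable (R : Octa) {H H' : Subgroup G3}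

theorem natCast_mem_cen {A : ValuationSubring ℚbar} {q : ℕ} :
    ((q : ℕ) : 𝓞 R.N) ∈ R.cen A ↔ A.LiesOverPrime q := by
  rw [mem_cen]
  simp [ValuationSubring.LiesOverPrime]

theorem inertia_pow_three {P : Ideal (𝓞 R.N)} [P.IsPrime] (hP : P ≠ ⊥) (h3 : (3 : 𝓞 R.N) ∉ P)
    {g : G3} (hg : g ∈ P.inertia G3) : g ^ 3 = 1 := by
  obtain ⟨ℓ, A, hℓ, hA, rfl⟩ := R.exists_cen_eq P hP
  obtain ⟨σ, hσ, rfl⟩ := (R.mem_inertia_iff hℓ hA).mp hg
  refine R.isOcta.tame ℓ hℓ ?_ A hA σ hσ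
  rintro rfl
  exact h3 (by simpa using (R.natCast_mem_cen (q := 3)).mpr hA)

theorem mem_inertia_sub {P : Ideal (𝓞 R.N)} {g : H} :
    g ∈ P.inertia H ↔ (g : G3) ∈ P.inertia G3 := Iff.rfl

theorem inertia_Q8 {P : Ideal (𝓞 R.N)} [P.IsPrime] (hP : P ≠ ⊥) (h3 : (3 : 𝓞 R.N) ∉ P) :
    P.inertia Q8 = ⊥ := by
  rw [Subgroup.eq_bot_iff_forall]
  intro g hg
  have h1 := R.inertia_pow_three hP h3 (g := (g : G3)) hg
  have h2 := (mem_Q8_iff.mp g.2).2
  apply Subtype.ext
  calc (g : G3) = (g : G3) ^ 4 * ((g : G3) ^ 3)⁻¹ := by group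
    _ = 1 := by rw [h1, h2]; simp

theorem exists_inertia_dt :
    ∃ A : ValuationSubring ℚbar, A.LiesOverPrime 3 ∧ ∃ σ ∈ A.inertiaSubgroupIn ℚ,
      dt (R.ρ σ) = -1 := by
  by_contra hall
  push Not at hall
  have hle : SLs.comap R.ρ = ⊤ := by
    refine LOC.Minkowski.eq_top_of_inertia_le (SLs.comap R.ρ) (R.isOpen_comap SLs) ?_
    intro q hq A hA σ hσ
    rw [Subgroup.mem_comap, mem_SLs]
    rcases eq_or_ne q 3 with rfl | hq3
    · exact (dt_eq_or _).resolve_right (hall A hA σ hσ)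
    · have h1 := R.isOcta.tame q hq hq3 A hA σ hσ
      have h2 : dt (R.ρ σ) ^ 3 = 1 := by
        have : dt ((R.ρ σ) ^ 3) = 1 := by rw [h1, dt_one]
        rwa [pow_succ, pow_succ, pow_one, dt_mul, dt_mul, ← pow_two, ← pow_succ] at this
      have : ∀ x : ZMod 3, x ^ 3 = 1 → x = 1 := by decide
      exact this _ h2
  obtain ⟨σ, hσ⟩ := R.isOcta.surj (mk4 1 0 0 (-1) (by decide))
  have h1 : σ ∈ SLs.comap R.ρ := by rw [hle]; trivial
  rw [Subgroup.mem_comap, hσ, mem_SLs] at h1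
  revert h1
  decide

theorem exists_inertia_dt' {P : Ideal (𝓞 R.N)} [P.IsPrime] (h3 : (3 : 𝓞 R.N) ∈ P) :
    ∃ g ∈ P.inertia G3, dt g = -1 := by
  obtain ⟨A, hA, σ, hσ, hd⟩ := R.exists_inertia_dt
  have h1 : (R.cen A).under ℤ = P.under ℤ := by
    rw [R.under_int Nat.prime_three hA]
    refine (isMaximal_span Nat.prime_three).eq_of_le (Ideal.IsPrime.ne_top inferInstance) ?_
    rw [Ideal.span_singleton_le_iff_mem, Ideal.mem_comap]
    simpa using h3
  obtain ⟨g, hg⟩ := Algebra.IsInvariant.exists_smul_of_under_eq ℤ (𝓞 R.N) G3 (R.cen A) P h1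
  have h2 : R.ρ σ ∈ (R.cen A).inertia G3 := (R.mem_inertia_iff Nat.prime_three hA).mpr ⟨σ, hσ, rfl⟩
  refine ⟨g * R.ρ σ * g⁻¹, ?_, ?_⟩
  · intro x
    change (g * R.ρ σ * g⁻¹) • x - x ∈ P
    rw [hg, Ideal.mem_pointwise_smul_iff_inv_smul_mem]
    have h4 := h2 (g⁻¹ • x)
    change R.ρ σ • g⁻¹ • x - g⁻¹ • x ∈ R.cen A at h4
    have e : g⁻¹ • ((g * R.ρ σ * g⁻¹) • x - x) = R.ρ σ • g⁻¹ • x - g⁻¹ • x := by
      rw [smul_sub, ← mul_smul, ← mul_smul]
      congr 2
      group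
    rw [e]
    exact h4
  · rw [dt_mul, dt_mul, dt_inv, hd]
    have := dt_mul_self g
    linear_combination (-1 : ZMod 3) * this

theorem two_notMem {P : Ideal (𝓞 R.N)} [hp : P.IsPrime] (h3 : (3 : 𝓞 R.N) ∈ P) :
    (2 : 𝓞 R.N) ∉ P := by
  intro h2
  apply hp.ne_top
  rw [Ideal.eq_top_iff_one]
  have : (1 : 𝓞 R.N) = 3 - 2 := by norm_num
  rw [this]
  exact sub_mem h3 h2

/-- If inertia at `3` acts through exponent `2`, then `N / K` is unramified above `3`. -/
theorem inertia_SLs_of_tame (ht : TameAtThree R.ρ) {P : Ideal (𝓞 R.N)} [hp : P.IsPrime]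
    (h3 : (3 : 𝓞 R.N) ∈ P) : P.inertia SLs = ⊥ := by
  have hP : P ≠ ⊥ := by
    rintro rfl
    rw [Ideal.mem_bot] at h3
    exact (by norm_num : (3 : 𝓞 R.N) ≠ 0) h3
  have hmax : P.IsMaximal := hp.isMaximal hP
  obtain ⟨ℓ, A, hℓ, hA, hPA⟩ := R.exists_cen_eq P hP
  have hℓ3 : ℓ = 3 := by
    have h1 := R.under_int hℓ hA
    have h4 : (3 : ℤ) ∈ Ideal.span {(ℓ : ℤ)} := by
      rw [← h1, Ideal.mem_comap, hPA]
      simpa using h3
    rw [Ideal.mem_span_singleton] at h4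
    have h5 : ℓ ∣ 3 := by exact_mod_cast h4
    exact (Nat.prime_dvd_prime_iff_eq hℓ Nat.prime_three).mp h5
  subst hℓ3
  have hexp : ∀ g ∈ P.inertia G3, g * g = 1 := by
    intro g hg
    rw [← hPA] at hg
    obtain ⟨σ, hσ, rfl⟩ := (R.mem_inertia_iff hℓ hA).mp hg
    have := ht A hA σ hσ
    rwa [sq] at this
  obtain ⟨c, hc, hdc⟩ := R.exists_inertia_dt' h3
  have hc1 : c ≠ 1 := by
    rintro rfl
    rw [dt_one] at hdc
    exact absurd hdc (by decide)
  rw [Subgroup.eq_bot_iff_forall]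
  intro g hg
  by_contra hne
  have hg' : (g : G3) ∈ P.inertia G3 := hg
  have hg1 : (g : G3) ≠ 1 := fun h => hne (Subtype.ext h)
  have hcomm : (g : G3) * c = c * (g : G3) := by
    have h5 := hexp _ ((P.inertia G3).mul_mem hg' hc)
    have h6 := hexp _ hg'
    have h7 := hexp _ hc
    calc (g : G3) * c = (g : G3) * c * 1 := (mul_one _).symm
      _ = ((g : G3) * c) * ((g : G3) * (g : G3)) := by rw [h6]
      _ = ((g : G3) * c) * ((g : G3) * (c * c) * (g : G3)) := by rw [h7, mul_one]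
      _ = (((g : G3) * c) * ((g : G3) * c)) * (c * (g : G3)) := by group
      _ = c * (g : G3) := by rw [h5, one_mul]
  have hfaith : FaithfulSMul G3 (𝓞 R.N) := (inferInstance : IsGaloisGroup G3 ℤ (𝓞 R.N)).faithful
  have h8 := involution_unique (R.two_notMem h3) hg' hc (hexp _ hg') (hexp _ hc) hcomm hg1 hc1
  have h9 : dt (g : G3) = 1 := g.2
  rw [h8, hdc] at h9
  exact absurd h9 (by decide)

end Octa

end Fermat.Agent.LT.K
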