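import Mathlib
import Fermat.Prelude.Def_GaloisRep_Residual
import Fermat.Prelude.Def_GaloisRep_ModThreeCyclotomic
import Fermat.Prelude.Def_FLTPrelim_Ramification

/-!
# LT piece K: the interface between the trace formula part (A–J) and the mod 3 part (K)

`IsOcta ρ` : the hypotheses on `ρ : Γℚ → GL₂(𝔽₃)`.
`LTCore` : the statement which the pieces A–J deliver.
(helper45)
-/

set_option autoImplicit false

open WeierstrassCurve CongruenceSubgroup ModularFormClass
open scoped MatrixGroups ModularForm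

namespace Fermat.Agent.LT.K

local notation "Γℚ" => (AlgebraicClosure ℚ ≃ₐ[ℚ] AlgebraicClosure ℚ)

/-- The trace of the two-dimensional faithful character of the quaternion subgroup of
`SL₂(𝔽₃)`, extended by zero. -/
def trQ (g : GL (Fin 2) (ZMod 3)) : ℤ := if g = 1 then 2 else if g = -1 then -2 else 0

/-- The hypotheses on the residual representation. -/
structure IsOcta (ρ : Γℚ →* GL (Fin 2) (ZMod 3)) : Prop where
  cont : Continuous ρ
  surj : Function.Surjective ρ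
  det : ∀ σ : Γℚ, Matrix.GeneralLinearGroup.det (ρ σ) = modThreeCyclotomicChar σ
  /-- inertia outside `3` has order `1` or `3` -/
  tame : ∀ q : ℕ, q.Prime → q ≠ 3 → ∀ A : ValuationSubring (AlgebraicClosure ℚ),
    A.LiesOverPrime q → ∀ σ ∈ A.inertiaSubgroupIn ℚ, (ρ σ) ^ 3 = 1

/-- The quadratic condition at `3`: inertia at `3` acts through a group of exponent `2`. -/
def TameAtThree (ρ : Γℚ →* GL (Fin 2) (ZMod 3)) : Prop :=
  ∀ A : ValuationSubring (AlgebraicClosure ℚ), A.LiesOverPrime 3 →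
    ∀ σ ∈ A.inertiaSubgroupIn ℚ, (ρ σ) ^ 2 = 1

/-- `χ₋₃` on integers. -/
def chi3 (d : ℤ) : ℤ := jacobiSym d 3

/-- The statement delivered by pieces A–J: a cusp form of weight one on `Γ₁(N)` with character
`χ₋₃`, which is an eigenform for the primes `p` which split in the cubic extension `L / K`. -/
def LTCore : Prop :=
  ∀ ρ : Γℚ →* GL (Fin 2) (ZMod 3), IsOcta ρ →
    ∃ (N : ℕ) (f : CuspForm (Gamma1 N) 1) (T : Finset ℕ),
      N ≠ 0 ∧ 3 ∣ N ∧ f ≠ 0 ∧
      (∀ γ ∈ Gamma0 N, (⇑f ∣[(1 : ℤ)] γ) = ((chi3 (γ 1 1) : ℤ) : ℂ) • ⇑f) ∧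
      (∀ q : ℕ, q.Prime → q ≠ 3 → ¬ q ^ 3 ∣ N) ∧
      (TameAtThree ρ → ¬ 9 ∣ N) ∧
      ∀ p : ℕ, p.Prime → p ∉ T →
        ∀ A : ValuationSubring (AlgebraicClosure ℚ), A.LiesOverPrime p →
          ∀ σ : Γℚ, A.IsFrobeniusAt σ p →
            Matrix.GeneralLinearGroup.det (ρ σ) = 1 → (ρ σ) ^ 4 = 1 →
            ∀ n : ℕ, qCoeff ⇑f (p * n) + (if p ∣ n then qCoeff ⇑f (n / p) else 0) =
              (trQ (ρ σ) : ℂ) * qCoeff ⇑f n

end Fermat.Agent.LT.K
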