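import Fermat.Agent.LT.K.WeightTwo
import Fermat.Agent.DS.Hecke1Neb

/-!
# LT piece K-D: the operator `W₃` on weight one forms with character `χ_{-3}`, `3 ∥ N`

(helper51, LT/K.)
-/

set_option autoImplicit false

noncomputable section

open UpperHalfPlane ModularForm ModularFormClass CongruenceSubgroup Matrix.SpecialLinearGroup
open scoped MatrixGroups ModularForm

namespace Fermat.Agent.LT.K

open Fermat.Agent Fermat.Agent.DS.Hecke1 Fermat.Agent.FrobExists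

/-! ### Integer matrices -/

/-- Atkin–Lehner type integer matrix. -/
def wm (N : ℕ) (a b c d : ℤ) : Matrix (Fin 2) (Fin 2) ℤ := !![3 * a, b; N * c, 3 * d]

theorem conj_wm {N N' : ℕ} (hN : N = 3 * N') {a b c d : ℤ} (hdet : 3 * a * d - N' * b * c = 1)
    (X : Matrix (Fin 2) (Fin 2) ℤ) (hX : (N : ℤ) ∣ X 1 0) :
    ∃ A : Matrix (Fin 2) (Fin 2) ℤ, A * wm N a b c d = wm N a b c d * X ∧ A.det = X.det ∧
      (N : ℤ) ∣ A 1 0 ∧ (3 : ℤ) ∣ A 1 1 - X 0 0 := by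
  obtain ⟨z, hz⟩ := hX
  have hNz : (N : ℤ) = 3 * N' := by rw [hN]; push_cast; ring
  have hz' : X 1 0 = 3 * N' * z := by rw [hz, hNz]
  set x := X 0 0 with hx
  set y := X 0 1 with hy
  set t := X 1 1 with ht
  have hXe : X = !![x, y; 3 * N' * z, t] := by
    rw [← hz']
    exact Matrix.eta_fin_two X
  refine ⟨!![3 * d * (a * x + b * N' * z) - N' * c * (3 * a * y + b * t),
    -b * (a * x + b * N' * z) + a * (3 * a * y + b * t);
    3 * N' * (d * (c * x + 3 * d * z) - c * (N' * c * y + d * t)),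
    -b * N' * (c * x + 3 * d * z) + 3 * a * (N' * c * y + d * t)], ?_, ?_, ?_, ?_⟩
  · rw [hXe, wm, hNz, Matrix.mul_fin_two, Matrix.mul_fin_two]
    congr 1
    funext i j
    fin_cases i <;> fin_cases j
    · simp
      linear_combination (3 * a * x + 3 * b * N' * z) * hdet
    · simp
      linear_combination (3 * a * y + b * t) * hdet
    · simp
      linear_combination (3 * N' * c * x + 9 * d * N' * z) * hdet
    · simp
      linear_combination (3 * N' * c * y + 3 * d * t) * hdet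
  · rw [hXe, Matrix.det_fin_two_of, Matrix.det_fin_two_of]
    have h2 : (3 * a * d - N' * b * c) ^ 2 = 1 := by rw [hdet]; ring
    linear_combination (x * t - 3 * N' * y * z) * h2
  · rw [hNz]
    exact Dvd.intro _ rfl
  · refine ⟨-(a * d * x) - b * N' * d * z + a * (N' * c * y + d * t), ?_⟩
    simp
    linear_combination x * hdet

/-- Data defining an Atkin–Lehner matrix at `3`. -/
structure WData (N : ℕ) where
  N' : ℕ
  hN : N = 3 * N'
  a : ℤ
  b : ℤ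
  c : ℤ
  d : ℤ
  hdet : 3 * a * d - N' * b * c = 1

namespace WData

variable {N : ℕ} (w : WData N)

/-- the adjugate datum -/
def adj : WData N := ⟨w.N', w.hN, w.d, -w.b, -w.c, w.a, by
  have := w.hdet
  linear_combination this⟩

/-- the integer matrix -/
def mat : Matrix (Fin 2) (Fin 2) ℤ := wm N w.a w.b w.c w.d

theorem det_mat : w.mat.det = 3 := by
  have h1 := w.hdet
  have h2 : (N : ℤ) = 3 * w.N' := by
    have := congrArg (Nat.cast : ℕ → ℤ) w.hN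
    rw [this]; push_cast; ring
  rw [mat, wm, Matrix.det_fin_two_of, h2]
  linear_combination 3 * h1

theorem mat_mul_adj : w.mat * w.adj.mat = (3 : ℤ) • (1 : Matrix (Fin 2) (Fin 2) ℤ) := by
  have h1 := w.hdet
  have h2 : (N : ℤ) = 3 * w.N' := by
    have := congrArg (Nat.cast : ℕ → ℤ) w.hN
    rw [this]; push_cast; ring
  rw [mat, mat, wm, wm, h2, Matrix.mul_fin_two, Matrix.one_fin_two]
  simp only [adj]
  ext i j
  fin_cases i <;> fin_cases j
  · simp; linear_combination 3 * h1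
  · simp; ring
  · simp; ring
  · simp; linear_combination 3 * h1

theorem adj_mul_mat : w.adj.mat * w.mat = (3 : ℤ) • (1 : Matrix (Fin 2) (Fin 2) ℤ) := by
  have h1 := w.hdet
  have h2 : (N : ℤ) = 3 * w.N' := by
    have := congrArg (Nat.cast : ℕ → ℤ) w.hN
    rw [this]; push_cast; ring
  rw [mat, mat, wm, wm, h2, Matrix.mul_fin_two, Matrix.one_fin_two]
  simp only [adj]
  ext i j
  fin_cases i <;> fin_cases j
  · simp; linear_combination 3 * h1
  · simp; ring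
  · simp; ring
  · simp; linear_combination 3 * h1

theorem smul_three_inj {A A' : Matrix (Fin 2) (Fin 2) ℤ} (h : (3 : ℤ) • A = (3 : ℤ) • A') :
    A = A' := by
  ext i j
  have h1 := congrFun (congrFun h i) j
  simp only [Matrix.smul_apply, smul_eq_mul] at h1
  omega

theorem mul_mat_inj {A A' : Matrix (Fin 2) (Fin 2) ℤ} (h : A * w.mat = A' * w.mat) : A = A' := by
  have h1 := congrArg (· * w.adj.mat) h
  simp only [Matrix.mul_assoc, mat_mul_adj, Matrix.mul_smul, Matrix.mul_one] at h1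
  exact smul_three_inj h1

theorem mat_mul_inj {A A' : Matrix (Fin 2) (Fin 2) ℤ} (h : w.mat * A = w.mat * A') : A = A' := by
  have h1 := congrArg (w.adj.mat * ·) h
  simp only [← Matrix.mul_assoc, adj_mul_mat, Matrix.smul_mul, Matrix.one_mul] at h1
  exact smul_three_inj h1

theorem conj {X : Matrix (Fin 2) (Fin 2) ℤ} (hX : (N : ℤ) ∣ X 1 0) :
    ∃ A : Matrix (Fin 2) (Fin 2) ℤ, A * w.mat = w.mat * X ∧ A.det = X.det ∧
      (N : ℤ) ∣ A 1 0 ∧ (3 : ℤ) ∣ A 1 1 - X 0 0 :=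
  conj_wm w.hN w.hdet X hX

theorem dvd_of_mem {γ : SL(2, ℤ)} (hγ : γ ∈ Gamma0 N) : (N : ℤ) ∣ γ 1 0 := by
  rw [Gamma0_mem] at hγ
  exact (ZMod.intCast_zmod_eq_zero_iff_dvd _ _).1 hγ

theorem mem_of_dvd {γ : SL(2, ℤ)} (h : (N : ℤ) ∣ γ 1 0) : γ ∈ Gamma0 N := by
  rw [Gamma0_mem]
  exact (ZMod.intCast_zmod_eq_zero_iff_dvd _ _).2 h

/-- `W` normalises `Γ₀(N)`. -/
theorem conj_gamma {γ : SL(2, ℤ)} (hγ : γ ∈ Gamma0 N) :
    ∃ δ : SL(2, ℤ), δ ∈ Gamma0 N ∧
      (δ : Matrix (Fin 2) (Fin 2) ℤ) * w.mat = w.mat * (γ : Matrix (Fin 2) (Fin 2) ℤ) ∧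
      (3 : ℤ) ∣ δ 1 1 - γ 0 0 := by
  obtain ⟨A, h1, h2, h3, h4⟩ := w.conj (X := γ) (dvd_of_mem hγ)
  rw [γ.det_coe] at h2
  exact ⟨⟨A, h2⟩, mem_of_dvd h3, h1, h4⟩

theorem conj_gamma' {ε : SL(2, ℤ)} (hε : ε ∈ Gamma0 N) :
    ∃ δ : SL(2, ℤ), (ε : Matrix (Fin 2) (Fin 2) ℤ) * w.mat = w.mat * (δ : Matrix (Fin 2) (Fin 2) ℤ) := by
  obtain ⟨δ, -, h, -⟩ := w.adj.conj_gamma hε
  refine ⟨δ, ?_⟩
  -- `δ adj = adj ε`
  have h1 := congrArg (fun X => w.mat * X * w.mat) h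
  simp only [← Matrix.mul_assoc, mat_mul_adj] at h1
  rw [Matrix.mul_assoc, adj_mul_mat, Matrix.mul_smul, Matrix.mul_one, Matrix.smul_mul,
    Matrix.one_mul, Matrix.smul_mul] at h1
  exact (smul_three_inj h1).symm

end WData

theorem exists_wData {N : ℕ} (h3 : 3 ∣ N) (h9 : ¬ 9 ∣ N) : Nonempty (WData N) := by
  obtain ⟨N', hN⟩ := h3
  have hc : IsCoprime (3 : ℤ) (N' : ℤ) := by
    have h : Nat.Coprime 3 N' := by
      rw [Nat.Prime.coprime_iff_not_dvd Nat.prime_three]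
      rintro ⟨k, hk⟩
      exact h9 ⟨k, by rw [hN, hk]; ring⟩
    exact Nat.isCoprime_iff_coprime.mpr h
  obtain ⟨u, v, huv⟩ := hc
  exact ⟨⟨N', hN, 1, -v, 1, u, by linear_combination huv⟩⟩

/-! ### Cosets -/

theorem chi3_congr {x y : ℤ} (h : (3 : ℤ) ∣ x - y) : chi3 x = chi3 y := by
  rw [chi3_mod x, chi3_mod y]
  congr 1
  omega

theorem chi3_eq_of_mul {x y : ℤ} (h : (3 : ℤ) ∣ x * y - 1) : chi3 x = chi3 y := by
  have h1 : chi3 x * chi3 y = 1 := by rw [← chi3_mul, chi3_congr h, chi3_one]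
  rcases chi3_cases x with ⟨-, hx⟩ | ⟨-, hx⟩ | ⟨-, hx⟩ <;>
    rcases chi3_cases y with ⟨-, hy⟩ | ⟨-, hy⟩ | ⟨-, hy⟩ <;>
    rw [hx, hy] at h1 ⊢ <;> norm_num at h1

theorem three_dvd_of_zmod {N : ℕ} (h3 : 3 ∣ N) {x y : ℤ} (h : (x : ZMod N) = (y : ZMod N)) :
    (3 : ℤ) ∣ x - y := by
  have h1 : ((x - y : ℤ) : ZMod N) = 0 := by push_cast; rw [h, sub_self]
  rw [ZMod.intCast_zmod_eq_zero_iff_dvd] at h1
  exact (Int.natCast_dvd_natCast.mpr h3).trans h1

section perm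

variable {N : ℕ} [NeZero N]

theorem WData.exists_perm (w : WData N) (h3 : 3 ∣ N) {p : ℕ} (hp : p.Prime) (hpN : ¬ p ∣ N)
    [NeZero p] : ∃ σ : Equiv.Perm (Option (ZMod p)), ∀ i, ∃ δ : SL(2, ℤ), δ ∈ Gamma0 N ∧
      chi3 (δ 1 1) = chi3 p ∧
      w.mat * bmat p (rep N (pu hp hpN)) i =
        (δ : Matrix (Fin 2) (Fin 2) ℤ) * bmat p (rep N (pu hp hpN)) (σ i) * w.mat := by
  set g₀ := rep N (pu hp hpN) with hg₀
  have h1 : ∀ i, ∃ l, ∃ δ : SL(2, ℤ), δ ∈ Gamma0 N ∧ chi3 (δ 1 1) = chi3 p ∧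
      w.mat * bmat p g₀ i = (δ : Matrix (Fin 2) (Fin 2) ℤ) * bmat p g₀ l * w.mat := by
    intro i
    obtain ⟨i1, i2, i3⟩ := bmat_mod (M := N) hp hpN i
    rw [← hg₀] at i1 i2 i3
    obtain ⟨A, hA1, hA2, hA3, hA4⟩ := w.conj (X := bmat p g₀ i)
      ((ZMod.intCast_zmod_eq_zero_iff_dvd _ _).1 i2)
    rw [det_bmat] at hA2
    obtain ⟨l, δ, hδ⟩ := exists_factor hp g₀ A hA2
    obtain ⟨l1, l2, l3⟩ := bmat_mod (M := N) hp hpN l
    rw [← hg₀] at l1 l2 l3
    have h10 := congrFun (congrFun hδ 1) 0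
    have h11 := congrFun (congrFun hδ 1) 1
    simp only [Matrix.mul_apply, Fin.sum_univ_two] at h10 h11
    have hδ0 : δ ∈ Gamma0 N := by
      rw [Gamma0_mem]
      have h2 : ((A 1 0 : ℤ) : ZMod N) = 0 := (ZMod.intCast_zmod_eq_zero_iff_dvd _ _).2 hA3
      rw [h10] at h2
      push_cast at h2
      rw [l1, l2] at h2
      simpa using h2
    refine ⟨l, δ, hδ0, ?_, ?_⟩
    · apply chi3_eq_of_mul
      -- `A 1 1 ≡ δ 1 1 * p` and `A 1 1 ≡ 1`
      have h2 : (3 : ℤ) ∣ A 1 1 - δ 1 1 * p := by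
        refine three_dvd_of_zmod h3 ?_
        rw [h11]
        push_cast
        rw [l3, Gamma0_mem.mp hδ0]
        ring
      have h4 : (3 : ℤ) ∣ bmat p g₀ i 0 0 - 1 := three_dvd_of_zmod h3 (by rw [i1]; simp)
      omega
    · rw [← hA1, hδ]
  choose σ δ hδ0 hδ1 hσ using h1
  have hinj : Function.Injective σ := by
    intro i l hil
    have h2 := hσ i
    have h3' := hσ l
    rw [hil] at h2
    set ε := δ l * (δ i)⁻¹ with hε
    have hε0 : ε ∈ Gamma0 N := (Gamma0 N).mul_mem (hδ0 l) ((Gamma0 N).inv_mem (hδ0 i))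
    obtain ⟨ε', hε'⟩ := w.conj_gamma' hε0
    refine factor_unique hp g₀ ε' ?_
    apply w.mat_mul_inj
    rw [← Matrix.mul_assoc, ← hε', Matrix.mul_assoc, h2, h3', ← Matrix.mul_assoc, ← Matrix.mul_assoc]
    congr 2
    rw [← Matrix.SpecialLinearGroup.coe_mul, hε, inv_mul_cancel_right]
  exact ⟨Equiv.ofBijective σ (Finite.injective_iff_bijective.mp hinj), fun i =>
    ⟨δ i, hδ0 i, hδ1 i, hσ i⟩⟩

end perm

end Fermat.Agent.LT.K
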