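import Fermat.Agent.LT.K.Frob
import Fermat.Agent.BrauerNesbitt2
import Fermat.Agent.Density.Final
import Fermat.Agent.Lib.Cyclotomic

/-!
# LT piece K: comparison of Galois representations on `ρ⁻¹(Q8)`

If a residual representation `RR` over a field of characteristic `3` has the traces of `ρ` on
Frobenius elements in `ρ⁻¹(Q8)` and cyclotomic determinant, then its traces are those of `ρ` or those
of `ρ ⊗ det ρ`.
-/

set_option autoImplicit false

open Matrix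

namespace Fermat.Agent.LT.K

local notation "Γℚ" => (AlgebraicClosure ℚ ≃ₐ[ℚ] AlgebraicClosure ℚ)
local notation "ℚbar" => AlgebraicClosure ℚ

section field

variable {κ : Type} [Field κ] [CharP κ 3]

/-- the embedding of the prime field -/
abbrev ic : ZMod 3 →+* κ := ZMod.castHom (dvd_refl 3) κ

/-- the matrix over `κ` of an element of `GL₂(𝔽₃)` -/
def mkM (κ : Type) [Field κ] [CharP κ 3] (g : G3) : Matrix (Fin 2) (Fin 2) κ :=
  (g : Matrix (Fin 2) (Fin 2) (ZMod 3)).map (ic (κ := κ))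

theorem mkM_mul (g h : G3) : mkM κ (g * h) = mkM κ g * mkM κ h := by
  rw [mkM, mkM, mkM, GeneralLinearGroup.coe_mul, Matrix.map_mul]

theorem mkM_one : mkM κ 1 = 1 := by
  rw [mkM, Units.val_one, Matrix.map_one _ (map_zero _) (map_one _)]

theorem det_mkM (g : G3) : (mkM κ g).det = ic (dt g) := by
  rw [mkM, dt_eq]
  exact (RingHom.map_det (ic (κ := κ)) _).symm

theorem trace_mkM (g : G3) : (mkM κ g).trace = ic (tr g) := by
  rw [mkM, tr_eq, Matrix.trace_fin_two, Matrix.trace_fin_two, map_add]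
  rfl

theorem three_eq_zero : (3 : κ) = 0 := by
  have := CharP.cast_eq_zero κ 3
  exact_mod_cast this

theorem two_ne : (2 : κ) ≠ 0 := by
  intro h
  have h3 := three_eq_zero (κ := κ)
  have : (1 : κ) = 0 := by linear_combination h3 - h
  exact one_ne_zero this

/-- `(0 1; -1 0)` -/
def qJ : G3 := mk4 0 1 (-1) 0 (by decide)
/-- `(1 1; 1 -1)` -/
def qA : G3 := mk4 1 1 1 (-1) (by decide)
/-- `(1 -1; -1 -1)` -/
def qB : G3 := mk4 1 (-1) (-1) (-1) (by decide)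

theorem qJ_mem : qJ ∈ Q8 := by rw [mem_Q8]; decide
theorem qA_mem : qA ∈ Q8 := by rw [mem_Q8]; decide
theorem qB_mem : qB ∈ Q8 := by rw [mem_Q8]; decide

theorem mkM_qJ : mkM κ qJ = !![0, 1; -1, 0] := by
  ext i j; fin_cases i <;> fin_cases j <;> simp [mkM, qJ, mk4]

theorem mkM_qA : mkM κ qA = !![1, 1; 1, -1] := by
  ext i j; fin_cases i <;> fin_cases j <;> simp [mkM, qA, mk4]

theorem mkM_qB : mkM κ qB = !![1, -1; -1, -1] := by
  ext i j; fin_cases i <;> fin_cases j <;> simp [mkM, qB, mk4]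

/-- A matrix commuting with `J` and `A` is scalar. -/
theorem scalar_of_commute {X : Matrix (Fin 2) (Fin 2) κ} (hJ : X * mkM κ qJ = mkM κ qJ * X)
    (hA : X * mkM κ qA = mkM κ qA * X) : X = X 0 0 • (1 : Matrix (Fin 2) (Fin 2) κ) := by
  rw [mkM_qJ] at hJ
  rw [mkM_qA] at hA
  have h2 := two_ne (κ := κ)
  have j00 := congrFun (congrFun hJ 0) 0
  have j01 := congrFun (congrFun hJ 0) 1
  have a00 := congrFun (congrFun hA 0) 0
  simp [Matrix.mul_apply, Fin.sum_univ_two] at j00 j01 a00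
  have hq : X 0 1 = 0 := by
    have : (2 : κ) * X 0 1 = 0 := by linear_combination a00 - j00
    exact (mul_eq_zero.mp this).resolve_left h2
  have hr : X 1 0 = 0 := by rw [← a00, hq]
  ext i j
  fin_cases i <;> fin_cases j <;> simp [hq, hr, j01]

/-- Every matrix is a combination of elements of `Q8`. -/
theorem mem_span_Q8 (X : Matrix (Fin 2) (Fin 2) κ) :
    X ∈ Submodule.span κ {Y | ∃ g ∈ Q8, Y = mkM κ g} := by
  have h3 := three_eq_zero (κ := κ)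
  have e : X = (X 0 0) • (mkM κ qA + mkM κ qB - mkM κ 1) + (X 0 1) • (mkM κ qA - mkM κ qB - mkM κ qJ) +
      (X 1 0) • (mkM κ qA - mkM κ qB + mkM κ qJ) - (X 1 1) • (mkM κ 1 + mkM κ qA + mkM κ qB) := by
    rw [mkM_qA, mkM_qB, mkM_qJ, mkM_one]
    ext i j
    fin_cases i <;> fin_cases j <;>
      simp only [Matrix.sub_apply, Matrix.add_apply, Matrix.smul_apply, smul_eq_mul, Matrix.of_apply,
        Matrix.cons_val', Matrix.cons_val_zero, Matrix.cons_val_one, Matrix.one_apply_eq,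
        Matrix.one_apply_ne, ne_eq, Fin.zero_eta, Fin.mk_one, Fin.isValue, Matrix.empty_val',
        Matrix.cons_val_fin_one, zero_ne_one, one_ne_zero, not_false_eq_true]
    · linear_combination X 1 1 * h3
    · linear_combination -X 1 0 * h3
    · linear_combination -X 0 1 * h3
    · linear_combination X 0 0 * h3
  rw [e]
  have m1 : mkM κ 1 ∈ Submodule.span κ {Y | ∃ g ∈ Q8, Y = mkM κ g} :=
    Submodule.subset_span ⟨1, Q8.one_mem, rfl⟩
  have mJ : mkM κ qJ ∈ Submodule.span κ {Y | ∃ g ∈ Q8, Y = mkM κ g} :=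
    Submodule.subset_span ⟨_, qJ_mem, rfl⟩
  have mA : mkM κ qA ∈ Submodule.span κ {Y | ∃ g ∈ Q8, Y = mkM κ g} :=
    Submodule.subset_span ⟨_, qA_mem, rfl⟩
  have mB : mkM κ qB ∈ Submodule.span κ {Y | ∃ g ∈ Q8, Y = mkM κ g} :=
    Submodule.subset_span ⟨_, qB_mem, rfl⟩
  refine sub_mem (add_mem (add_mem ?_ ?_) ?_) ?_ <;> refine Submodule.smul_mem _ _ ?_
  · exact sub_mem (add_mem mA mB) m1
  · exact sub_mem (sub_mem mA mB) mJ
  · exact add_mem (sub_mem mA mB) mJ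
  · exact add_mem (add_mem m1 mA) mB

end field

theorem pow_three_mem_Q8 {g : G3} (hg : g ∈ SLs) : g ^ 3 ∈ Q8 := by
  have h3 : g ^ 3 = (g * g) * g := by rw [pow_succ, sq]
  rw [h3, mem_Q8]
  simp only [mul00, mul01, mul10, mul11]
  have key : ∀ a b c d : ZMod 3, a * d - b * c = 1 →
    isQ ((a * a + b * c) * a + (a * b + b * d) * c) ((a * a + b * c) * b + (a * b + b * d) * d)
      ((c * a + d * c) * a + (c * b + d * d) * c) ((c * a + d * c) * b + (c * b + d * d) * d) := by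
    decide +kernel
  exact key _ _ _ _ hg

namespace Octa

variable (R : Octa) {κ : Type} [Field κ] [CharP κ 3] (RR : ResidualGaloisRep κ)

omit [CharP κ 3] in
/-- Chebotarev, simultaneously for `ρ` and `RR`. -/
theorem exists_frob_eq (S : Finset ℕ) (g : Γℚ) :
    ∃ ℓ : ℕ, ℓ.Prime ∧ ℓ ∉ S ∧ ∃ (A : ValuationSubring ℚbar) (σ : Γℚ),
      A.LiesOverPrime ℓ ∧ A.IsFrobeniusAt σ ℓ ∧ R.ρ σ = R.ρ g ∧ RR.ρ σ = RR.ρ g := by
  obtain ⟨L1, hL1, h1⟩ := RR.factorsThroughFiniteLevel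
  have hfin : FiniteDimensional ℚ (L1 ⊔ R.N : IntermediateField ℚ ℚbar) := inferInstance
  obtain ⟨ℓ, hℓ, hS, A, σ, hA, hσ, hx⟩ := Density.Final.exists_frobenius_eq (L1 ⊔ R.N) S g
  refine ⟨ℓ, hℓ, hS, A, σ, hA, hσ, ?_, ?_⟩
  · have h2 : R.ρ (g⁻¹ * σ) ∈ (⊥ : Subgroup G3) := by
      rw [← R.fixes_iff]
      intro x hxN
      rw [AlgEquiv.mul_apply, hx x ((le_sup_right : R.N ≤ L1 ⊔ R.N) hxN)]
      exact g.symm_apply_apply x
    rw [Subgroup.mem_bot, map_mul, map_inv, inv_mul_eq_one] at h2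
    exact h2.symm
  · have h2 : RR.ρ (g⁻¹ * σ) = 1 := by
      apply h1
      intro x hxL
      rw [AlgEquiv.mul_apply, hx x ((le_sup_left : L1 ≤ L1 ⊔ R.N) hxL)]
      exact g.symm_apply_apply x
    have h3 : RR.ρ σ = RR.ρ g * RR.ρ (g⁻¹ * σ) := by rw [← map_mul, mul_inv_cancel_left]
    rw [h3, h2, mul_one]

/-- The comparison theorem. -/
theorem compare (T : Finset ℕ)
    (htr : ∀ p : ℕ, p.Prime → p ∉ T → ∀ (A : ValuationSubring ℚbar) (σ : Γℚ), A.LiesOverPrime p →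
      A.IsFrobeniusAt σ p → R.ρ σ ∈ Q8 → LinearMap.trace κ RR.V (RR.ρ σ) = ((trQ (R.ρ σ) : ℤ) : κ))
    (hdet : ∀ p : ℕ, p.Prime → p ∉ T → ∀ (A : ValuationSubring ℚbar) (σ : Γℚ),
      A.LiesOverPrime p → A.IsFrobeniusAt σ p → LinearMap.det (RR.ρ σ) = (p : κ)) :
    (∀ σ : Γℚ, LinearMap.trace κ RR.V (RR.ρ σ) = ic (tr (R.ρ σ))) ∨
    (∀ σ : Γℚ, LinearMap.trace κ RR.V (RR.ρ σ) = ic (dt (R.ρ σ) * tr (R.ρ σ))) := by
  classical
  -- traces on `Q8` and determinants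
  have htr' : ∀ σ : Γℚ, R.ρ σ ∈ Q8 → LinearMap.trace κ RR.V (RR.ρ σ) = ic (tr (R.ρ σ)) := by
    intro g hg
    obtain ⟨ℓ, hℓ, hS, A, σ, hA, hσ, h1, h2⟩ := R.exists_frob_eq RR T g
    rw [← h2, htr ℓ hℓ hS A σ hA hσ (by rw [h1]; exact hg), h1, ← trQ_cast hg]
    simp
  have hdet' : ∀ σ : Γℚ, LinearMap.det (RR.ρ σ) = ic (dt (R.ρ σ)) := by
    intro g
    obtain ⟨ℓ, hℓ, hS, A, σ, hA, hσ, h1, h2⟩ := R.exists_frob_eq RR (insert 3 T) g
    rw [Finset.mem_insert, not_or] at hS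
    rw [← h2, hdet ℓ hℓ hS.2 A σ hA hσ, ← h1, dt_eq]
    have h3 := congrArg (fun u : (ZMod 3)ˣ => (u : ZMod 3)) (R.isOcta.det σ)
    have h4 : ((R.ρ σ : G3) : Matrix (Fin 2) (Fin 2) (ZMod 3)).det = ((ℓ : ℕ) : ZMod 3) := by
      refine Eq.trans h3 ?_
      exact Cyclotomic.cyc_frobenius (n := 3) hℓ
        (fun h => hS.1 ((Nat.prime_dvd_prime_iff_eq hℓ Nat.prime_three).mp h)) A hA hσ
    rw [h4, map_natCast]
  -- a basis of `RR.V`
  have hfr := RR.finrank_eq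
  -- the two representations of `U = ρ⁻¹(Q8)`
  let U : Subgroup Γℚ := Q8.comap R.ρ
  let ρ₁ : U →* Module.End κ RR.V := RR.ρ.comp U.subtype
  let mkHom : G3 →* Matrix (Fin 2) (Fin 2) κ :=
    { toFun := mkM κ
      map_one' := mkM_one
      map_mul' := mkM_mul }
  let toEnd : Matrix (Fin 2) (Fin 2) κ ≃ₐ[κ] Module.End κ (Fin 2 → κ) := Matrix.toLinAlgEquiv'
  let ρκ : Γℚ →* Module.End κ (Fin 2 → κ) :=
    ((toEnd : Matrix (Fin 2) (Fin 2) κ →* Module.End κ (Fin 2 → κ)).comp mkHom).comp R.ρ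
  let ρ₂ : U →* Module.End κ (Fin 2 → κ) := ρκ.comp U.subtype
  have hρκ : ∀ σ, ρκ σ = toEnd (mkM κ (R.ρ σ)) := fun σ => rfl
  have htrκ : ∀ X : Matrix (Fin 2) (Fin 2) κ,
      LinearMap.trace κ (Fin 2 → κ) (toEnd X) = X.trace := fun X => Matrix.trace_toLin'_eq X
  have hspan : Submodule.span κ (Set.range ρ₂) = ⊤ := by
    rw [eq_top_iff]
    intro f _
    obtain ⟨X, rfl⟩ := toEnd.surjective f
    have h1 := mem_span_Q8 X
    have h2 : toEnd X ∈ (Submodule.span κ {Y | ∃ g ∈ Q8, Y = mkM κ g}).map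
        toEnd.toLinearMap := ⟨X, h1, rfl⟩
    rw [Submodule.map_span] at h2
    refine Submodule.span_mono ?_ h2
    rintro _ ⟨_, ⟨g, hg, rfl⟩, rfl⟩
    obtain ⟨σ, rfl⟩ := R.isOcta.surj g
    exact ⟨⟨σ, hg⟩, rfl⟩
  obtain ⟨e, he⟩ := BN2.exists_linearEquiv_of_trace_eq ρ₁ ρ₂ (by rw [hfr]; simp)
    (fun u => by
      change LinearMap.trace κ RR.V (RR.ρ u.1) = LinearMap.trace κ _ (toEnd (mkM κ (R.ρ u.1)))
      rw [htr' u.1 u.2, htrκ, trace_mkM]) hspan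
  -- the transported representation, in matrix form
  let R' : Γℚ → Matrix (Fin 2) (Fin 2) κ := fun σ => toEnd.symm (e.conj (RR.ρ σ))
  have hR'mul : ∀ σ τ, R' (σ * τ) = R' σ * R' τ := by
    intro σ τ
    change toEnd.symm (e.conj (RR.ρ (σ * τ))) = _
    rw [map_mul, Module.End.mul_eq_comp, LinearEquiv.conj_comp, ← Module.End.mul_eq_comp, map_mul]
  have hR'U : ∀ σ, R.ρ σ ∈ Q8 → R' σ = mkM κ (R.ρ σ) := by
    intro σ hσ
    change toEnd.symm (e.conj (RR.ρ σ)) = _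
    rw [AlgEquiv.symm_apply_eq]
    refine LinearMap.ext fun x => ?_
    have := he ⟨σ, hσ⟩ (e.symm x)
    rw [e.apply_symm_apply] at this
    exact this
  have hR'tr : ∀ σ, (R' σ).trace = LinearMap.trace κ RR.V (RR.ρ σ) := by
    intro σ
    rw [← htrκ, AlgEquiv.apply_symm_apply]
    exact LinearMap.trace_conj' (RR.ρ σ) e
  have hR'det : ∀ σ, (R' σ).det = ic (dt (R.ρ σ)) := by
    intro σ
    rw [← hdet' σ, ← LinearMap.det_conj (RR.ρ σ) e]
    conv_rhs => rw [← toEnd.apply_symm_apply ((e : RR.V →ₗ[κ] (Fin 2 → κ)) ∘ₗ (RR.ρ σ) ∘ₗ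
      (e.symm : (Fin 2 → κ) →ₗ[κ] RR.V))]
    exact (LinearMap.det_toLin' _).symm
  -- `R' σ = ψ σ • ρ σ`
  have hinv : ∀ g : G3, mkM κ g * mkM κ g⁻¹ = 1 := fun g => by rw [← mkM_mul, mul_inv_cancel, mkM_one]
  have hinv' : ∀ g : G3, mkM κ g⁻¹ * mkM κ g = 1 := fun g => by rw [← mkM_mul, inv_mul_cancel, mkM_one]
  have hcomm : ∀ σ : Γℚ, ∀ q ∈ Q8, (R' σ * mkM κ (R.ρ σ)⁻¹) * mkM κ q =
      mkM κ q * (R' σ * mkM κ (R.ρ σ)⁻¹) := by
    intro σ q hq
    obtain ⟨u, rfl⟩ := R.isOcta.surj q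
    have hu' : R.ρ (σ⁻¹ * u * σ) ∈ Q8 := by
      rw [map_mul, map_mul, map_inv]
      have := (inferInstance : Q8.Normal).conj_mem _ hq (R.ρ σ)⁻¹
      rwa [inv_inv] at this
    calc (R' σ * mkM κ (R.ρ σ)⁻¹) * mkM κ (R.ρ u)
        = R' σ * (mkM κ (R.ρ (σ⁻¹ * u * σ)) * mkM κ (R.ρ σ)⁻¹) := by
          rw [mul_assoc, ← mkM_mul, ← mkM_mul, map_mul, map_mul, map_inv, mul_inv_cancel_right]
      _ = R' σ * R' (σ⁻¹ * u * σ) * mkM κ (R.ρ σ)⁻¹ := by rw [hR'U _ hu', mul_assoc (R' σ)]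
      _ = R' (u * σ) * mkM κ (R.ρ σ)⁻¹ := by
          rw [← hR'mul]
          congr 2
          group
      _ = mkM κ (R.ρ u) * (R' σ * mkM κ (R.ρ σ)⁻¹) := by rw [hR'mul, hR'U u hq, mul_assoc]
  let ψ : Γℚ → κ := fun σ => (R' σ * mkM κ (R.ρ σ)⁻¹) 0 0
  have hψ : ∀ σ, R' σ = ψ σ • mkM κ (R.ρ σ) := by
    intro σ
    have h1 := scalar_of_commute (hcomm σ _ qJ_mem) (hcomm σ _ qA_mem)
    have h2 := congrArg (fun X => X * mkM κ (R.ρ σ)) h1
    have h3 : R' σ * mkM κ (R.ρ σ)⁻¹ * mkM κ (R.ρ σ) = R' σ := by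
      rw [mul_assoc, hinv', mul_one]
    have h4 : ((R' σ * mkM κ (R.ρ σ)⁻¹) 0 0 • (1 : Matrix (Fin 2) (Fin 2) κ)) * mkM κ (R.ρ σ) =
        ψ σ • mkM κ (R.ρ σ) := by
      rw [smul_mul_assoc, one_mul]
    exact h3.symm.trans (h2.trans h4)
  have hmk0 : ∀ g : G3, mkM κ g ≠ 0 := by
    intro g h
    have := hinv g
    rw [h, zero_mul] at this
    exact zero_ne_one this
  have hψmul : ∀ σ τ, ψ (σ * τ) = ψ σ * ψ τ := by
    intro σ τ
    have h1 := hR'mul σ τ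
    rw [hψ (σ * τ), hψ σ, hψ τ, smul_mul_smul_comm, ← mkM_mul, map_mul] at h1
    have h2 : (ψ (σ * τ) - ψ σ * ψ τ) • mkM κ (R.ρ σ * R.ρ τ) = 0 := by rw [sub_smul, h1, sub_self]
    exact sub_eq_zero.mp ((smul_eq_zero.mp h2).resolve_right (hmk0 _))
  have hψU : ∀ σ, R.ρ σ ∈ Q8 → ψ σ = 1 := by
    intro σ hσ
    have h1 := hψ σ
    rw [hR'U σ hσ] at h1
    have h2 : (ψ σ - 1) • mkM κ (R.ρ σ) = 0 := by rw [sub_smul, ← h1, one_smul, sub_self]
    exact sub_eq_zero.mp ((smul_eq_zero.mp h2).resolve_right (hmk0 _))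
  have hdtne : ∀ g : G3, (ic (dt g) : κ) ≠ 0 := by
    intro g h
    have h1 : (ic (dt g * dt g) : κ) = 0 := by rw [map_mul, h, zero_mul]
    rw [dt_mul_self, map_one] at h1
    exact one_ne_zero h1
  have hψ2 : ∀ σ, ψ σ * ψ σ = 1 := by
    intro σ
    have h1 := hR'det σ
    rw [hψ σ, Matrix.det_smul, det_mkM, Fintype.card_fin, sq] at h1
    exact mul_right_cancel₀ (hdtne _) (h1.trans (one_mul _).symm)
  have hψSL : ∀ σ, R.ρ σ ∈ SLs → ψ σ = 1 := by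
    intro σ hσ
    have h1 : ψ (σ * σ * σ) = 1 := by
      apply hψU
      have := pow_three_mem_Q8 hσ
      rwa [pow_succ, sq, ← map_mul, ← map_mul] at this
    rw [hψmul, hψmul, hψ2, one_mul] at h1
    exact h1
  have htrall : ∀ σ, LinearMap.trace κ RR.V (RR.ρ σ) = ψ σ * ic (tr (R.ρ σ)) := by
    intro σ
    rw [← hR'tr, hψ σ, Matrix.trace_smul, trace_mkM, smul_eq_mul]
  obtain ⟨c, hc⟩ := R.isOcta.surj (mk4 1 0 0 (-1) (by decide))
  have hdc : dt (R.ρ c) = -1 := by rw [hc]; decide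
  have hψc : ∀ σ, dt (R.ρ σ) = -1 → ψ σ = ψ c := by
    intro σ hσ
    have h1 : ψ (σ * c⁻¹) = 1 := by
      apply hψSL
      rw [mem_SLs, map_mul, map_inv, dt_mul, dt_inv, hσ, hdc]; ring
    have h2 := hψmul (σ * c⁻¹) c
    rw [inv_mul_cancel_right, h1, one_mul] at h2
    exact h2
  rcases mul_self_eq_one_iff.mp (hψ2 c) with h1 | h1
  · left
    intro σ
    rw [htrall]
    rcases dt_eq_or (R.ρ σ) with h | h
    · rw [hψSL σ h, one_mul]
    · rw [hψc σ h, h1, one_mul]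
  · right
    intro σ
    rw [htrall, map_mul]
    congr 1
    rcases dt_eq_or (R.ρ σ) with h | h
    · rw [hψSL σ h, h, map_one]
    · rw [hψc σ h, h1, h, map_neg, map_one]

end Octa

end Fermat.Agent.LT.K
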