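import Fermat.Agent.LT.K.Frob
import Fermat.Agent.LT.K.Ram
import Fermat.Agent.Density.Final
import Fermat.Agent.LT.A.Fin

/-!
# LT: the Chebotarev inputs of the uniqueness theorems (cubic, sparse, Asai)

* `plc S X`: primes `ℓ ∉ S` with a Frobenius in `X ⊆ GL₂(𝔽₃)`; `tendsto_plc`.
* `VZ H B`: the places of `fld H` of prime norm, not above `B`, whose Frobenius is `± 1`;
  `eventually_VZ`: `∑_{v ∈ VZ} N(v)^{-s} ≥ κ log (1/(s-1))` for `κ < 2 / |H|`.

(helper51)
-/

set_option autoImplicit false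

open Matrix NumberField Pointwise IsDedekindDomain Filter Topology

namespace Fermat.Agent.LT.K

open Fermat.Agent.DedekindEuler Fermat.Agent.FrobDensity Fermat.Agent.Density.Crossing

local notation "Γℚ" => (AlgebraicClosure ℚ ≃ₐ[ℚ] AlgebraicClosure ℚ)
local notation "ℚbar" => AlgebraicClosure ℚ

namespace Octa

variable (R : Octa)

/-! ### Densities over `ℚ` -/

/-- The primes outside `S` with a Frobenius element in `X ⊆ GL₂(𝔽₃)`. -/
def plc (S : Finset ℕ) (X : Set G3) : Set ℕ :=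
  {ℓ | ℓ.Prime ∧ ℓ ∉ S ∧ ∃ (A : ValuationSubring ℚbar) (σ : Γℚ),
      A.LiesOverPrime ℓ ∧ A.IsFrobeniusAt σ ℓ ∧ R.ρ σ ∈ X}

/-- Chebotarev for `N / ℚ`. -/
theorem tendsto_plc (S : Finset ℕ) {X : Set G3} (hX : ∀ g h : G3, g ∈ X → h * g * h⁻¹ ∈ X) :
    Tendsto (fun s : ℝ ↦ (∑' ℓ : ℕ, (R.plc S X).indicator (fun ℓ : ℕ ↦ (ℓ : ℝ) ^ (-s)) ℓ) /
      Real.log (1 / (s - 1))) (𝓝[>] 1) (𝓝 ((Nat.card X : ℝ) / 48)) := by
  let X' : Set (R.N ≃ₐ[ℚ] R.N) := R.galN ⁻¹' X
  have hX' : ∀ g h : R.N ≃ₐ[ℚ] R.N, g ∈ X' → h * g * h⁻¹ ∈ X' := by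
    intro g h hg
    change R.galN (h * g * h⁻¹) ∈ X
    rw [map_mul, map_mul, map_inv]
    exact hX _ _ hg
  have h1 := Density.Final.tendsto_placePrimes S R.N hX'
  have h2 : Density.Chebotarev.placePrimes S R.N X' = R.plc S X := by
    ext ℓ
    constructor
    · rintro ⟨h1, h2, A, σ, h3, h4, h5⟩
      refine ⟨h1, h2, A, σ, h3, h4, ?_⟩
      rw [← R.galN_resN]
      exact h5
    · rintro ⟨h1, h2, A, σ, h3, h4, h5⟩
      refine ⟨h1, h2, A, σ, h3, h4, ?_⟩
      rw [← R.galN_resN] at h5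
      exact h5
  have h3 : Nat.card X' = Nat.card X :=
    Nat.card_congr (R.galN.toEquiv.image X' |>.trans (Equiv.setCongr (by
      ext g
      constructor
      · rintro ⟨x, hx, rfl⟩; exact hx
      · intro hg
        exact ⟨R.galN.symm g, by
          change R.galN (R.galN.symm g) ∈ X
          rw [MulEquiv.apply_symm_apply]; exact hg, R.galN.apply_symm_apply g⟩)))
  have h4 : Nat.card (R.N ≃ₐ[ℚ] R.N) = 48 := by
    rw [Nat.card_congr R.galN.toEquiv, card_G3]
  rw [h2, h3, h4] at h1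
  exact_mod_cast h1

/-! ### Places of `fld H` -/

variable (H : Subgroup G3)

/-- The places of `fld H` of prime norm, not above `B`, whose Frobenius is `± 1`. -/
def VZ (B : Finset ℕ) : Set (HeightOneSpectrum (𝓞 (R.fld H))) :=
  {v | below v ∉ B ∧ (R.fr v : G3) ∈ Z2 ∧ (Ideal.absNorm v.asIdeal).Prime}

theorem conj_Z2 {g : G3} (hg : g ∈ Z2) (h : G3) : h * g * h⁻¹ = g := by
  rw [mem_Z2] at hg
  rcases hg with rfl | rfl
  · simp
  · simp

theorem summable_absNorm (F : Type) [Field F] [NumberField F] {s : ℝ} (hs : 1 < s) :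
    Summable fun v : HeightOneSpectrum (𝓞 F) => (Ideal.absNorm v.asIdeal : ℝ) ^ (-s) :=
  Density.summable_nrm_primes F hs

theorem isArithFrobAt_galN (P : HeightOneSpectrum (𝓞 R.N)) :
    IsArithFrobAt ℤ (R.galN (frob P)) P.asIdeal := by
  intro x
  have h1 := isArithFrobAt_frob P x
  have h2 : R.galN (frob P) • x = frob P • x := by
    apply RingOfIntegers.ext
    change R.galN.symm (R.galN (frob P)) (x : R.N) = frob P (x : R.N)
    rw [MulEquiv.symm_apply_apply]
  change R.galN (frob P) • x - _ ∈ _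
  rw [h2]
  exact h1

theorem inertia_eq_bot {B : Finset ℕ} (hB : BadFor R.N B) (P : HeightOneSpectrum (𝓞 R.N))
    (hP : below P ∉ B) : P.asIdeal.inertia H = ⊥ := by
  rw [eq_bot_iff]
  intro g hg
  rw [Subgroup.mem_bot]
  have h1 : R.galN.symm (g : G3) ∈ P.asIdeal.inertia (R.N ≃ₐ[ℚ] R.N) := by
    intro x
    have h2 := hg x
    have h3 : R.galN.symm (g : G3) • x = (g : G3) • x := by
      apply RingOfIntegers.ext
      rfl
    rw [h3]
    exact h2
  have h2 := hB P hP _ h1
  apply Subtype.ext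
  rw [OneMemClass.coe_one, ← map_one R.galN, ← h2, MulEquiv.apply_symm_apply]

theorem tsum_frobSet_le (hH : Z2 ≤ H) {B : Finset ℕ} (hB : BadFor R.N B) {s : ℝ} (hs : 1 < s) :
    ∑' P : HeightOneSpectrum (𝓞 R.N), (frobSet B (R.galN ⁻¹' (Z2 : Set G3))).indicator (w s) P ≤
      (Nat.card H : ℝ) * ∑' v : HeightOneSpectrum (𝓞 (R.fld H)),
        (R.VZ H B).indicator (fun v => (Ideal.absNorm v.asIdeal : ℝ) ^ (-s)) v := by
  classical
  set E := R.fld H with hE
  set X : Set (R.N ≃ₐ[ℚ] R.N) := R.galN ⁻¹' (Z2 : Set G3) with hX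
  let D : Subgroup (R.N ≃ₐ[ℚ] R.N) :=
    fixingSubgroup (R.N ≃ₐ[ℚ] R.N) (Set.range (algebraMap E R.N))
  have hD : IsGaloisGroup D E R.N := IsGaloisGroup.of_isScalarTower (R.N ≃ₐ[ℚ] R.N) ℚ R.N E
  let f : HeightOneSpectrum (𝓞 R.N) → ℝ := fun P ↦ (frobSet B X).indicator (w s) P
  have hsumm : Summable f := summable_frobSet hB hs X
  have hfin : Module.finrank E R.N = Nat.card H := R.card_eq_finrank_bot
  have hsumV : Summable fun v : HeightOneSpectrum (𝓞 E) =>
      (R.VZ H B).indicator (fun v => (Ideal.absNorm v.asIdeal : ℝ) ^ (-s)) v :=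
    (summable_absNorm E hs).indicator _
  -- fibres
  have hfib : ∀ v : HeightOneSpectrum (𝓞 E),
      ∑' P : {P : HeightOneSpectrum (𝓞 R.N) // underE E P = v}, f P.1 ≤
      (Nat.card H : ℝ) * (R.VZ H B).indicator (fun v => (Ideal.absNorm v.asIdeal : ℝ) ^ (-s)) v := by
    intro v
    have := finite_fiber (L := R.N) E v
    by_cases hv : ∃ P : {P : HeightOneSpectrum (𝓞 R.N) // underE E P = v}, P.1 ∈ frobSet B X
    · obtain ⟨⟨P, hP⟩, hPB, hPX⟩ := hv
      simp only at hPB hPX
      have hvB : below v ∉ B := by rw [← hP, below_underE]; exact hPB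
      have hPp := P.isPrime
      -- the Frobenius
      have hfr : IsArithFrobAt ℤ (R.galN (frob P)) P.asIdeal := R.isArithFrobAt_galN P
      have hg : R.galN (frob P) ∈ H := hH hPX
      obtain ⟨hcard, hfrob⟩ := R.frob_down (H := H) P.ne_bot hg hfr
      have hvP : P.asIdeal.under (𝓞 (R.fld H)) = v.asIdeal := by rw [← hP]; rfl
      have hI : P.asIdeal.inertia H = ⊥ := R.inertia_eq_bot H hB P hPB
      obtain ⟨h, hh⟩ := R.exists_conj_fr v P.asIdeal hvP hI hfrob
      have hfrv : (R.fr v : G3) = R.galN (frob P) := by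
        have h1 : R.galN (frob P) = h * R.fr v * (h : G3)⁻¹ := congrArg Subtype.val hh
        have h2 : (R.fr v : G3) = (h : G3)⁻¹ * R.galN (frob P) * ((h : G3)⁻¹)⁻¹ := by
          rw [h1]; group
        rw [h2]
        exact conj_Z2 hPX _
      have hprime : Ideal.absNorm v.asIdeal = below v := by
        rw [Ideal.absNorm_apply, Submodule.cardQuot_apply, ← hvP, hcard, card_quot_under, ← hP,
          below_underE]
      have hvV : v ∈ R.VZ H B := ⟨hvB, by rw [hfrv]; exact hPX, by rw [hprime]; exact below_prime v⟩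
      rw [Set.indicator_of_mem hvV, ← hfin]
      have h1 := tsum_fiber_w E D hB s v hvB
      have hw : w s v = (Ideal.absNorm v.asIdeal : ℝ) ^ (-s) := by
        have h2 : v.asIdeal.inertiaDeg ℤ = 1 := (absNorm_prime_iff v).mp (by
          rw [hprime]; exact below_prime v)
        rw [w, h2, hprime, Nat.cast_one, one_mul]
      rw [← hw, ← h1]
      refine Summable.tsum_le_tsum (fun P => ?_) Summable.of_finite Summable.of_finite
      exact Set.indicator_le_self' (fun _ _ => w_nonneg s _) _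
    · have h2 : ∀ P : {P : HeightOneSpectrum (𝓞 R.N) // underE E P = v}, f P.1 = 0 := by
        intro P
        exact Set.indicator_of_notMem (fun h3 => hv ⟨P, h3⟩) _
      rw [tsum_congr h2, tsum_zero]
      exact mul_nonneg (Nat.cast_nonneg _) (Set.indicator_nonneg (fun _ _ => by positivity) _)
  let e := Equiv.sigmaFiberEquiv (underE (L := R.N) E)
  change ∑' P, f P ≤ _
  rw [← Equiv.tsum_eq e]
  have hS : Summable (f ∘ e) := (Equiv.summable_iff e).mpr hsumm
  change ∑' c, (f ∘ e) c ≤ _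
  have hS' : ∀ v, Summable fun P : {P : HeightOneSpectrum (𝓞 R.N) // underE E P = v} =>
      (f ∘ e) ⟨v, P⟩ := fun v => by
    have := finite_fiber (L := R.N) E v
    exact Summable.of_finite
  rw [hS.tsum_sigma' hS', ← tsum_mul_left]
  refine Summable.tsum_le_tsum (fun v => hfib v) ?_ (hsumV.mul_left _)
  exact hS.sigma' hS'

/-- The density of the places of degree one with Frobenius `± 1` is `2 / |H|`. -/
theorem eventually_VZ (hH : Z2 ≤ H) {B : Finset ℕ} (hB : BadFor R.N B) {κ : ℝ}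
    (hκ : κ < 2 / (Nat.card H : ℝ)) :
    ∀ᶠ s : ℝ in 𝓝[>] 1, κ * Real.log (1 / (s - 1)) ≤
      ∑' v : HeightOneSpectrum (𝓞 (R.fld H)),
        (R.VZ H B).indicator (fun v => (Ideal.absNorm v.asIdeal : ℝ) ^ (-s)) v := by
  classical
  have hcH : (0 : ℝ) < Nat.card H := by
    have : Finite H := inferInstance
    exact_mod_cast Nat.card_pos
  set X : Set (R.N ≃ₐ[ℚ] R.N) := R.galN ⁻¹' (Z2 : Set G3) with hX
  have hfin : Finite (R.N ≃ₐ[ℚ] R.N) := Finite.of_equiv _ R.galN.symm.toEquiv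
  have hXf : X.Finite := Set.toFinite X
  have h0 := tendsto_dens_finset Density.Final.cycloPrimeDensity hB hXf.toFinset
  have hcard : hXf.toFinset.card = 2 := by
    rw [← Set.ncard_eq_toFinset_card, ← Nat.card_coe_set_eq, ← card_Z2]
    refine Nat.card_congr (R.galN.toEquiv.image X |>.trans (Equiv.setCongr ?_))
    ext g
    constructor
    · rintro ⟨x, hx, rfl⟩; exact hx
    · intro hg
      exact ⟨R.galN.symm g, by
        change R.galN (R.galN.symm g) ∈ (Z2 : Set G3)
        rw [MulEquiv.apply_symm_apply]; exact hg, R.galN.apply_symm_apply g⟩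
  rw [hcard, Set.Finite.coe_toFinset] at h0
  have h1 : κ * Nat.card H < 2 := by rwa [lt_div_iff₀ hcH] at hκ
  have h2 := h0.eventually_const_lt (u := κ * Nat.card H) (by exact_mod_cast h1)
  filter_upwards [h2, eventually_log_pos, self_mem_nhdsWithin] with s hs hlog hs1
  have hs1' : 1 < s := hs1
  rw [dens, lt_div_iff₀ hlog] at hs
  have h3 := hs.le.trans (R.tsum_frobSet_le H hH hB hs1')
  have h4 : (Nat.card H : ℝ) * (κ * Real.log (1 / (s - 1))) ≤ (Nat.card H : ℝ) *
      ∑' v : HeightOneSpectrum (𝓞 (R.fld H)),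
        (R.VZ H B).indicator (fun v => (Ideal.absNorm v.asIdeal : ℝ) ^ (-s)) v := by
    refine le_trans (le_of_eq ?_) h3
    ring
  exact le_of_mul_le_mul_left h4 hcH

/-- General form: index type `P`, weights `l ≥ 0`, with `l ≥ c` at the places of degree one with
Frobenius `± 1`. -/
theorem eventually_le_tsum (hH : Z2 ≤ H) {P : Type*} (ι : P → HeightOneSpectrum (𝓞 (R.fld H)))
    (hι : Function.Injective ι) (hfin : (Set.range ι)ᶜ.Finite) (T : Finset ℕ)
    (l : P → ℝ) (hl0 : ∀ v, 0 ≤ l v) {C : ℝ} (hlC : ∀ v, l v ≤ C) {c : ℝ} (hc : 0 < c)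
    (h : ∀ v, below (ι v) ∉ T → (R.fr (ι v) : G3) ∈ Z2 →
      (Ideal.absNorm (ι v).asIdeal).Prime → (∀ P : HeightOneSpectrum (𝓞 R.N),
        below P = below (ι v) → P.asIdeal.inertia H = ⊥) → c ≤ l v)
    {κ : ℝ} (hκ : κ < 2 * c / (Nat.card H : ℝ)) :
    ∀ᶠ s : ℝ in 𝓝[>] 1, κ * Real.log (1 / (s - 1)) ≤
      ∑' v : P, l v * (Ideal.absNorm (ι v).asIdeal : ℝ) ^ (-s) := by
  classical
  obtain ⟨B, hTB, hB⟩ := exists_bad R.N (T ∪ hfin.toFinset.image below)
  have h1 := R.eventually_VZ H hH hB (κ := κ / c) (by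
    rw [div_lt_iff₀ hc]
    calc κ < 2 * c / (Nat.card H : ℝ) := hκ
      _ = 2 / (Nat.card H : ℝ) * c := by ring)
  filter_upwards [h1, self_mem_nhdsWithin] with s hs hs1
  have hs1' : 1 < s := hs1
  set g : HeightOneSpectrum (𝓞 (R.fld H)) → ℝ :=
    (R.VZ H B).indicator (fun v => (Ideal.absNorm v.asIdeal : ℝ) ^ (-s)) with hg
  have hgs : Summable g := (summable_absNorm (R.fld H) hs1').indicator _
  have h2 : ∑' v : P, g (ι v) = ∑' w, g w := by
    refine hι.tsum_eq ?_
    intro w hw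
    by_contra hcon
    rw [Function.mem_support] at hw
    apply hw
    rw [hg, Set.indicator_of_notMem]
    intro hmem
    apply hmem.1
    apply hTB
    rw [Finset.mem_union]
    right
    exact Finset.mem_image_of_mem _ (by rw [Set.Finite.mem_toFinset]; exact hcon)
  have h3 : κ * Real.log (1 / (s - 1)) ≤ c * ∑' w, g w := by
    have := mul_le_mul_of_nonneg_left hs hc.le
    refine le_trans (le_of_eq ?_) this
    field_simp
  refine h3.trans ?_
  rw [← h2, ← tsum_mul_left]
  have hsι : Summable fun v : P => (Ideal.absNorm (ι v).asIdeal : ℝ) ^ (-s) :=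
    (summable_absNorm (R.fld H) hs1').comp_injective hι
  refine Summable.tsum_le_tsum (fun v => ?_) ((hgs.comp_injective hι).mul_left c) ?_
  · by_cases hv : ι v ∈ R.VZ H B
    · rw [hg, Set.indicator_of_mem hv]
      refine mul_le_mul_of_nonneg_right (h v ?_ hv.2.1 hv.2.2 ?_) (by positivity)
      · intro hT
        exact hv.1 (hTB (Finset.mem_union_left _ hT))
      · intro P hP
        exact R.inertia_eq_bot H hB P (by rw [hP]; exact hv.1)
    · rw [hg, Set.indicator_of_notMem hv, mul_zero]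
      exact mul_nonneg (hl0 v) (by positivity)
  · refine Summable.of_nonneg_of_le (fun v => mul_nonneg (hl0 v) (by positivity)) (fun v => ?_)
      (hsι.mul_left C)
    exact mul_le_mul_of_nonneg_right (hlC v) (by positivity)

end Octa

end Fermat.Agent.LT.K
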