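import Fermat.Agent.LT.K.DensL
import Fermat.Agent.Lib.Cyclotomic

/-!
# LT: density inputs on the side of `K = ℚ(ζ₃)`: `uniqueness_cubic` and `asai_unbounded`

* `exists_above_of_mem` : a place `v` of `K` of prime norm with Frobenius in `Q8` has a place `w` of
  `L` above it, of the same norm, with `λ_w = trQ (Frob_v)`;
* `cubic_dens` : `κ log (1/(s-1)) ≤ 3 ∑_{v split in L} λ_v² q_v^{-s}` for `κ < 1`;
* `exists_above_inert` : if `p ≡ 2 (3)` and `g` is a Frobenius at `p` then the place `v` of `K` above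
  `p` has a place `w` of `L` above it of the same norm `p²`, with `λ_w = trQ (g²) ∈ {0, 2}`;
* `asai_dens` : `∑_{p inert} λ_v p^{-s} → ∞`.

(helper51)
-/

set_option autoImplicit false

open Matrix NumberField IsDedekindDomain Filter Topology Pointwise
open Fermat.LT Fermat.Agent.LT.D Fermat.Agent.CFT

namespace Fermat.Agent.LT.K

local notation "Γℚ" => (AlgebraicClosure ℚ ≃ₐ[ℚ] AlgebraicClosure ℚ)
local notation "ℚbar" => AlgebraicClosure ℚ

open Fermat.Agent.DedekindEuler Fermat.Agent.FrobDensity Fermat.Agent.Density.Crossing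

namespace Octa

variable (R : Octa)

theorem above_ab (v : Pl R.K) : Above v (R.und Q8 (R.ab v) (R.ab_ne_bot v)) := by
  intro x
  rw [← R.under_ab v]
  rfl

theorem card_quot_int' (v : Pl R.K) : Nat.card (ℤ ⧸ (R.ab v).under ℤ) = below v := by
  have h : (R.ab v).under ℤ = v.asIdeal.under ℤ := by
    rw [← R.under_ab v, Ideal.under_under]
  rw [h, card_quot_under]

/-- degree one places with Frobenius in `Q8` -/
theorem exists_above_of_mem (v : Pl R.K) (hp : (Ideal.absNorm v.asIdeal).Prime)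
    (hQ : (R.fr v : G3) ∈ Q8) (hI : (R.ab v).inertia Q8 = ⊥) :
    ∃ w : Pl R.L, Above v w ∧ qv w = qv v ∧ R.lam w = trQ (R.fr v : G3) := by
  have hcardv : Nat.card (𝓞 R.K ⧸ (R.ab v).under (𝓞 R.K)) = Nat.card (ℤ ⧸ (R.ab v).under ℤ) := by
    rw [R.card_quot_int', below_eq_absNorm hp, Ideal.absNorm_apply, Submodule.cardQuot_apply,
      R.under_ab]
  have hF : IsArithFrobAt ℤ (R.fr v : G3) (R.ab v) := by
    intro x
    have h1 := R.fr_spec v x
    rw [hcardv] at h1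
    exact h1
  obtain ⟨hc, hg⟩ := R.frob_down (H := Q8) (R.ab_ne_bot v) hQ hF
  refine ⟨R.und Q8 (R.ab v) (R.ab_ne_bot v), R.above_ab v, ?_, ?_⟩
  · rw [qv, qv, Ideal.absNorm_apply, Ideal.absNorm_apply, Submodule.cardQuot_apply,
      Submodule.cardQuot_apply]
    have h2 : Nat.card (𝓞 R.K ⧸ v.asIdeal) = Nat.card (ℤ ⧸ (R.ab v).under ℤ) := by
      rw [← hcardv, R.under_ab]
    rw [h2, ← hc]
    rfl
  · exact R.lam_eq _ (R.ab v) rfl hI hg

theorem sq_eq_four {v : Pl R.K} (h : (R.fr v : G3) ∈ Z2) : (trQ (R.fr v : G3) : ℝ) ^ 2 = 4 := by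
  rcases mem_Z2.mp h with h | h
  · rw [h]
    have : trQ (1 : G3) = 2 := by rw [trQ, if_pos rfl]
    rw [this]; norm_num
  · rw [h]
    have h1 : (-1 : G3) ≠ 1 := by decide
    have : trQ (-1 : G3) = -2 := by rw [trQ, if_neg h1, if_pos rfl]
    rw [this]; norm_num

/-- **`hdens` of `uniqueness_cubic`.** -/
theorem cubic_dens (C : Cub R.K R.L) {P : Type*} (ι : P → Pl R.K) (hι : Function.Injective ι)
    (hfin : (Set.range ι)ᶜ.Finite) (T : Finset (Pl R.K)) (lam : Pl R.K → ℝ)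
    (hlam : ∀ v ∉ T, ∀ w : Pl R.L, Split C v w → lam v = R.lam w)
    (A : Set P) (hA : ∀ v : P, ι v ∉ T → ∀ w : Pl R.L, Split C (ι v) w → v ∈ A)
    {Cb : ℝ} (hC : ∀ v ∈ A, |lam (ι v)| ≤ Cb) {κ : ℝ} (hκ : κ < 1) :
    ∀ᶠ s : ℝ in 𝓝[>] 1, κ * Real.log (1 / (s - 1)) ≤
      3 * ∑' v : P, A.indicator (fun v => lam (ι v) ^ 2 * qv (ι v) ^ (-s)) v := by
  classical
  set l : P → ℝ := fun v => A.indicator (fun v => lam (ι v) ^ 2) v with hl
  have h1 := R.eventually_le_tsum SLs (Z2_le_C4.trans (C4_le_Q8.trans Q8_le_SLs)) ι hι hfin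
    (T.image below ∪ (Top.finite_fix_prime C).toFinset.image below) l
    (fun v => Set.indicator_nonneg (fun _ _ => sq_nonneg _) _) (C := Cb ^ 2)
    (fun v => by
      rw [hl]
      by_cases hv : v ∈ A
      · simp only
        rw [Set.indicator_of_mem hv, ← sq_abs]
        exact pow_le_pow_left₀ (abs_nonneg _) (hC v hv) 2
      · simp only
        rw [Set.indicator_of_notMem hv]
        positivity) (c := 4) (by norm_num)
    (fun v hv hZ hp hI => by
      rw [Finset.mem_union, not_or] at hv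
      have hvT : ι v ∉ T := fun h => hv.1 (Finset.mem_image_of_mem _ h)
      have hbe : below (⟨R.ab (ι v), R.isPrime_ab _, R.ab_ne_bot _⟩ :
          HeightOneSpectrum (𝓞 R.N)) = below (ι v) := by
        rw [← R.card_quot_int']
        exact (card_quot_under (⟨R.ab (ι v), R.isPrime_ab _, R.ab_ne_bot _⟩ :
          HeightOneSpectrum (𝓞 R.N))).symm
      have hIS := hI ⟨R.ab (ι v), R.isPrime_ab _, R.ab_ne_bot _⟩ hbe
      have hIQ : (R.ab (ι v)).inertia Q8 = ⊥ := by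
        rw [eq_bot_iff]
        intro g hg
        have h2 : (⟨(g : G3), Q8_le_SLs g.2⟩ : SLs) ∈ (R.ab (ι v)).inertia SLs := fun x => hg x
        rw [Subgroup.mem_bot]
        change (R.ab (ι v)).inertia SLs = ⊥ at hIS
        rw [hIS, Subgroup.mem_bot] at h2
        have h3 : (g : G3) = 1 := congrArg Subtype.val h2
        exact Subtype.ext h3
      obtain ⟨w, hw1, hw2, hw3⟩ := R.exists_above_of_mem (ι v) hp
        (Z2_le_C4.trans C4_le_Q8 hZ) hIQ
      have hwp : (Ideal.absNorm w.asIdeal).Prime := by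
        rw [qv, qv] at hw2
        have : Ideal.absNorm w.asIdeal = Ideal.absNorm (ι v).asIdeal := by exact_mod_cast hw2
        rw [this]; exact hp
      have hbw : below w = below (ι v) := by
        rw [below_eq_absNorm hwp, below_eq_absNorm hp]
        rw [qv, qv] at hw2
        exact_mod_cast hw2
      have hne : pl C w ≠ w := by
        intro hfix
        apply hv.2
        rw [← hbw]
        exact Finset.mem_image_of_mem _ (by rw [Set.Finite.mem_toFinset]; exact ⟨hfix, hwp⟩)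
      have hs : Split C (ι v) w := by
        rcases trichotomy C hw1 with h | h | h
        · exact h
        · exact absurd h.fix hne
        · exact absurd h.fix hne
      have hvA : v ∈ A := hA v hvT w hs
      rw [hl]
      simp only
      rw [Set.indicator_of_mem hvA, hlam _ hvT w hs, hw3, R.sq_eq_four hZ]) (κ := κ / 3) (by
        rw [card_SLs]; push_cast; linarith)
  filter_upwards [h1] with s hs
  have h2 : κ * Real.log (1 / (s - 1)) = 3 * (κ / 3 * Real.log (1 / (s - 1))) := by ring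
  rw [h2]
  refine mul_le_mul_of_nonneg_left (hs.trans (le_of_eq (tsum_congr fun v => ?_))) (by norm_num)
  by_cases hv : v ∈ A
  · rw [hl]
    simp only
    rw [Set.indicator_of_mem hv, Set.indicator_of_mem hv]
    rfl
  · rw [hl]
    simp only
    rw [Set.indicator_of_notMem hv, Set.indicator_of_notMem hv, zero_mul]

/-! ### Inert primes and the Asai series -/

/-- `det ρ(Frob_p) = p` -/
theorem dt_frob_eq {ℓ : ℕ} (hℓ : ℓ.Prime) (h3 : ℓ ≠ 3) {A : ValuationSubring ℚbar}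
    (hA : A.LiesOverPrime ℓ) {σ : Γℚ} (hσ : A.IsFrobeniusAt σ ℓ) :
    dt (R.ρ σ) = ((ℓ : ℕ) : ZMod 3) := by
  have h1 := congrArg (fun u : (ZMod 3)ˣ => (u : ZMod 3)) (R.isOcta.det σ)
  have h2 : ((R.ρ σ : G3) : Matrix (Fin 2) (Fin 2) (ZMod 3)).det = ((ℓ : ℕ) : ZMod 3) := by
    refine Eq.trans h1 ?_
    exact Cyclotomic.cyc_frobenius (n := 3) hℓ
      (fun h => h3 ((Nat.prime_dvd_prime_iff_eq hℓ Nat.prime_three).mp h)) A hA hσ
  rw [dt_eq, h2]

/-- elements of determinant `-1`: `g²` has order one or four -/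
theorem sq_of_dt {g : G3} (h : dt g = -1) : g * g ∈ Q8 ∧ (trQ (g * g) = 2 ∨ trQ (g * g) = 0) := by
  have key : ∀ a b c d : ZMod 3, a * d - b * c = -1 →
      isQ (a * a + b * c) (a * b + b * d) (c * a + d * c) (c * b + d * d) ∧
      ¬ (a * a + b * c = -1 ∧ a * b + b * d = 0 ∧ c * a + d * c = 0 ∧ c * b + d * d = -1) := by
    decide +kernel
  obtain ⟨h1, h2⟩ := key _ _ _ _ h
  refine ⟨?_, ?_⟩
  · rw [mem_Q8, mul00, mul01, mul10, mul11]
    exact h1
  · rw [trQ]
    split_ifs with e1 e2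
    · left; rfl
    · exfalso
      rw [G3.ext_iff'] at e2
      simp only [mul00, mul01, mul10, mul11, negone00, negone01, negone10, negone11] at e2
      exact h2 e2
    · right; rfl

theorem sq_frob {P : Ideal (𝓞 R.N)} {g : G3} (hF : IsArithFrobAt ℤ g P) (x : 𝓞 R.N) :
    (g * g) • x - x ^ (Nat.card (ℤ ⧸ P.under ℤ) ^ 2) ∈ P := by
  set n := Nat.card (ℤ ⧸ P.under ℤ) with hn
  have h1 : g • x - x ^ n ∈ P := hF x
  have h2 : g • (g • x) - (g • x) ^ n ∈ P := hF (g • x)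
  have h3 : (g • x) ^ n - (x ^ n) ^ n ∈ P := by
    obtain ⟨c, hc⟩ := sub_dvd_pow_sub_pow (g • x) (x ^ n) n
    rw [hc]
    exact Ideal.mul_mem_right _ _ h1
  rw [mul_smul, pow_two, pow_mul]
  have e : g • g • x - (x ^ n) ^ n = (g • g • x - (g • x) ^ n) + ((g • x) ^ n - (x ^ n) ^ n) := by
    ring
  rw [e]
  exact Ideal.add_mem _ h2 h3

/-- the squares of Frobenius elements: upper bound for the residue field -/
theorem card_le_of_sq {H : Subgroup G3} {P : Ideal (𝓞 R.N)} [P.IsPrime] (hP : P ≠ ⊥) {g : G3}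
    (hg : g * g ∈ H) (hF : IsArithFrobAt ℤ g P) :
    Nat.card (𝓞 (R.fld H) ⧸ P.under (𝓞 (R.fld H))) ≤ Nat.card (ℤ ⧸ P.under ℤ) ^ 2 := by
  set w : Ideal (𝓞 (R.fld H)) := P.under (𝓞 (R.fld H)) with hw
  set n := Nat.card (ℤ ⧸ P.under ℤ) with hn
  have hw0 : w ≠ ⊥ := R.under_ne_bot hP
  have hwp : w.IsPrime := inferInstance
  have hmax : w.IsMaximal := hwp.isMaximal hw0
  let _ : Field (𝓞 (R.fld H) ⧸ w) := Ideal.Quotient.field w
  have hfin : Finite (𝓞 (R.fld H) ⧸ w) := Ideal.finiteQuotientOfFreeOfNeBot _ hw0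
  have hn1 : 1 < n := by
    have h0 : P.under ℤ ≠ ⊥ := fun h => hP (Ideal.eq_bot_of_comap_eq_bot h)
    have : Finite (ℤ ⧸ P.under ℤ) := Ideal.finiteQuotientOfFreeOfNeBot _ h0
    have : Nontrivial (ℤ ⧸ P.under ℤ) := Ideal.Quotient.nontrivial_iff.mpr
      (Ideal.IsPrime.ne_top inferInstance)
    exact Finite.one_lt_card
  have hn2 : 1 < n ^ 2 := Nat.one_lt_pow (by norm_num) hn1
  have hpow : ∀ x : 𝓞 (R.fld H) ⧸ w, x ^ (n ^ 2) = x := by
    intro x
    obtain ⟨y, rfl⟩ := Ideal.Quotient.mk_surjective x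
    rw [← map_pow, eq_comm, Ideal.Quotient.eq]
    have h1 := R.sq_frob hF (algebraMap (𝓞 (R.fld H)) (𝓞 R.N) y)
    have h2 : (g * g) • (algebraMap (𝓞 (R.fld H)) (𝓞 R.N) y) =
        algebraMap (𝓞 (R.fld H)) (𝓞 R.N) y := R.smul_algebraMap_eq ⟨g * g, hg⟩ y
    rw [h2, ← map_pow, ← map_sub] at h1
    exact h1
  classical
  have hfint := Fintype.ofFinite (𝓞 (R.fld H) ⧸ w)
  let f : Polynomial (𝓞 (R.fld H) ⧸ w) := Polynomial.X ^ (n ^ 2) - Polynomial.X
  have hf0 : f ≠ 0 := FiniteField.X_pow_card_sub_X_ne_zero _ hn2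
  have hdeg : f.natDegree = n ^ 2 := FiniteField.X_pow_card_sub_X_natDegree_eq _ hn2
  have h1 : (Finset.univ : Finset (𝓞 (R.fld H) ⧸ w)) ⊆ f.roots.toFinset := by
    intro x _
    rw [Multiset.mem_toFinset, Polynomial.mem_roots hf0]
    simp [f, Polynomial.IsRoot, hpow x]
  rw [Nat.card_eq_fintype_card]
  calc Fintype.card (𝓞 (R.fld H) ⧸ w) = (Finset.univ : Finset (𝓞 (R.fld H) ⧸ w)).card := rfl
    _ ≤ f.roots.toFinset.card := Finset.card_le_card h1
    _ ≤ f.roots.card := Multiset.toFinset_card_le _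
    _ ≤ f.natDegree := Polynomial.card_roots' f
    _ = n ^ 2 := hdeg

theorem frob_conj {ℓ : ℕ} (hℓ : ℓ.Prime) {A A' : ValuationSubring ℚbar} (hA : A.LiesOverPrime ℓ)
    (hA' : A'.LiesOverPrime ℓ) {σ σ' : Γℚ} (hσ : A.IsFrobeniusAt σ ℓ)
    (hσ' : A'.IsFrobeniusAt σ' ℓ) (hI : (R.cen A).inertia G3 = ⊥) :
    ∃ h : G3, R.ρ σ = h * R.ρ σ' * h⁻¹ := by
  obtain ⟨h, hh⟩ := Algebra.IsInvariant.exists_smul_of_under_eq ℤ (𝓞 R.N) G3
    (R.cen A') (R.cen A) ((R.under_int hℓ hA').trans (R.under_int hℓ hA).symm)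
  have h1 := (R.isArithFrobAt_of_isFrobeniusAt hℓ hA' hσ').conj h
  rw [← hh] at h1
  have h2 := (R.isArithFrobAt_of_isFrobeniusAt hℓ hA hσ).mul_inv_mem_inertia h1
  rw [hI, Subgroup.mem_bot, mul_inv_eq_one] at h2
  exact ⟨h, h2⟩

theorem below_eq_of_cen {v : Pl R.K} {ℓ : ℕ} (hℓ : ℓ.Prime) {A : ValuationSubring ℚbar}
    (hA : A.LiesOverPrime ℓ) (h : R.cen A = R.ab v) : below v = ℓ := by
  rw [← R.card_quot_int' v, ← h, R.card_quot_int hℓ hA]

/-- The place of `K` above an inert prime. -/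
theorem exists_above_inert (v : Pl R.K) (h2 : below v % 3 = 2) (hI : (R.ab v).inertia G3 = ⊥) :
    qv v = (below v : ℝ) ^ 2 ∧ ∃ w : Pl R.L, Above v w ∧ qv w = qv v ∧
      (R.lam w = 2 ∨ R.lam w = 0) ∧
      ∀ (A' : ValuationSubring ℚbar) (σ' : Γℚ), A'.LiesOverPrime (below v) →
        A'.IsFrobeniusAt σ' (below v) → R.lam w = trQ (R.ρ σ' * R.ρ σ') := by
  obtain ⟨ℓ, A, hℓ, hA, hcen⟩ := R.exists_cen_eq (R.ab v) (R.ab_ne_bot v)
  have hbl := R.below_eq_of_cen hℓ hA hcen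
  rw [hbl] at h2 ⊢
  obtain ⟨σ, hσ⟩ := FrobExists.exists_isFrobeniusAt A hℓ hA
  have h3 : ℓ ≠ 3 := by rintro rfl; norm_num at h2
  set g := R.ρ σ with hg
  have hdt : dt g = -1 := by
    rw [hg, R.dt_frob_eq hℓ h3 hA hσ]
    have h4 : ((ℓ : ℕ) : ZMod 3) = ((ℓ % 3 : ℕ) : ZMod 3) := by rw [ZMod.natCast_mod]
    rw [h4, h2]; rfl
  obtain ⟨hQ, htr⟩ := sq_of_dt hdt
  have hF : IsArithFrobAt ℤ g (R.ab v) := by
    rw [← hcen]; exact R.isArithFrobAt_of_isFrobeniusAt hℓ hA hσ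
  have hn : Nat.card (ℤ ⧸ (R.ab v).under ℤ) = ℓ := by rw [R.card_quot_int' v, hbl]
  have hP0 := R.ab_ne_bot v
  -- residue field of `v`
  have hvle : Ideal.absNorm v.asIdeal ≤ ℓ ^ 2 := by
    have := R.card_le_of_sq (H := SLs) hP0 (Q8_le_SLs hQ) hF
    rw [hn, R.under_ab] at this
    rwa [Ideal.absNorm_apply, Submodule.cardQuot_apply]
  have hvp : ¬ (Ideal.absNorm v.asIdeal).Prime := by
    intro hp
    have hcardv : Nat.card (𝓞 R.K ⧸ (R.ab v).under (𝓞 R.K)) =
        Nat.card (ℤ ⧸ (R.ab v).under ℤ) := by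
      rw [R.card_quot_int', below_eq_absNorm hp, Ideal.absNorm_apply, Submodule.cardQuot_apply,
        R.under_ab]
    have hF' : IsArithFrobAt ℤ (R.fr v : G3) (R.ab v) := by
      intro x
      have h1 := R.fr_spec v x
      rw [hcardv] at h1
      exact h1
    have h5 := hF.mul_inv_mem_inertia hF'
    rw [hI, Subgroup.mem_bot, mul_inv_eq_one] at h5
    have h6 : dt g = 1 := by rw [h5]; exact (R.fr v).2
    rw [h6] at hdt
    exact absurd hdt (by decide)
  have hN : Ideal.absNorm v.asIdeal = ℓ ^ 2 := by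
    have h7 := below_pow v
    rw [hbl] at h7
    have h8 := inertiaDeg_pos v
    have h9 : v.asIdeal.inertiaDeg ℤ ≠ 1 := fun h => hvp ((absNorm_prime_iff v).mpr h)
    have h10 : v.asIdeal.inertiaDeg ℤ ≤ 2 := by
      rw [← h7] at hvle
      exact (Nat.pow_le_pow_iff_right hℓ.one_lt).mp hvle
    have h11 : v.asIdeal.inertiaDeg ℤ = 2 := by omega
    rw [← h7, h11]
  have hqv : qv v = (ℓ : ℝ) ^ 2 := by rw [qv, hN]; push_cast; rfl
  refine ⟨hqv, ?_⟩
  set w : Pl R.L := R.und Q8 (R.ab v) (R.ab_ne_bot v) with hw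
  have habove : Above v w := R.above_ab v
  -- residue field of `w`
  have hwle : Nat.card (𝓞 R.L ⧸ (R.ab v).under (𝓞 R.L)) ≤ ℓ ^ 2 := by
    have := R.card_le_of_sq (H := Q8) hP0 hQ hF
    rwa [hn] at this
  have hfin : Finite (𝓞 R.L ⧸ (R.ab v).under (𝓞 R.L)) :=
    Ideal.finiteQuotientOfFreeOfNeBot _ (R.under_ne_bot hP0)
  have hwge : ℓ ^ 2 ≤ Nat.card (𝓞 R.L ⧸ (R.ab v).under (𝓞 R.L)) := by
    rw [← hN, Ideal.absNorm_apply, Submodule.cardQuot_apply]
    let f : (𝓞 R.K ⧸ v.asIdeal) →+* (𝓞 R.L ⧸ (R.ab v).under (𝓞 R.L)) :=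
      Ideal.quotientMap _ (algebraMap (𝓞 R.K) (𝓞 R.L)) (fun x hx => (habove x).mp hx)
    refine Nat.card_le_card_of_injective f ?_
    have hmax : v.asIdeal.IsMaximal := v.isMaximal
    refine Ideal.quotientMap_injective' ?_
    intro x hx
    exact (habove x).mpr hx
  have hwN : Nat.card (𝓞 R.L ⧸ (R.ab v).under (𝓞 R.L)) = ℓ ^ 2 := le_antisymm hwle hwge
  have hFw : IsArithFrobAt (𝓞 R.L) (⟨g * g, hQ⟩ : Q8) (R.ab v) := by
    intro x
    have h1 := R.sq_frob hF x
    rw [hn, ← hwN] at h1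
    exact h1
  have hIQ : (R.ab v).inertia Q8 = ⊥ := by
    rw [eq_bot_iff]
    intro h hh
    have h2 : (h : G3) ∈ (R.ab v).inertia G3 := fun x => hh x
    rw [hI, Subgroup.mem_bot] at h2
    rw [Subgroup.mem_bot]
    exact Subtype.ext h2
  have hlam : R.lam w = trQ (g * g) := R.lam_eq w (R.ab v) rfl hIQ hFw
  refine ⟨w, habove, ?_, ?_, ?_⟩
  · rw [hqv, qv, Ideal.absNorm_apply, Submodule.cardQuot_apply]
    have : Nat.card (𝓞 R.L ⧸ w.asIdeal) = ℓ ^ 2 := hwN
    rw [this]; push_cast; rfl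
  · rw [hlam]; exact htr
  · intro A' σ' hA' hσ'
    obtain ⟨h, hh⟩ := R.frob_conj hℓ hA hA' hσ hσ' (by rw [hcen]; exact hI)
    rw [hlam, hg, hh]
    have e : h * R.ρ σ' * h⁻¹ * (h * R.ρ σ' * h⁻¹) = h * (R.ρ σ' * R.ρ σ') * h⁻¹ := by group
    rw [e, trQ_conj]

/-- the elements of determinant `-1` and order two -/
def X3 : Set G3 := {g | dt g = -1 ∧ g * g = 1}

theorem card_X3 : Nat.card X3 = 12 := by
  rw [card_setOf (fun a b c d => a * d - b * c = -1 ∧ a * a + b * c = 1 ∧ a * b + b * d = 0 ∧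
    c * a + d * c = 0 ∧ c * b + d * d = 1) X3 (fun g => by
      change dt g = -1 ∧ g * g = 1 ↔ _
      rw [G3.ext_iff', dt]
      simp only [mul00, mul01, mul10, mul11, one00, one01, one10, one11])]
  decide +kernel

theorem X3_conj (g h : G3) (hg : g ∈ X3) : h * g * h⁻¹ ∈ X3 := by
  refine ⟨?_, ?_⟩
  · rw [dt_mul, dt_mul, hg.1, dt_inv]
    rcases dt_eq_or h with h1 | h1 <;> rw [h1] <;> decide
  · have e : h * g * h⁻¹ * (h * g * h⁻¹) = h * (g * g) * h⁻¹ := by group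
    rw [e, hg.2]
    group

theorem inertia_G3_eq_bot {B : Finset ℕ} (hB : BadFor R.N B) (P : HeightOneSpectrum (𝓞 R.N))
    (hP : below P ∉ B) : P.asIdeal.inertia G3 = ⊥ := by
  rw [eq_bot_iff]
  intro g hg
  rw [Subgroup.mem_bot]
  have h1 : R.galN.symm g ∈ P.asIdeal.inertia (R.N ≃ₐ[ℚ] R.N) := by
    intro x
    have h2 := hg x
    have h3 : R.galN.symm g • x = g • x := by
      apply RingOfIntegers.ext
      rfl
    rw [h3]
    exact h2
  have h2 := hB P hP _ h1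
  rw [← map_one R.galN, ← h2, MulEquiv.apply_symm_apply]

theorem inertia_ab_eq_bot {B : Finset ℕ} (hB : BadFor R.N B) (v : Pl R.K) (hv : below v ∉ B) :
    (R.ab v).inertia G3 = ⊥ := by
  have hbe : below (⟨R.ab v, R.isPrime_ab _, R.ab_ne_bot _⟩ :
      HeightOneSpectrum (𝓞 R.N)) = below v := by
    rw [← R.card_quot_int']
    exact (card_quot_under (⟨R.ab v, R.isPrime_ab _, R.ab_ne_bot _⟩ :
      HeightOneSpectrum (𝓞 R.N))).symm
  exact R.inertia_G3_eq_bot hB ⟨R.ab v, R.isPrime_ab _, R.ab_ne_bot _⟩ (by rw [hbe]; exact hv)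

/-- Outside a finite set of primes, the places of `K` above the primes `p ≡ 2 (3)`. -/
theorem exists_bad_inert : ∃ S : Finset ℕ, ∀ v : Pl R.K, below v ∉ S → below v % 3 = 2 →
    qv v = (below v : ℝ) ^ 2 ∧ ∃ w : Pl R.L, Above v w ∧ qv w = qv v ∧
      (R.lam w = 2 ∨ R.lam w = 0) := by
  obtain ⟨B, -, hB⟩ := exists_bad R.N ∅
  refine ⟨B, fun v hv h2 => ?_⟩
  obtain ⟨h1, w, h3, h4, h5, -⟩ := R.exists_above_inert v h2 (R.inertia_ab_eq_bot hB v hv)
  exact ⟨h1, w, h3, h4, h5⟩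

/-- **`hdens` of `asai_unbounded`.** -/
theorem asai_dens {P : Type*} (ι : P → ℕ) (hι : Function.Injective ι)
    (hpr : ∀ v, (ι v).Prime) (hfin : {p : ℕ | p.Prime ∧ p ∉ Set.range ι}.Finite)
    (T : Finset (Pl R.K)) (lam : Pl R.K → ℝ)
    (hlam : ∀ v ∉ T, ∀ w : Pl R.L, Above v w → qv w = qv v → lam v = R.lam w)
    (A : Set P) (hA1 : ∀ v ∉ A, ι v % 3 = 2) (hA2 : ∀ v, ι v % 3 = 2 → v ∉ A)
    (l : P → ℝ) (hl : ∀ v ∉ A, ∃ u : Pl R.K, ((ι v : ℕ) : 𝓞 R.K) ∈ u.asIdeal ∧ l v = lam u)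
    {Cb : ℝ} (hC : ∀ v ∉ A, |l v| ≤ Cb) :
    Tendsto (fun s : ℝ => ∑' v : P, Aᶜ.indicator (fun v => l v * (ι v : ℝ) ^ (-s)) v)
      (𝓝[>] 1) atTop := by
  classical
  obtain ⟨B, hSB, hB⟩ := exists_bad R.N (T.image below ∪ hfin.toFinset ∪ {3})
  have hTB : ∀ v ∈ T, below v ∈ B := fun v hv => hSB (by
    rw [Finset.mem_union, Finset.mem_union]
    exact Or.inl (Or.inl (Finset.mem_image_of_mem _ hv)))
  have hrB : ∀ p : ℕ, p.Prime → p ∉ B → p ∈ Set.range ι := by
    intro p hp hpB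
    by_contra h
    apply hpB
    apply hSB
    rw [Finset.mem_union, Finset.mem_union]
    exact Or.inl (Or.inr (by rw [Set.Finite.mem_toFinset]; exact ⟨hp, h⟩))
  have h3B : 3 ∈ B := hSB (by simp)
  -- the primes of `plc` are inert
  have hinert : ∀ p ∈ R.plc B X3, p % 3 = 2 := by
    rintro p ⟨hp, hpB, A', σ', hA', hσ', hX⟩
    have hp3 : p ≠ 3 := by rintro rfl; exact hpB h3B
    have h1 := R.dt_frob_eq hp hp3 hA' hσ'
    rw [hX.1] at h1
    have h4 : ((p : ℕ) : ZMod 3) = ((p % 3 : ℕ) : ZMod 3) := by rw [ZMod.natCast_mod]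
    rw [h4] at h1
    have h5 : p % 3 < 3 := Nat.mod_lt _ (by norm_num)
    interval_cases h6 : p % 3
    · exact absurd h1 (by decide)
    · exact absurd h1 (by decide)
    · rfl
  -- the pointwise bound
  have hpt : ∀ (s : ℝ), 1 < s → ∀ v : P,
      2 * (R.plc B X3).indicator (fun ℓ : ℕ => (ℓ : ℝ) ^ (-s)) (ι v) -
        (if ι v ∈ B then |Cb| else 0) ≤ Aᶜ.indicator (fun v => l v * (ι v : ℝ) ^ (-s)) v := by
    intro s hs v
    have hp1 : (1 : ℝ) ≤ (ι v : ℝ) := by exact_mod_cast (hpr v).one_le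
    have hx0 : 0 ≤ (ι v : ℝ) ^ (-s) := by positivity
    have hx1 : (ι v : ℝ) ^ (-s) ≤ 1 := Real.rpow_le_one_of_one_le_of_nonpos hp1 (by linarith)
    by_cases hv : v ∈ A
    · have hnp : ι v ∉ R.plc B X3 := fun h => hA2 v (hinert _ h) hv
      rw [Set.indicator_of_notMem hnp, Set.indicator_of_notMem (s := Aᶜ) (fun h => h hv)]
      split_ifs
      · have := abs_nonneg Cb
        linarith
      · norm_num
    · rw [Set.indicator_of_mem (s := Aᶜ) hv]
      by_cases hvB : ι v ∈ B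
      · have hnp : ι v ∉ R.plc B X3 := fun h => h.2.1 hvB
        rw [Set.indicator_of_notMem hnp, if_pos hvB]
        have h1 := hC v hv
        have h2 : |l v * (ι v : ℝ) ^ (-s)| ≤ |Cb| := by
          rw [abs_mul, abs_of_nonneg hx0]
          calc |l v| * (ι v : ℝ) ^ (-s) ≤ |l v| * 1 := by gcongr
            _ ≤ |Cb| := by rw [mul_one]; exact h1.trans (le_abs_self _)
        have := neg_abs_le (l v * (ι v : ℝ) ^ (-s))
        linarith
      · rw [if_neg hvB, sub_zero]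
        obtain ⟨u, hu, hlu⟩ := hl v hv
        have hbu : below u = ι v := (below_eq_iff u (hpr v)).mpr hu
        have huT : u ∉ T := fun h => hvB (by rw [← hbu]; exact hTB u h)
        have h2 : below u % 3 = 2 := by rw [hbu]; exact hA1 v hv
        obtain ⟨-, w, hw1, hw2, hw3, hw4⟩ := R.exists_above_inert u h2
          (R.inertia_ab_eq_bot hB u (by rw [hbu]; exact hvB))
        rw [hbu] at hw4
        have hlw : l v = R.lam w := by rw [hlu]; exact hlam u huT w hw1 hw2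
        by_cases hplc : ι v ∈ R.plc B X3
        · rw [Set.indicator_of_mem hplc]
          obtain ⟨-, -, A', σ', hA', hσ', hX⟩ := hplc
          have h3 := hw4 A' σ' hA' hσ'
          rw [hX.2] at h3
          have h4 : trQ (1 : G3) = 2 := by rw [trQ, if_pos rfl]
          rw [hlw, h3, h4]
          norm_num
        · rw [Set.indicator_of_notMem hplc, mul_zero, hlw]
          rcases hw3 with h | h <;> rw [h] <;> norm_num
          exact hx0
  -- summation
  have hBfin : {v : P | ι v ∈ B}.Finite := B.finite_toSet.preimage hι.injOn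
  have hsumB : Summable fun v : P => (if ι v ∈ B then |Cb| else 0) := by
    refine summable_of_hasFiniteSupport ?_
    refine hBfin.subset fun v hv => ?_
    by_contra h
    exact hv (if_neg h)
  set E : ℝ := ∑' v : P, (if ι v ∈ B then |Cb| else 0) with hE
  have hsnat : ∀ s : ℝ, 1 < s → Summable fun ℓ : ℕ => (ℓ : ℝ) ^ (-s) := fun s hs =>
    Real.summable_nat_rpow.mpr (by linarith)
  have h48 := R.tendsto_plc B (X := X3) (fun g h hg => X3_conj g h hg)
  rw [card_X3] at h48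
  have hev := h48.eventually_const_lt (u := 1 / 8) (by norm_num)
  have hmain : ∀ᶠ s : ℝ in 𝓝[>] 1, 1 / 4 * Real.log (1 / (s - 1)) - E ≤
      ∑' v : P, Aᶜ.indicator (fun v => l v * (ι v : ℝ) ^ (-s)) v := by
    filter_upwards [hev, eventually_log_pos, self_mem_nhdsWithin] with s hs hlog hs1
    have hs1' : 1 < s := hs1
    rw [lt_div_iff₀ hlog] at hs
    set g : ℕ → ℝ := (R.plc B X3).indicator (fun ℓ : ℕ => (ℓ : ℝ) ^ (-s)) with hg
    have hgs : Summable g := (hsnat s hs1').indicator _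
    have hι2 : ∑' v : P, g (ι v) = ∑' ℓ, g ℓ := by
      refine hι.tsum_eq ?_
      intro p hp
      rw [Function.mem_support, hg] at hp
      have hmem : p ∈ R.plc B X3 := by
        by_contra h
        exact hp (Set.indicator_of_notMem h _)
      exact hrB p hmem.1 hmem.2.1
    have hgι : Summable fun v : P => g (ι v) := hgs.comp_injective hι
    have hR : Summable fun v : P => Aᶜ.indicator (fun v => l v * (ι v : ℝ) ^ (-s)) v := by
      refine Summable.of_norm_bounded (g := fun v : P => |Cb| * (ι v : ℝ) ^ (-s))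
        (((hsnat s hs1').comp_injective hι).mul_left _) fun v => ?_
      by_cases hv : v ∈ A
      · rw [Set.indicator_of_notMem (s := Aᶜ) (fun h => h hv), norm_zero]
        positivity
      · rw [Set.indicator_of_mem (s := Aᶜ) hv, Real.norm_eq_abs, abs_mul,
          abs_of_nonneg (by positivity : 0 ≤ (ι v : ℝ) ^ (-s))]
        have := (hC v hv).trans (le_abs_self Cb)
        gcongr
    have h5 := Summable.tsum_le_tsum (hpt s hs1') ((hgι.mul_left 2).sub hsumB) hR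
    rw [Summable.tsum_sub (hgι.mul_left 2) hsumB, tsum_mul_left, hι2] at h5
    refine le_trans ?_ h5
    linarith
  refine tendsto_atTop_mono' _ hmain ?_
  exact tendsto_atTop_add_const_right _ (-E)
    ((Fermat.Agent.FrobDensity.tendsto_log_atTop).const_mul_atTop (by norm_num : (0 : ℝ) < 1 / 4))

end Octa

end Fermat.Agent.LT.K
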