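import Fermat.Agent.LT.K.GL23
import Fermat.Agent.QbarInst
import Fermat.Agent.FrobPlaceLift

/-!
# LT piece K: the number fields attached to `ρ : Γℚ → GL₂(𝔽₃)`

For a subgroup `H` of `GL₂(𝔽₃)` let `R.fld H` be the fixed field of `ρ⁻¹(H)`.
`R.K = R.fld SLs = ℚ(ζ₃)`, `R.L = R.fld Q8` (cyclic cubic over `R.K`), `R.M = R.fld C4`
(quadratic over `R.L`), `R.B = R.fld Z2` (biquadratic over `R.L`),
`R.N = R.fld ⊥` (Galois group `GL₂(𝔽₃)` over `ℚ`, quaternion over `R.L`).
-/

set_option autoImplicit false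

open Matrix NumberField

namespace Fermat.Agent.LT.K

local notation "Γℚ" => (AlgebraicClosure ℚ ≃ₐ[ℚ] AlgebraicClosure ℚ)
local notation "ℚbar" => AlgebraicClosure ℚ

/-- a representation `ρ : Γℚ → GL₂(𝔽₃)` with the hypotheses `IsOcta` -/
structure Octa where
  /-- the representation -/
  ρ : Γℚ →* G3
  isOcta : IsOcta ρ

namespace Octa

variable (R : Octa) (H H' H'' : Subgroup G3)

theorem isOpen_comap : IsOpen ((H.comap R.ρ : Subgroup Γℚ) : Set Γℚ) :=
  (isOpen_discrete (H : Set G3)).preimage R.isOcta.cont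

/-- The fixed field of `ρ⁻¹(H)`. -/
noncomputable def fld : IntermediateField ℚ ℚbar := IntermediateField.fixedField (H.comap R.ρ)

theorem fixingSubgroup_fld : (R.fld H).fixingSubgroup = H.comap R.ρ :=
  InfiniteGalois.fixingSubgroup_fixedField
    ⟨H.comap R.ρ, Subgroup.isClosed_of_isOpen _ (R.isOpen_comap H)⟩

instance finiteDimensional_fld : FiniteDimensional ℚ (R.fld H) := by
  rw [← InfiniteGalois.isOpen_iff_finite, R.fixingSubgroup_fld]
  exact R.isOpen_comap H

instance numberField_fld : NumberField (R.fld H) where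

variable {H H' H''}

theorem fixes_iff {σ : Γℚ} : (∀ x ∈ R.fld H, σ x = x) ↔ R.ρ σ ∈ H := by
  rw [← Subgroup.mem_comap, ← R.fixingSubgroup_fld, IntermediateField.mem_fixingSubgroup_iff]

theorem apply_eq {σ : Γℚ} (h : R.ρ σ ∈ H) {x : ℚbar} (hx : x ∈ R.fld H) : σ x = x :=
  (R.fixes_iff.mpr h) x hx

theorem mem_fld_iff {x : ℚbar} : x ∈ R.fld H ↔ ∀ σ : Γℚ, R.ρ σ ∈ H → σ x = x := by
  constructor
  · intro hx σ hσ
    exact R.apply_eq hσ hx
  · intro h
    rw [fld, IntermediateField.mem_fixedField_iff]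
    exact h

variable (H) in
theorem finrank_fld : Module.finrank ℚ (R.fld H) = H.index := by
  rw [IntermediateField.finrank_eq_fixingSubgroup_index, R.fixingSubgroup_fld,
    Subgroup.index_comap_of_surjective _ R.isOcta.surj]

theorem fld_le_fld_iff : R.fld H ≤ R.fld H' ↔ H' ≤ H := by
  rw [fld, fld, IntermediateField.le_iff_le]
  change H'.comap R.ρ ≤ (R.fld H).fixingSubgroup ↔ _
  rw [R.fixingSubgroup_fld, Subgroup.comap_le_comap_of_surjective R.isOcta.surj]

instance isGalois_fld [H.Normal] : IsGalois ℚ (R.fld H) := by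
  have h : @IsGalois ℚ _ (R.fld H) _ (IntermediateField.algebra' _) := by
    rw [← InfiniteGalois.normal_iff_isGalois, R.fixingSubgroup_fld]
    infer_instance
  convert! h

/-! ### relative extensions -/

noncomputable instance algebra [h : Fact (H' ≤ H)] : Algebra (R.fld H) (R.fld H') :=
  (IntermediateField.inclusion (R.fld_le_fld_iff.mpr h.out)).toRingHom.toAlgebra

theorem algebraMap_eq [h : Fact (H' ≤ H)] (x : R.fld H) :
    ((algebraMap (R.fld H) (R.fld H') x : R.fld H') : ℚbar) = (x : ℚbar) := rfl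

instance [Fact (H' ≤ H)] : IsScalarTower ℚ (R.fld H) (R.fld H') :=
  IsScalarTower.of_algebraMap_eq fun _ => rfl

instance [Fact (H' ≤ H)] : IsScalarTower (R.fld H) (R.fld H') ℚbar :=
  IsScalarTower.of_algebraMap_eq fun _ => rfl

instance [Fact (H' ≤ H)] [Fact (H'' ≤ H')] [Fact (H'' ≤ H)] :
    IsScalarTower (R.fld H) (R.fld H') (R.fld H'') :=
  IsScalarTower.of_algebraMap_eq fun _ => rfl

theorem finrank_rel [h : Fact (H' ≤ H)] :
    Module.finrank (R.fld H) (R.fld H') = H'.relIndex H := by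
  have h1 := Module.finrank_mul_finrank ℚ (R.fld H) (R.fld H')
  rw [R.finrank_fld, R.finrank_fld] at h1
  have h2 := Subgroup.relIndex_mul_index h.out
  have h3 : H.index ≠ 0 := by
    rw [← R.finrank_fld H]
    exact Module.finrank_pos.ne'
  rw [mul_comm] at h2
  exact Nat.eq_of_mul_eq_mul_left (Nat.pos_of_ne_zero h3) (h1.trans h2.symm)

instance fact_bot : Fact ((⊥ : Subgroup G3) ≤ H) := ⟨bot_le⟩

/-! ### the Galois group of `fld ⊥` -/

/-- the field cut out by `ρ` -/
noncomputable abbrev N : IntermediateField ℚ ℚbar := R.fld ⊥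

/-- restriction to `N` -/
noncomputable abbrev resN : Γℚ →* (R.N ≃ₐ[ℚ] R.N) :=
  AlgEquiv.restrictNormalHom (F := ℚ) (K₁ := ℚbar) R.N

theorem resN_apply (σ : Γℚ) (x : R.N) : ((R.resN σ x : R.N) : ℚbar) = σ (x : ℚbar) :=
  AlgEquiv.restrictNormal_commutes σ R.N x

theorem ker_resN : R.resN.ker = R.ρ.ker := by
  ext σ
  rw [MonoidHom.mem_ker, MonoidHom.mem_ker, ← Subgroup.mem_bot, ← Subgroup.mem_bot,
    ← R.fixes_iff, Subgroup.mem_bot]
  constructor
  · intro h x hx
    have h1 := R.resN_apply σ ⟨x, hx⟩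
    rw [h] at h1
    exact h1.symm
  · intro h
    ext x
    have h1 := R.resN_apply σ x
    rw [h1]
    exact h x x.2

/-- The Galois group of `N / ℚ` is `GL₂(𝔽₃)`. -/
noncomputable def galN : (R.N ≃ₐ[ℚ] R.N) ≃* G3 :=
  (QuotientGroup.quotientKerEquivOfSurjective R.resN
    (AlgEquiv.restrictNormalHom_surjective ℚbar)).symm.trans
  ((QuotientGroup.quotientMulEquivOfEq R.ker_resN).trans
  (QuotientGroup.quotientKerEquivOfSurjective R.ρ R.isOcta.surj))

theorem galN_resN (σ : Γℚ) : R.galN (R.resN σ) = R.ρ σ := by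
  have h1 : (QuotientGroup.quotientKerEquivOfSurjective R.resN
    (AlgEquiv.restrictNormalHom_surjective ℚbar)).symm (R.resN σ) = QuotientGroup.mk σ := by
    rw [MulEquiv.symm_apply_eq]
    rfl
  rw [galN, MulEquiv.trans_apply, h1]
  rfl

theorem resN_surjective : Function.Surjective R.resN := AlgEquiv.restrictNormalHom_surjective ℚbar

/-- `GL₂(𝔽₃)` acts on `N`, through `galN`. -/
noncomputable instance actN : MulSemiringAction G3 R.N :=
  MulSemiringAction.compHom R.N R.galN.symm.toMonoidHom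

theorem smul_def (g : G3) (x : R.N) : g • x = R.galN.symm g x := rfl

theorem coe_ρ_smul (σ : Γℚ) (x : R.N) : ((R.ρ σ • x : R.N) : ℚbar) = σ (x : ℚbar) := by
  rw [smul_def, ← R.galN_resN, MulEquiv.symm_apply_apply, resN_apply]

instance isGaloisGroup_rat : IsGaloisGroup G3 ℚ R.N where
  faithful := ⟨fun {g h} e => by
    apply R.galN.symm.injective
    ext x
    exact congrArg Subtype.val (e x)⟩
  commutes := ⟨fun g a x => map_rat_smul (R.galN.symm g) a x⟩
  isInvariant := ⟨fun x hx => by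
    have h : IsGaloisGroup (R.N ≃ₐ[ℚ] R.N) ℚ R.N := inferInstance
    obtain ⟨a, ha⟩ := h.isInvariant.isInvariant x (fun g => by
      have := hx (R.galN g)
      rwa [smul_def, MulEquiv.symm_apply_apply] at this)
    exact ⟨a, ha⟩⟩

variable (H) in
instance isGaloisGroup_fld : IsGaloisGroup H (R.fld H) R.N where
  faithful := ⟨fun {g h} e => Subtype.ext (R.isGaloisGroup_rat.faithful.eq_of_smul_eq_smul e)⟩
  commutes := ⟨fun g a x => by
    obtain ⟨σ, hσ⟩ := R.isOcta.surj g
    change (g : G3) • (a • x) = a • ((g : G3) • x)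
    rw [Algebra.smul_def, Algebra.smul_def, smul_mul']
    congr 1
    apply Subtype.ext
    rw [← hσ, R.coe_ρ_smul]
    exact R.apply_eq (by rw [hσ]; exact g.2) a.2⟩
  isInvariant := ⟨fun x hx => by
    have h1 : (x : ℚbar) ∈ R.fld H := by
      rw [R.mem_fld_iff]
      intro σ hσ
      have h2 := hx ⟨R.ρ σ, hσ⟩
      have h3 := congrArg (fun y : R.N => (y : ℚbar)) h2
      rw [← R.coe_ρ_smul]
      exact h3
    exact ⟨⟨x, h1⟩, rfl⟩⟩

theorem card_eq_finrank_bot : Module.finrank (R.fld H) R.N = Nat.card H :=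
  (IsGaloisGroup.card_eq_finrank H (R.fld H) R.N).symm

end Octa

end Fermat.Agent.LT.K
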