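import Fermat.Agent.LT.K.Defs

/-!
# LT piece K: the group `GL₂(𝔽₃)` and some of its subgroups

`SLs` (order 24), `Q8` (order 8, normal), `C4` (order 4), `Z2 = {±1}`.
-/

set_option autoImplicit false

open Matrix

namespace Fermat.Agent.LT.K

/-- `GL₂(𝔽₃)` -/
abbrev G3 : Type := GL (Fin 2) (ZMod 3)

/-- determinant, in `ZMod 3` -/
def dt (g : G3) : ZMod 3 := g 0 0 * g 1 1 - g 0 1 * g 1 0

/-- trace -/
def tr (g : G3) : ZMod 3 := g 0 0 + g 1 1

theorem dt_eq (g : G3) : dt g = (g : Matrix (Fin 2) (Fin 2) (ZMod 3)).det :=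
  (Matrix.det_fin_two _).symm

theorem tr_eq (g : G3) : tr g = (g : Matrix (Fin 2) (Fin 2) (ZMod 3)).trace :=
  (Matrix.trace_fin_two _).symm

/-- matrix entries determine an element -/
theorem G3.ext' {g h : G3} (h00 : g 0 0 = h 0 0) (h01 : g 0 1 = h 0 1) (h10 : g 1 0 = h 1 0)
    (h11 : g 1 1 = h 1 1) : g = h := by
  apply Units.ext
  ext i j
  fin_cases i <;> fin_cases j
  · exact h00
  · exact h01
  · exact h10
  · exact h11

theorem G3.ext_iff' {g h : G3} : g = h ↔ (g 0 0 = h 0 0 ∧ g 0 1 = h 0 1 ∧ g 1 0 = h 1 0 ∧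
    g 1 1 = h 1 1) :=
  ⟨fun e => by rw [e]; simp, fun e => G3.ext' e.1 e.2.1 e.2.2.1 e.2.2.2⟩

@[simp] theorem mul00 (g h : G3) : (g * h : G3) 0 0 = g 0 0 * h 0 0 + g 0 1 * h 1 0 := by
  rw [GeneralLinearGroup.coe_mul, Matrix.mul_apply, Fin.sum_univ_two]

@[simp] theorem mul01 (g h : G3) : (g * h : G3) 0 1 = g 0 0 * h 0 1 + g 0 1 * h 1 1 := by
  rw [GeneralLinearGroup.coe_mul, Matrix.mul_apply, Fin.sum_univ_two]

@[simp] theorem mul10 (g h : G3) : (g * h : G3) 1 0 = g 1 0 * h 0 0 + g 1 1 * h 1 0 := by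
  rw [GeneralLinearGroup.coe_mul, Matrix.mul_apply, Fin.sum_univ_two]

@[simp] theorem mul11 (g h : G3) : (g * h : G3) 1 1 = g 1 0 * h 0 1 + g 1 1 * h 1 1 := by
  rw [GeneralLinearGroup.coe_mul, Matrix.mul_apply, Fin.sum_univ_two]

@[simp] theorem one00 : (1 : G3) 0 0 = 1 := rfl
@[simp] theorem one01 : (1 : G3) 0 1 = 0 := rfl
@[simp] theorem one10 : (1 : G3) 1 0 = 0 := rfl
@[simp] theorem one11 : (1 : G3) 1 1 = 1 := rfl
@[simp] theorem negone00 : (-1 : G3) 0 0 = -1 := rfl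
@[simp] theorem negone01 : (-1 : G3) 0 1 = 0 := rfl
@[simp] theorem negone10 : (-1 : G3) 1 0 = 0 := rfl
@[simp] theorem negone11 : (-1 : G3) 1 1 = -1 := rfl

theorem dt_one : dt 1 = 1 := by simp [dt]

theorem dt_mul (g h : G3) : dt (g * h) = dt g * dt h := by
  simp only [dt, mul00, mul01, mul10, mul11]
  ring

theorem dt_mul_self (g : G3) : dt g * dt g = 1 := by
  have h1 : dt g * dt g⁻¹ = 1 := by rw [← dt_mul, mul_inv_cancel, dt_one]
  have : ∀ x y : ZMod 3, x * y = 1 → x * x = 1 := by decide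
  exact this _ _ h1

theorem dt_eq_or (g : G3) : dt g = 1 ∨ dt g = -1 := by
  have : ∀ x : ZMod 3, x * x = 1 → x = 1 ∨ x = -1 := by decide
  exact this _ (dt_mul_self g)

theorem dt_inv (g : G3) : dt g⁻¹ = dt g := by
  have h1 : dt g * dt g⁻¹ = 1 := by rw [← dt_mul, mul_inv_cancel, dt_one]
  have : ∀ x y : ZMod 3, x * y = 1 → y = x := by decide
  exact this _ _ h1

theorem det_eq_one_iff (g : G3) : GeneralLinearGroup.det g = 1 ↔ dt g = 1 := by
  rw [dt_eq, Units.ext_iff]; rfl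

/-- the element with given entries (the determinant is `±1`, hence its own inverse) -/
def mk4 (a b c d : ZMod 3) (h : (a * d - b * c) * (a * d - b * c) = 1) : G3 where
  val := !![a, b; c, d]
  inv := !![(a * d - b * c) * d, -((a * d - b * c) * b); -((a * d - b * c) * c), (a * d - b * c) * a]
  val_inv := by
    rw [Matrix.mul_fin_two, Matrix.one_fin_two]
    congr 1
    ext i j
    fin_cases i <;> fin_cases j <;> simp <;> first | linear_combination h | ring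
  inv_val := by
    rw [Matrix.mul_fin_two, Matrix.one_fin_two]
    congr 1
    ext i j
    fin_cases i <;> fin_cases j <;> simp <;> first | linear_combination h | ring

@[simp] theorem mk4_00 (a b c d : ZMod 3) (h) : (mk4 a b c d h) 0 0 = a := rfl
@[simp] theorem mk4_01 (a b c d : ZMod 3) (h) : (mk4 a b c d h) 0 1 = b := rfl
@[simp] theorem mk4_10 (a b c d : ZMod 3) (h) : (mk4 a b c d h) 1 0 = c := rfl
@[simp] theorem mk4_11 (a b c d : ZMod 3) (h) : (mk4 a b c d h) 1 1 = d := rfl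

/-- `GL₂(𝔽₃)` as a set of quadruples -/
def quad : G3 ≃ {q : ZMod 3 × ZMod 3 × ZMod 3 × ZMod 3 //
    (q.1 * q.2.2.2 - q.2.1 * q.2.2.1) * (q.1 * q.2.2.2 - q.2.1 * q.2.2.1) = 1} where
  toFun g := ⟨(g 0 0, g 0 1, g 1 0, g 1 1), dt_mul_self g⟩
  invFun q := mk4 q.1.1 q.1.2.1 q.1.2.2.1 q.1.2.2.2 q.2
  left_inv g := G3.ext' rfl rfl rfl rfl
  right_inv q := rfl

theorem card_G3 : Nat.card G3 = 48 := by
  rw [Nat.card_congr quad, Nat.card_eq_fintype_card]
  decide +kernel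

instance : Finite G3 := Nat.finite_of_card_ne_zero (by rw [card_G3]; norm_num)

/-- counting elements of `GL₂(𝔽₃)` given by a condition on the entries -/
theorem card_setOf (P : ZMod 3 → ZMod 3 → ZMod 3 → ZMod 3 → Prop)
    [∀ a b c d, Decidable (P a b c d)]
    (S : Set G3) (hS : ∀ g, g ∈ S ↔ P (g 0 0) (g 0 1) (g 1 0) (g 1 1)) :
    Nat.card S = Fintype.card {q : ZMod 3 × ZMod 3 × ZMod 3 × ZMod 3 //
    (q.1 * q.2.2.2 - q.2.1 * q.2.2.1) * (q.1 * q.2.2.2 - q.2.1 * q.2.2.1) = 1 ∧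
      P q.1 q.2.1 q.2.2.1 q.2.2.2} := by
  rw [← Nat.card_eq_fintype_card]
  refine Nat.card_congr ⟨fun g => ⟨(g.1 0 0, g.1 0 1, g.1 1 0, g.1 1 1), dt_mul_self g.1,
    (hS _).mp g.2⟩, fun q => ⟨mk4 q.1.1 q.1.2.1 q.1.2.2.1 q.1.2.2.2 q.2.1, (hS _).mpr q.2.2⟩,
    fun _ => Subtype.ext (G3.ext' rfl rfl rfl rfl), fun _ => rfl⟩

/-- `SL₂(𝔽₃)` as a subgroup of `GL₂(𝔽₃)` -/
def SLs : Subgroup G3 where
  carrier := {g | dt g = 1}
  mul_mem' := by
    intro a b ha hb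
    rw [Set.mem_ofPred_eq] at *
    rw [dt_mul, ha, hb, one_mul]
  one_mem' := dt_one
  inv_mem' := by
    intro a ha
    rw [Set.mem_ofPred_eq] at *
    rw [dt_inv, ha]

theorem mem_SLs {g : G3} : g ∈ SLs ↔ dt g = 1 := Iff.rfl

theorem mem_SLs' {g : G3} : g ∈ SLs ↔ GeneralLinearGroup.det g = 1 := (det_eq_one_iff g).symm

/-- the quadruple condition for `Q8` -/
def isQ (a b c d : ZMod 3) : Prop := a * d - b * c = 1 ∧ (a + d = 0 ∨ (b = 0 ∧ c = 0))

instance (a b c d : ZMod 3) : Decidable (isQ a b c d) := by unfold isQ; infer_instance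

theorem isQ_mul : ∀ a b c d a' b' c' d' : ZMod 3, isQ a b c d → isQ a' b' c' d' →
    isQ (a * a' + b * c') (a * b' + b * d') (c * a' + d * c') (c * b' + d * d') := by
  decide +kernel

theorem inv_eq_of_dt {g : G3} (h : dt g = 1) :
    g⁻¹ = mk4 (g 1 1) (-g 0 1) (-g 1 0) (g 0 0) (by
      have := dt_mul_self g
      rw [dt] at this
      linear_combination this) := by
  rw [inv_eq_iff_mul_eq_one]
  rw [dt] at h
  refine G3.ext' ?_ ?_ ?_ ?_ <;> simp <;> first | linear_combination h | ring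

/-- The quaternion subgroup. -/
def Q8 : Subgroup G3 where
  carrier := {g | isQ (g 0 0) (g 0 1) (g 1 0) (g 1 1)}
  mul_mem' := by
    intro a b ha hb
    rw [Set.mem_ofPred_eq] at *
    rw [mul00, mul01, mul10, mul11]
    exact isQ_mul _ _ _ _ _ _ _ _ ha hb
  one_mem' := by decide
  inv_mem' := by
    intro a ha
    rw [Set.mem_ofPred_eq] at *
    have h1 : dt a = 1 := ha.1
    rw [inv_eq_of_dt h1]
    have : ∀ a b c d : ZMod 3, isQ a b c d → isQ d (-b) (-c) a := by decide +kernel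
    exact this _ _ _ _ ha

theorem mem_Q8 {g : G3} : g ∈ Q8 ↔ isQ (g 0 0) (g 0 1) (g 1 0) (g 1 1) := Iff.rfl

theorem pow_four_eq_one_iff {g : G3} (h : dt g = 1) :
    g ^ 4 = 1 ↔ (g 0 0 + g 1 1 = 0 ∨ (g 0 1 = 0 ∧ g 1 0 = 0)) := by
  have h4 : g ^ 4 = (g * g) * (g * g) := by rw [← sq, ← sq, ← pow_mul]
  rw [h4, G3.ext_iff']
  simp only [mul00, mul01, mul10, mul11, one00, one01, one10, one11]
  have : ∀ a b c d : ZMod 3, a * d - b * c = 1 →
    (((a * a + b * c) * (a * a + b * c) + (a * b + b * d) * (c * a + d * c) = 1 ∧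
      (a * a + b * c) * (a * b + b * d) + (a * b + b * d) * (c * b + d * d) = 0 ∧
      (c * a + d * c) * (a * a + b * c) + (c * b + d * d) * (c * a + d * c) = 0 ∧
      (c * a + d * c) * (a * b + b * d) + (c * b + d * d) * (c * b + d * d) = 1) ↔
      (a + d = 0 ∨ (b = 0 ∧ c = 0))) := by decide +kernel
  exact this _ _ _ _ h

theorem mem_Q8_iff {g : G3} : g ∈ Q8 ↔ GeneralLinearGroup.det g = 1 ∧ g ^ 4 = 1 := by
  rw [det_eq_one_iff, mem_Q8, isQ]
  constructor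
  · rintro ⟨h1, h2⟩
    exact ⟨h1, (pow_four_eq_one_iff h1).mpr h2⟩
  · rintro ⟨h1, h2⟩
    exact ⟨h1, (pow_four_eq_one_iff h1).mp h2⟩

instance : Q8.Normal := by
  refine ⟨fun g hg h => ?_⟩
  rw [mem_Q8_iff] at *
  refine ⟨?_, ?_⟩
  · rw [map_mul, map_mul, map_inv, hg.1, mul_one, mul_inv_cancel]
  · rw [conj_pow, hg.2, mul_one, mul_inv_cancel]

instance : SLs.Normal := by
  refine ⟨fun g hg h => ?_⟩
  rw [mem_SLs'] at *
  rw [map_mul, map_mul, map_inv, hg, mul_one, mul_inv_cancel]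

theorem card_SLs : Nat.card SLs = 24 := by
  rw [show Nat.card SLs = Nat.card (SLs : Set G3) from rfl,
    card_setOf (fun a b c d => a * d - b * c = 1) (SLs : Set G3) (fun g => Iff.rfl)]
  decide +kernel

theorem card_Q8 : Nat.card Q8 = 8 := by
  rw [show Nat.card Q8 = Nat.card (Q8 : Set G3) from rfl,
    card_setOf isQ (Q8 : Set G3) (fun g => Iff.rfl)]
  decide +kernel

/-- the cyclic subgroup of order four `{±1, ±i}`, `i = (0 -1; 1 0)` -/
def C4 : Subgroup G3 where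
  carrier := {g | g 0 0 = g 1 1 ∧ g 0 1 + g 1 0 = 0 ∧ dt g = 1}
  mul_mem' := by
    intro a b ha hb
    rw [Set.mem_ofPred_eq] at *
    rw [dt_mul, ha.2.2, hb.2.2, mul00, mul01, mul10, mul11]
    refine ⟨?_, ?_, one_mul _⟩
    · linear_combination (b 0 0) * ha.1 + (a 1 1) * hb.1 + (a 0 1) * hb.2.1 - (b 0 1) * ha.2.1
    · linear_combination (a 0 0) * hb.2.1 + (b 1 1) * ha.2.1 + (a 1 0) * hb.1 + (-b 1 0) * ha.1
  one_mem' := by decide
  inv_mem' := by
    intro a ha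
    rw [Set.mem_ofPred_eq] at *
    rw [dt_inv, inv_eq_of_dt ha.2.2]
    refine ⟨ha.1.symm, ?_, ha.2.2⟩
    change -a 0 1 + -a 1 0 = 0
    linear_combination -ha.2.1

theorem mem_C4 {g : G3} : g ∈ C4 ↔ g 0 0 = g 1 1 ∧ g 0 1 + g 1 0 = 0 ∧ dt g = 1 := Iff.rfl

theorem card_C4 : Nat.card C4 = 4 := by
  rw [show Nat.card C4 = Nat.card (C4 : Set G3) from rfl,
    card_setOf (fun a b c d => a = d ∧ b + c = 0 ∧ a * d - b * c = 1) (C4 : Set G3)
      (fun g => Iff.rfl)]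
  decide +kernel

/-- `{±1}` -/
def Z2 : Subgroup G3 where
  carrier := {g | g = 1 ∨ g = -1}
  mul_mem' := by
    rintro a b (rfl | rfl) (rfl | rfl) <;> simp
  one_mem' := Or.inl rfl
  inv_mem' := by
    rintro a (rfl | rfl) <;> simp

theorem mem_Z2 {g : G3} : g ∈ Z2 ↔ g = 1 ∨ g = -1 := Iff.rfl

theorem Q8_le_SLs : Q8 ≤ SLs := fun _ hg => hg.1

theorem C4_le_Q8 : C4 ≤ Q8 := by
  intro g hg
  rw [mem_C4] at hg
  rw [mem_Q8]
  have : ∀ a b c d : ZMod 3, (a = d ∧ b + c = 0 ∧ a * d - b * c = 1) → isQ a b c d := by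
    decide +kernel
  exact this _ _ _ _ hg

theorem Z2_le_C4 : Z2 ≤ C4 := by
  rintro g (rfl | rfl)
  · exact C4.one_mem
  · rw [mem_C4]; decide

instance : Z2.Normal := by
  refine ⟨?_⟩
  rintro g (rfl | rfl) h
  · left; simp
  · right; simp

theorem card_Z2 : Nat.card Z2 = 2 := by
  rw [show Nat.card Z2 = Nat.card (Z2 : Set G3) from rfl,
    card_setOf (fun a b c d => a = d ∧ b = 0 ∧ c = 0) (Z2 : Set G3) (fun g => by
      change g = 1 ∨ g = -1 ↔ _
      rw [G3.ext_iff', G3.ext_iff']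
      simp only [one00, one01, one10, one11, negone00, negone01, negone10, negone11]
      have : ∀ a b c d : ZMod 3, (a * d - b * c) * (a * d - b * c) = 1 →
        ((a = 1 ∧ b = 0 ∧ c = 0 ∧ d = 1 ∨ a = -1 ∧ b = 0 ∧ c = 0 ∧ d = -1) ↔
          (a = d ∧ b = 0 ∧ c = 0)) := by decide +kernel
      exact this _ _ _ _ (dt_mul_self g))]
  decide +kernel

end Fermat.Agent.LT.K
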