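import Mathlib
import Fermat.Agent.HeckeDualityC
import Fermat.Agent.FrobExists

/-!
# LT piece K: lifting Hecke eigensystems modulo a valuation subring of `ℂ`

(helper51, LT/K.)
-/

set_option autoImplicit false

noncomputable section

open UpperHalfPlane ModularForm ModularFormClass CongruenceSubgroup

namespace Fermat.Agent.LT.K

/-- For a finite free algebra `A` over a valuation ring `B` of an algebraically closed field and a
proper ideal `J` there is a `B`-algebra homomorphism `A → B` which maps `J` into the maximal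
ideal. -/
theorem exists_algHom_of_ideal {K : Type*} [Field K] [IsAlgClosed K] (B : ValuationSubring K)
    {A : Type*} [CommRing A] [Algebra B A] [Module.Finite B A] [Module.IsTorsionFree B A]
    (J : Ideal A) (hJ : J ≠ ⊤) :
    ∃ φ : A →ₐ[B] B, ∀ x ∈ J, φ x ∈ IsLocalRing.maximalIdeal B := by
  obtain ⟨𝔫, h𝔫, hJ𝔫⟩ := Ideal.exists_le_maximal J hJ
  obtain ⟨P, hP, hPn⟩ := Ideal.exists_minimalPrimes_le (bot_le : (⊥ : Ideal A) ≤ 𝔫)
  have hPp : P.IsPrime := hP.1.1
  have hnot : ∀ b : B, b ≠ 0 → algebraMap B A b ∉ P := by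
    intro b hb hmem
    have hdisj := Ideal.disjoint_nonZeroDivisors_of_mem_minimalPrimes (p := P) hP
    refine Set.disjoint_left.mp hdisj hmem ?_
    refine mem_nonZeroDivisors_iff_right.mpr fun x hx => ?_
    have h1 : b • x = 0 := by rw [Algebra.smul_def, mul_comm]; exact hx
    exact (smul_eq_zero_iff_right hb).mp h1
  have hdom : IsDomain (A ⧸ P) := Ideal.Quotient.isDomain P
  have hint : Algebra.IsIntegral B (A ⧸ P) := Algebra.IsIntegral.of_finite B _
  have hbij : Function.Bijective (algebraMap B (A ⧸ P)) := by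
    constructor
    · refine (injective_iff_map_eq_zero _).mpr fun b hb => ?_
      by_contra hne
      refine hnot b hne ?_
      rw [← Ideal.Quotient.eq_zero_iff_mem]
      exact hb
    · intro x
      obtain ⟨f, hf, hfx⟩ := hint.isIntegral x
      -- `f` splits over `K` and its roots are in `B`
      have hsplit : (f.map (algebraMap B K)).Splits := IsAlgClosed.splits _
      have hmon : (f.map (algebraMap B K)).Monic := hf.map _
      have hroots : ∀ α ∈ (f.map (algebraMap B K)).roots, α ∈ B := by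
        intro α hα
        have h1 : IsIntegral B α := by
          refine ⟨f, hf, ?_⟩
          have := (Polynomial.mem_roots'.mp hα).2
          rwa [Polynomial.IsRoot, Polynomial.eval_map] at this
        have h2 := IsIntegrallyClosed.isIntegral_iff.mp h1
        obtain ⟨y, hy⟩ := h2
        rw [← hy]
        exact y.2
      let s : Multiset B := (f.map (algebraMap B K)).roots.attach.map
        fun α => ⟨α.1, hroots α.1 α.2⟩
      have hs : s.map (fun b : B => (b : K)) = (f.map (algebraMap B K)).roots := by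
        rw [Multiset.map_map]
        exact Multiset.attach_map_val _
      have hfs : f = (s.map fun b : B => Polynomial.X - Polynomial.C b).prod := by
        apply Polynomial.map_injective (algebraMap B K) (FaithfulSMul.algebraMap_injective B K)
        rw [Polynomial.map_multiset_prod, Multiset.map_map]
        have h1 := hsplit.eq_prod_roots_of_monic hmon
        rw [h1]
        conv_lhs => rw [← hs, Multiset.map_map]
        congr 1
        refine Multiset.map_congr rfl fun b _ => ?_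
        simp only [Function.comp_apply, Polynomial.map_sub, Polynomial.map_X, Polynomial.map_C]
        rfl
      have h2 : (s.map fun b : B => x - algebraMap B (A ⧸ P) b).prod = 0 := by
        rw [hfs, Polynomial.eval₂_multiset_prod, Multiset.map_map] at hfx
        rw [← hfx]
        congr 1
        refine Multiset.map_congr rfl fun b _ => ?_
        simp
      rw [Multiset.prod_eq_zero_iff] at h2
      obtain ⟨b, -, hb⟩ := Multiset.mem_map.mp h2
      exact ⟨b, (sub_eq_zero.mp hb).symm⟩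
  let e : B ≃ₐ[B] (A ⧸ P) := AlgEquiv.ofBijective (Algebra.ofId B (A ⧸ P)) hbij
  let φ : A →ₐ[B] B := (e.symm : (A ⧸ P) →ₐ[B] B).comp (Ideal.Quotient.mkₐ B P)
  refine ⟨φ, fun x hx => ?_⟩
  by_contra hu
  rw [IsLocalRing.mem_maximalIdeal, mem_nonunits_iff, not_not] at hu
  have h1 : x - algebraMap B A (φ x) ∈ P := by
    rw [← Ideal.Quotient.eq_zero_iff_mem, map_sub, sub_eq_zero]
    have h2 : e (φ x) = Ideal.Quotient.mk P x := e.apply_symm_apply _
    rw [← h2]
    rfl
  have h3 : algebraMap B A (φ x) ∈ 𝔫 := by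
    have := 𝔫.sub_mem (hJ𝔫 hx) (hPn h1)
    rwa [sub_sub_cancel] at this
  exact h𝔫.ne_top (Ideal.eq_top_of_isUnit_mem _ h3 (hu.map _))

open Fermat.Agent.HeckeDuality
open scoped TensorProduct

variable {N : ℕ} [NeZero N]

theorem val_mul_lt (B : ValuationSubring ℂ) {a x : ℂ} (ha : B.valuation a ≤ 1)
    (hx : B.valuation x < 1) : B.valuation (a * x) < 1 := by
  rw [map_mul]
  exact lt_of_le_of_lt (mul_le_of_le_one_left' ha) hx

/-- Hecke operators preserve the forms with coefficients in the maximal ideal of `B`. -/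
theorem small_of_mem_heckeAlgebra (B : ValuationSubring ℂ)
    {t : Module.End ℂ (CuspForm (Gamma0 N) 2)} (ht : t ∈ CuspForm.heckeAlgebra N 2 ∅)
    {G : CuspForm (Gamma0 N) 2} (hG : ∀ n, B.valuation (qCoeff ⇑G n) < 1) (n : ℕ) :
    B.valuation (qCoeff ⇑(t G) n) < 1 := by
  have hnat : ∀ m : ℕ, B.valuation (m : ℂ) ≤ 1 := fun m =>
    (B.valuation_le_one_iff _).mpr (natCast_mem B m)
  have hmul : ∀ (m : ℕ) {x : ℂ}, B.valuation x < 1 → B.valuation ((m : ℂ) * x) < 1 := by
    intro m x hx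
    exact val_mul_lt B (hnat m) hx
  revert G n
  refine Algebra.adjoin_induction (p := fun (t : Module.End ℂ (CuspForm (Gamma0 N) 2)) _ =>
    ∀ {G : CuspForm (Gamma0 N) 2},
    (∀ n, B.valuation (qCoeff ⇑G n) < 1) → ∀ n, B.valuation (qCoeff ⇑(t G) n) < 1)
    ?_ ?_ ?_ ?_ ht
  · rintro x (⟨ℓ, hℓ, hℓN, -, rfl⟩ | ⟨q, hqN, hq, -, rfl⟩) G hG n
    · rw [qc_heckeTLin hℓ hℓN]
      refine Valuation.map_add_lt _ (hG _) ?_
      split_ifs
      · rw [show (2 : ℤ) - 1 = 1 from rfl, zpow_one]
        exact hmul ℓ (hG _)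
      · rw [map_zero]; exact zero_lt_one
    · rw [qc_heckeULin hq hqN]
      exact hG _
  · intro r G hG n
    rw [Algebra.algebraMap_eq_smul_one, LinearMap.smul_apply, Module.End.one_apply, qc_zsmul]
    exact val_mul_lt B ((B.valuation_le_one_iff _).mpr (intCast_mem B r)) (hG n)
  · intro x y _ _ hx hy G hG n
    rw [LinearMap.add_apply, qc_add]
    exact Valuation.map_add_lt _ (hx hG n) (hy hG n)
  · intro x y _ _ hx hy G hG n
    rw [Module.End.mul_apply]
    exact hx (hy hG) n

/-- The orbit map `B ⊗ 𝕋 → S₂(Γ₀(N))`, `b ⊗ t ↦ b • t F`. -/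
def orbMap (B : ValuationSubring ℂ) (F : CuspForm (Gamma0 N) 2) :
    (B ⊗[ℤ] CuspForm.heckeAlgebra N 2 ∅) →ₗ[ℤ] CuspForm (Gamma0 N) 2 :=
  TensorProduct.lift (LinearMap.mk₂ ℤ
    (fun (b : B) (t : CuspForm.heckeAlgebra N 2 ∅) =>
      (b : ℂ) • ((t : Module.End ℂ (CuspForm (Gamma0 N) 2)) F))
    (fun b b' t => by push_cast; rw [add_smul])
    (fun c b t => by
      rw [zsmul_eq_mul]
      push_cast
      rw [mul_smul, Int.cast_smul_eq_zsmul])
    (fun b t t' => by
      rw [← smul_add]; rfl)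
    (fun c b t => by
      have h1 : (((c • t : CuspForm.heckeAlgebra N 2 ∅)) : Module.End ℂ (CuspForm (Gamma0 N) 2)) F
        = c • ((t : Module.End ℂ (CuspForm (Gamma0 N) 2)) F) := rfl
      rw [h1, smul_comm]))

theorem orbMap_tmul (B : ValuationSubring ℂ) (F : CuspForm (Gamma0 N) 2) (b : B)
    (t : CuspForm.heckeAlgebra N 2 ∅) :
    orbMap B F (b ⊗ₜ t) = (b : ℂ) • ((t : Module.End ℂ (CuspForm (Gamma0 N) 2)) F) := rfl

theorem orbMap_mul (B : ValuationSubring ℂ) (F : CuspForm (Gamma0 N) 2) (b : B)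
    (t : CuspForm.heckeAlgebra N 2 ∅) (x : B ⊗[ℤ] CuspForm.heckeAlgebra N 2 ∅) :
    orbMap B F ((b ⊗ₜ t) * x) =
      (b : ℂ) • ((t : Module.End ℂ (CuspForm (Gamma0 N) 2)) (orbMap B F x)) := by
  induction x with
  | zero => simp
  | tmul b' t' =>
    rw [Algebra.TensorProduct.tmul_mul_tmul, orbMap_tmul, orbMap_tmul, map_smul, smul_smul]
    rfl
  | add x y hx hy => rw [mul_add, map_add, hx, hy, map_add, map_add, smul_add]

/-- **Deligne–Serre lifting**, valuation form. -/
theorem exists_eigenform_of_valuation (hint : CuspForm.HasIntegralStructure N 2)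
    (B : ValuationSubring ℂ) (F : CuspForm (Gamma0 N) 2)
    (hF : ¬ ∀ n, B.valuation (qCoeff ⇑F n) < 1) :
    ∃ h : CuspForm (Gamma0 N) 2, h.IsNormalizedEigenform ∧
      (∀ ℓ : ℕ, ℓ.Prime → qCoeff ⇑h ℓ ∈ B) ∧
      ∀ (ℓ : ℕ) (hℓ : ℓ.Prime) (c : ℂ), c ∈ B →
        (∀ n, B.valuation (qCoeff ⇑((gen N 2 hℓ : Module.End ℂ (CuspForm (Gamma0 N) 2)) F) n
          - c * qCoeff ⇑F n) < 1) →
        B.valuation (qCoeff ⇑h ℓ - c) < 1 := by
  have hfin := finite_heckeAlgebra (N := N) hint
  have hfree := free_heckeAlgebra (N := N) hint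
  let J : Ideal (B ⊗[ℤ] CuspForm.heckeAlgebra N 2 ∅) :=
    { carrier := {x | ∀ n, B.valuation (qCoeff ⇑(orbMap B F x) n) < 1}
      add_mem' := by
        intro x y hx hy n
        rw [map_add, qc_add]
        exact Valuation.map_add_lt _ (hx n) (hy n)
      zero_mem' := by
        intro n
        rw [map_zero, qc_zero, map_zero]
        exact zero_lt_one
      smul_mem' := by
        intro c x hx n
        rw [smul_eq_mul]
        induction c generalizing n with
        | zero => rw [zero_mul, map_zero, qc_zero, map_zero]; exact zero_lt_one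
        | tmul b t =>
          rw [orbMap_mul, qc_smul]
          exact val_mul_lt B ((B.valuation_le_one_iff _).mpr b.2)
            (small_of_mem_heckeAlgebra B t.2 hx n)
        | add c d hc hd =>
          rw [add_mul, map_add, qc_add]
          exact Valuation.map_add_lt _ (hc n) (hd n) }
  have hJ : J ≠ ⊤ := by
    intro htop
    have h1 : (1 : B ⊗[ℤ] CuspForm.heckeAlgebra N 2 ∅) ∈ J := by rw [htop]; trivial
    apply hF
    intro n
    have h2 := h1 n
    rw [Algebra.TensorProduct.one_def, orbMap_tmul] at h2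
    simpa using h2
  obtain ⟨φ, hφ⟩ := exists_algHom_of_ideal B J hJ
  let ψ : CuspForm.heckeAlgebra N 2 ∅ →+* B :=
    (φ : (B ⊗[ℤ] CuspForm.heckeAlgebra N 2 ∅) →+* B).comp
      (Algebra.TensorProduct.includeRight : CuspForm.heckeAlgebra N 2 ∅ →ₐ[ℤ]
        (B ⊗[ℤ] CuspForm.heckeAlgebra N 2 ∅)).toRingHom
  obtain ⟨h, hh, -, hcoef⟩ := exists_eigenform_of_ringHom hint (B.subtype.comp ψ)
  refine ⟨h, hh, fun ℓ hℓ => ?_, fun ℓ hℓ c hc hcong => ?_⟩
  · rw [hcoef ℓ hℓ]
    exact (ψ _).2
  · have hmem : ((1 : B) ⊗ₜ[ℤ] gen N 2 hℓ - (⟨c, hc⟩ : B) ⊗ₜ[ℤ] (1 : CuspForm.heckeAlgebra N 2 ∅))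
        ∈ J := by
      intro n
      rw [map_sub, orbMap_tmul, orbMap_tmul, qc_sub, qc_smul, qc_smul]
      have := hcong n
      simpa using this
    have h1 := hφ _ hmem
    have h2 : φ ((1 : B) ⊗ₜ[ℤ] gen N 2 hℓ - (⟨c, hc⟩ : B) ⊗ₜ[ℤ] (1 : CuspForm.heckeAlgebra N 2 ∅)) =
        ψ (gen N 2 hℓ) - ⟨c, hc⟩ := by
      rw [map_sub]
      congr 1
      have h3 : (⟨c, hc⟩ : B) ⊗ₜ[ℤ] (1 : CuspForm.heckeAlgebra N 2 ∅) =
          algebraMap B (B ⊗[ℤ] CuspForm.heckeAlgebra N 2 ∅) ⟨c, hc⟩ := rfl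
      rw [h3, AlgHom.commutes]
      rfl
    rw [h2] at h1
    rw [hcoef ℓ hℓ]
    have h4 := (B.valuation_lt_one_iff _).mp h1
    exact h4

end Fermat.Agent.LT.K
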