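import Fermat.Agent.LT.K.SurjA
import Fermat.Agent.LT.K.Ram
import Fermat.Agent.TWP.Place
import Fermat.Agent.S30Assembly

/-!
# LT piece K: irreducible `ρ : Γℚ → GL₂(𝔽₃)` with cyclotomic determinant and unipotent inertia
outside `3` is surjective
-/

set_option autoImplicit false

open Matrix NumberField Pointwise
open Fermat.Agent.FrobExists Fermat.Agent.FrobPlaceLift

namespace Fermat.Agent.LT.K

local notation "Γℚ" => (AlgebraicClosure ℚ ≃ₐ[ℚ] AlgebraicClosure ℚ)
local notation "ℚbar" => AlgebraicClosure ℚ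

section place

variable (F : IntermediateField ℚ ℚbar) [FiniteDimensional ℚ F] [IsGalois ℚ F]

omit [FiniteDimensional ℚ F] in
theorem coe_restrictNormal_int (σ : Γℚ) (x : 𝓞 F) :
    ((((AlgEquiv.restrictNormal σ F) • x : 𝓞 F) : F) : ℚbar) = σ ((x : F) : ℚbar) :=
  AlgEquiv.restrictNormal_commutes σ F (x : F)

omit [FiniteDimensional ℚ F] in
theorem restrict_mem_inertia {A : ValuationSubring ℚbar} {σ : Γℚ}
    (hσ : σ ∈ A.inertiaSubgroupIn ℚ) :
    AlgEquiv.restrictNormal σ F ∈ (centerOn F A).inertia (F ≃ₐ[ℚ] F) := by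
  intro x
  change (AlgEquiv.restrictNormal σ F) • x - x ∈ centerOn F A
  rw [mem_centerOn]
  have h1 : ((((AlgEquiv.restrictNormal σ F) • x - x : 𝓞 F) : F) : ℚbar) =
      σ ((x : F) : ℚbar) - ((x : F) : ℚbar) := by
    rw [← coe_restrictNormal_int]
    rfl
  rw [h1]
  exact FlatOrd.InertiaLift.sub_mem_nonunits_of_mem_inertia A hσ
    (mem_of_isIntegral A ((RingOfIntegers.isIntegral_coe x).map
      ((algebraMap F ℚbar).toIntAlgHom)))

omit [FiniteDimensional ℚ F] in
theorem restrict_eq_iff {σ τ : Γℚ} : AlgEquiv.restrictNormal σ F = AlgEquiv.restrictNormal τ F ↔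
    ∀ x ∈ F, σ x = τ x := by
  constructor
  · intro h x hx
    have h1 := AlgEquiv.restrictNormal_commutes σ F ⟨x, hx⟩
    have h2 := AlgEquiv.restrictNormal_commutes τ F ⟨x, hx⟩
    rw [h, h2] at h1
    exact h1.symm
  · intro h
    ext x
    have h1 := AlgEquiv.restrictNormal_commutes σ F x
    have h2 := AlgEquiv.restrictNormal_commutes τ F x
    change algebraMap F ℚbar _ = algebraMap F ℚbar _
    rw [h1, h2]
    exact h x x.2

theorem involution_unique_place {A : ValuationSubring ℚbar} {ℓ : ℕ} (hℓ : ℓ.Prime) (hℓ2 : ℓ ≠ 2)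
    (hA : A.LiesOverPrime ℓ) {σ τ : Γℚ} (hσ : σ ∈ A.inertiaSubgroupIn ℚ)
    (hτ : τ ∈ A.inertiaSubgroupIn ℚ) (hσ2 : ∀ x ∈ F, σ (σ x) = x) (hτ2 : ∀ x ∈ F, τ (τ x) = x)
    (hc : ∀ x ∈ F, σ (τ x) = τ (σ x)) (hσ1 : ∃ x ∈ F, σ x ≠ x) (hτ1 : ∃ x ∈ F, τ x ≠ x) :
    ∀ x ∈ F, σ x = τ x := by
  have hNF : NumberField F := ⟨⟩
  rw [← restrict_eq_iff]
  have hover := (centerOn_liesOver F A hℓ hA).over
  have hbot : centerOn F A ≠ ⊥ := by
    intro h
    rw [h, Ideal.under_bot, Ideal.span_singleton_eq_bot] at hover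
    exact hℓ.ne_zero (by exact_mod_cast hover)
  have hmax : (centerOn F A).IsMaximal := Ideal.IsPrime.isMaximal inferInstance hbot
  have h2 : (2 : 𝓞 F) ∉ centerOn F A := by
    intro h
    have h3 : (2 : ℤ) ∈ Ideal.span {(ℓ : ℤ)} := by
      rw [hover, Ideal.mem_comap]
      simpa using h
    rw [Ideal.mem_span_singleton] at h3
    have h5 : ℓ ∣ 2 := by exact_mod_cast h3
    exact hℓ2 ((Nat.prime_dvd_prime_iff_eq hℓ Nat.prime_two).mp h5)
  have hfaith : FaithfulSMul (F ≃ₐ[ℚ] F) (𝓞 F) :=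
    (inferInstance : IsGaloisGroup (F ≃ₐ[ℚ] F) ℤ (𝓞 F)).faithful
  have hmul : ∀ g h : Γℚ, AlgEquiv.restrictNormal g F * AlgEquiv.restrictNormal h F =
      AlgEquiv.restrictNormal (g * h) F := fun g h =>
    (map_mul (AlgEquiv.restrictNormalHom (F := ℚ) (K₁ := ℚbar) F) g h).symm
  have hone : AlgEquiv.restrictNormal (1 : Γℚ) F = 1 :=
    map_one (AlgEquiv.restrictNormalHom (F := ℚ) (K₁ := ℚbar) F)
  refine involution_unique h2 (restrict_mem_inertia F hσ) (restrict_mem_inertia F hτ) ?_ ?_ ?_ ?_ ?_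
  · rw [hmul, ← hone, restrict_eq_iff]; exact hσ2
  · rw [hmul, ← hone, restrict_eq_iff]; exact hτ2
  · rw [hmul, hmul, restrict_eq_iff]; exact hc
  · rw [← hone, Ne, restrict_eq_iff]; push Not; exact hσ1
  · rw [← hone, Ne, restrict_eq_iff]; push Not; exact hτ1

end place

/-- Uniqueness of commuting involutions in the image of an inertia group. -/
theorem involution_unique_rep {G : Type*} [Group G] [TopologicalSpace G] [DiscreteTopology G]
    (ρ : Γℚ →* G) (hcont : Continuous ρ)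
    {A : ValuationSubring ℚbar} {ℓ : ℕ} (hℓ : ℓ.Prime) (hℓ2 : ℓ ≠ 2)
    (hA : A.LiesOverPrime ℓ) {σ τ : Γℚ} (hσ : σ ∈ A.inertiaSubgroupIn ℚ)
    (hτ : τ ∈ A.inertiaSubgroupIn ℚ) (hσ2 : ρ σ * ρ σ = 1) (hτ2 : ρ τ * ρ τ = 1)
    (hc : ρ σ * ρ τ = ρ τ * ρ σ) (hσ1 : ρ σ ≠ 1) (hτ1 : ρ τ ≠ 1) : ρ σ = ρ τ := by
  have hopen : IsOpen ((ρ.ker : Subgroup Γℚ) : Set Γℚ) := (isOpen_discrete {(1 : G)}).preimage hcont
  have hclosed : IsClosed ((ρ.ker : Subgroup Γℚ) : Set Γℚ) := Subgroup.isClosed_of_isOpen _ hopen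
  let F : IntermediateField ℚ ℚbar := IntermediateField.fixedField ρ.ker
  have hfix : F.fixingSubgroup = ρ.ker := InfiniteGalois.fixingSubgroup_fixedField ⟨ρ.ker, hclosed⟩
  have hfin : FiniteDimensional ℚ F := by
    rw [← InfiniteGalois.isOpen_iff_finite, hfix]; exact hopen
  have hgal : IsGalois ℚ F := by
    have h : @IsGalois ℚ _ F _ (IntermediateField.algebra' _) := by
      rw [← InfiniteGalois.normal_iff_isGalois, hfix]
      infer_instance
    convert! h
  have key : ∀ g h : Γℚ, (∀ x ∈ F, g x = h x) ↔ ρ g = ρ h := by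
    intro g h
    rw [← inv_mul_eq_one, ← map_inv, ← map_mul, ← MonoidHom.mem_ker, ← hfix,
      IntermediateField.mem_fixingSubgroup_iff]
    refine forall₂_congr fun x _ => ?_
    rw [AlgEquiv.mul_apply]
    constructor
    · intro e; rw [← e]; exact g.symm_apply_apply x
    · intro e
      have := congrArg g e
      rw [show g (g⁻¹ (h x)) = h x from g.apply_symm_apply _] at this
      exact this.symm
  have keyone : ∀ g : Γℚ, (∀ x ∈ F, g x = x) ↔ ρ g = 1 := by
    intro g
    have := key g 1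
    rwa [map_one] at this
  rw [← key]
  refine involution_unique_place F hℓ hℓ2 hA hσ hτ ?_ ?_ ?_ ?_ ?_
  · rw [← map_mul, ← keyone] at hσ2; exact hσ2
  · rw [← map_mul, ← keyone] at hτ2; exact hτ2
  · rw [← map_mul, ← map_mul, ← key] at hc; exact hc
  · rw [Ne, ← keyone] at hσ1; push Not at hσ1; exact hσ1
  · rw [Ne, ← keyone] at hτ1; push Not at hτ1; exact hτ1

theorem modThreeCyclotomicChar_eq_cyc (σ : Γℚ) :
    WeierstrassCurve.modThreeCyclotomicChar σ = Cyclotomic.cyc 3 σ := rfl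

/-- **Surjectivity.** -/
theorem surjective_of_irr (ρ : Γℚ →* G3) (hcont : Continuous ρ)
    (hdet : ∀ σ : Γℚ, Matrix.GeneralLinearGroup.det (ρ σ) =
      WeierstrassCurve.modThreeCyclotomicChar σ)
    (htame : ∀ q : ℕ, q.Prime → q ≠ 3 → ∀ A : ValuationSubring ℚbar, A.LiesOverPrime q →
      ∀ σ ∈ A.inertiaSubgroupIn ℚ, (ρ σ) ^ 3 = 1)
    (hirr : Irr ρ.range) : Function.Surjective ρ := by
  -- complex conjugation
  obtain ⟨c, hc2, hc1⟩ : ∃ c : Γℚ, c * c = 1 ∧ c ≠ 1 := S30Assembly.exists_involution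
  have hdc : dt (ρ c) = -1 := by
    have h1 := hdet c
    rw [modThreeCyclotomicChar_eq_cyc, InvolutionCyc.cyc_involution 3 c hc2 hc1] at h1
    have h2 := congrArg (fun u : (ZMod 3)ˣ => (u : ZMod 3)) h1
    rw [dt_eq]
    simpa using h2
  have hρc1 : ρ c ≠ 1 := by
    intro h; rw [h, dt_one] at hdc; exact absurd hdc (by decide)
  have hρc2 : ρ c * ρ c = 1 := by rw [← map_mul, hc2, map_one]
  rw [← MonoidHom.range_eq_top]
  have hd : ∃ g ∈ ρ.range, dt g = -1 := ⟨ρ c, ⟨c, rfl⟩, hdc⟩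
  by_cases h3 : 3 ∣ Nat.card ρ.range
  · have : Fact (Nat.Prime 3) := ⟨Nat.prime_three⟩
    obtain ⟨g, hg⟩ := exists_prime_orderOf_dvd_card' 3 h3
    refine eq_top_of_SLs_le (SLs_le_of_order_three (g := (g : G3)) g.2 ?_ ?_ hirr) hd
    · have := pow_orderOf_eq_one g
      rw [hg] at this
      exact_mod_cast congrArg Subtype.val this
    · intro h
      have h1 : g = 1 := Subtype.ext h
      rw [h1, orderOf_one] at hg
      exact absurd hg (by norm_num)
  · exfalso
    -- the image is a 2-group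
    have hcop : Nat.Coprime (Nat.card ρ.range) 3 :=
      ((Nat.Prime.coprime_iff_not_dvd Nat.prime_three).mpr h3).symm
    have hdvd : Nat.card ρ.range ∣ 2 ^ 4 := by
      have h1 := Subgroup.card_subgroup_dvd_card ρ.range
      rw [card_G3, show 48 = 2 ^ 4 * 3 by norm_num] at h1
      exact hcop.dvd_of_dvd_mul_right h1
    obtain ⟨k, -, hk⟩ := (Nat.dvd_prime_pow Nat.prime_two).mp hdvd
    have hfact2 : Fact (Nat.Prime 2) := ⟨Nat.prime_two⟩
    have hp : IsPGroup 2 ρ.range := IsPGroup.of_card hk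
    have hunr : ∀ q : ℕ, q.Prime → q ≠ 3 → ∀ A : ValuationSubring ℚbar, A.LiesOverPrime q →
      ∀ σ ∈ A.inertiaSubgroupIn ℚ, ρ σ = 1 := by
      intro q hq hq3 A hA σ hσ
      have h1 := htame q hq hq3 A hA σ hσ
      have h2 : (⟨ρ σ, ⟨σ, rfl⟩⟩ : ρ.range) ^ Nat.card ρ.range = 1 := pow_card_eq_one'
      have h4 : (⟨ρ σ, ⟨σ, rfl⟩⟩ : ρ.range) ^ 3 = 1 := Subtype.ext h1
      have h5 := Nat.Coprime.eq_one_of_dvd
        (Nat.Coprime.coprime_dvd_left (orderOf_dvd_of_pow_eq_one h2) hcop)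
        (orderOf_dvd_of_pow_eq_one h4)
      rw [orderOf_eq_one_iff] at h5
      exact congrArg Subtype.val h5
    obtain ⟨A, hA⟩ := exists_liesOverPrime ℚbar Nat.prime_three
    let J : Subgroup ρ.range := (A.inertiaSubgroupIn ℚ).map ρ.rangeRestrict
    have hJ : J = ⊤ := by
      rcases eq_top_or_exists_le_coatom J with h | ⟨M, hM, hJM⟩
      · exact h
      · exfalso
        have hnil : Group.IsNilpotent ρ.range := hp.isNilpotent
        have hnorm : M.Normal :=
          (Subgroup.NormalizerCondition.normal_of_coatom M Group.normalizerCondition_of_isNilpotent hM)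
        have hpre : (M.comap ρ.rangeRestrict : Subgroup Γℚ) =
            (M.map ρ.range.subtype).comap ρ := by
          ext σ
          rw [Subgroup.mem_comap, Subgroup.mem_comap, Subgroup.mem_map]
          constructor
          · intro h; exact ⟨_, h, rfl⟩
          · rintro ⟨x, hx, hxσ⟩
            have : x = ρ.rangeRestrict σ := Subtype.ext hxσ
            rwa [← this]
        have hopen : IsOpen ((M.comap ρ.rangeRestrict : Subgroup Γℚ) : Set Γℚ) := by
          rw [hpre]
          exact (isOpen_discrete ((M.map ρ.range.subtype : Subgroup G3) : Set G3)).preimage hcont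
        have htop : M.comap ρ.rangeRestrict = ⊤ := by
          refine LOC.Minkowski.eq_top_of_inertia_le _ hopen ?_
          intro q hq B hB σ hσ
          rw [Subgroup.mem_comap]
          rcases eq_or_ne q 3 with rfl | hq3
          · obtain ⟨γ, rfl⟩ := exists_smul_eq A B Nat.prime_three hA hB
            have h6 : γ⁻¹ * σ * γ ∈ A.inertiaSubgroupIn ℚ := by
              have := TWP.Place.mem_inertia_conj γ⁻¹ hσ
              rwa [inv_smul_smul, inv_inv] at this
            have h7 : ρ.rangeRestrict (γ⁻¹ * σ * γ) ∈ M := hJM ⟨_, h6, rfl⟩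
            have h8 := hnorm.conj_mem _ h7 (ρ.rangeRestrict γ)
            rw [← map_inv, ← map_mul, ← map_mul] at h8
            convert h8 using 2
            group
          · have : ρ.rangeRestrict σ = 1 := Subtype.ext (hunr q hq hq3 B hB σ hσ)
            rw [this]
            exact M.one_mem
        apply hM.1
        rw [eq_top_iff]
        rintro ⟨_, σ, rfl⟩ -
        have : σ ∈ M.comap ρ.rangeRestrict := by rw [htop]; trivial
        exact this
    -- a central involution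
    have hnt : Nontrivial ρ.range := ⟨⟨⟨ρ c, c, rfl⟩, 1, fun h => hρc1 (congrArg Subtype.val h)⟩⟩
    have hcen := hp.center_nontrivial
    have hpc : IsPGroup 2 (Subgroup.center ρ.range) := hp.to_subgroup _
    obtain ⟨m, hm⟩ := IsPGroup.iff_card.mp hpc
    have hm0 : m ≠ 0 := by
      rintro rfl
      rw [pow_zero] at hm
      have := Finite.one_lt_card (α := Subgroup.center ρ.range)
      omega
    obtain ⟨z, hz⟩ := exists_prime_orderOf_dvd_card' (G := Subgroup.center ρ.range) 2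
      (by rw [hm]; exact dvd_pow_self 2 hm0)
    obtain ⟨s, hs, hsz⟩ : (z : ρ.range) ∈ J := by rw [hJ]; trivial
    obtain ⟨t, ht, htc⟩ : (⟨ρ c, c, rfl⟩ : ρ.range) ∈ J := by rw [hJ]; trivial
    have hsz' : ρ s = ((z : ρ.range) : G3) := congrArg Subtype.val hsz
    have htc' : ρ t = ρ c := congrArg Subtype.val htc
    have hz2 : ((z : ρ.range) : G3) * ((z : ρ.range) : G3) = 1 := by
      have h9 := pow_orderOf_eq_one z
      rw [hz, sq] at h9
      exact congrArg (fun w : Subgroup.center ρ.range => ((w : ρ.range) : G3)) h9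
    have hz1 : ((z : ρ.range) : G3) ≠ 1 := by
      intro h
      have h1 : z = 1 := Subtype.ext (Subtype.ext h)
      rw [h1, orderOf_one] at hz
      exact absurd hz (by norm_num)
    have hzc : ∀ g ∈ ρ.range, g * ((z : ρ.range) : G3) = ((z : ρ.range) : G3) * g := by
      intro g hg
      have := Subgroup.mem_center_iff.mp z.2 ⟨g, hg⟩
      exact congrArg Subtype.val this
    have heq : ρ s = ρ t := by
      refine involution_unique_rep ρ hcont Nat.prime_three (by norm_num) hA hs ht ?_ ?_ ?_ ?_ ?_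
      · rw [hsz']; exact hz2
      · rw [htc']; exact hρc2
      · rw [hsz', htc']; exact (hzc (ρ c) ⟨c, rfl⟩).symm
      · rw [hsz']; exact hz1
      · rw [htc']; exact hρc1
    rw [hsz', htc'] at heq
    refine not_irr_of_central_involution (G := ρ.range) hρc2 hdc ?_ hirr
    rw [← heq]
    exact hzc

end Fermat.Agent.LT.K
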