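import Fermat.Agent.LT.K.Frob
import Fermat.Agent.LT.K.SurjB

/-!
# LT piece K: local structure of the octahedral tower

`P` a prime of `N`, `G3 = GL₂(𝔽₃)` acting.

* `inertia_Q8_pair`: `P.inertia ∩ Q8` is cyclic modulo `±1`;
* `mem_Z2_of_ram`: if inertia contains an element of `SL₂ ∖ Q8` then the decomposition group meets
  `Q8` in `±1`;
* `stab_le_Q8`: if `3 ∈ P`, inertia is not of exponent two, and `P.inertia ∩ SL₂ ⊆ Q8`, then the
  decomposition group in `SL₂` is contained in `Q8`.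
-/

set_option autoImplicit false

open Matrix NumberField Pointwise IsDedekindDomain
open Fermat.Agent.FrobExists Fermat.Agent.FrobPlaceLift

namespace Fermat.Agent.LT.K

local notation "Γℚ" => (AlgebraicClosure ℚ ≃ₐ[ℚ] AlgebraicClosure ℚ)
local notation "ℚbar" => AlgebraicClosure ℚ

section fin

@[simp] theorem neg00 (g : G3) : (-g : G3) 0 0 = -(g 0 0) := rfl
@[simp] theorem neg01 (g : G3) : (-g : G3) 0 1 = -(g 0 1) := rfl
@[simp] theorem neg10 (g : G3) : (-g : G3) 1 0 = -(g 1 0) := rfl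
@[simp] theorem neg11 (g : G3) : (-g : G3) 1 1 = -(g 1 1) := rfl

theorem mem_Z2' {g : G3} : g ∈ Z2 ↔ (g 0 0 = g 1 1 ∧ g 0 1 = 0 ∧ g 1 0 = 0) := by
  rw [mem_Z2, G3.ext_iff', G3.ext_iff']
  simp only [one00, one01, one10, one11, negone00, negone01, negone10, negone11]
  have : ∀ a b c d : ZMod 3, (a * d - b * c) * (a * d - b * c) = 1 →
    ((a = 1 ∧ b = 0 ∧ c = 0 ∧ d = 1 ∨ a = -1 ∧ b = 0 ∧ c = 0 ∧ d = -1) ↔
      (a = d ∧ b = 0 ∧ c = 0)) := by decide +kernel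
  exact this _ _ _ _ (dt_mul_self g)

theorem Q8_sq {x : G3} (hx : x ∈ Q8) : x * x ∈ Z2 := by
  rw [mem_Z2', mul00, mul01, mul10, mul11]
  have : ∀ a b c d : ZMod 3, isQ a b c d → (a * a + b * c = c * b + d * d ∧
    a * b + b * d = 0 ∧ c * a + d * c = 0) := by decide +kernel
  exact this _ _ _ _ hx

set_option synthInstance.maxHeartbeats 200000 in
set_option synthInstance.maxSize 4000 in
theorem Q8_comm_aux : ∀ a b c d a' b' c' d' : ZMod 3, isQ a b c d → isQ a' b' c' d' →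
    ((a * a' + b * c' = a' * a + b' * c ∧ a * b' + b * d' = a' * b + b' * d ∧
      c * a' + d * c' = c' * a + d' * c ∧ c * b' + d * d' = c' * b + d' * d) ∨
     (a * a' + b * c' = -(a' * a + b' * c) ∧ a * b' + b * d' = -(a' * b + b' * d) ∧
      c * a' + d * c' = -(c' * a + d' * c) ∧ c * b' + d * d' = -(c' * b + d' * d))) := by
  decide +kernel

theorem Q8_comm {x y : G3} (hx : x ∈ Q8) (hy : y ∈ Q8) : x * y = y * x ∨ x * y = -(y * x) := by
  rw [G3.ext_iff', G3.ext_iff']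
  simp only [mul00, mul01, mul10, mul11, neg00, neg01, neg10, neg11]
  exact Q8_comm_aux _ _ _ _ _ _ _ _ hx hy

set_option synthInstance.maxHeartbeats 200000 in
set_option synthInstance.maxSize 4000 in
theorem conj_aux : ∀ a b c d a' b' c' d' : ZMod 3, a * d - b * c = 1 → ¬ isQ a b c d →
    isQ a' b' c' d' → ¬ (a' = d' ∧ b' = 0 ∧ c' = 0) →
    ¬ (a * a' + b * c' = a' * a + b' * c ∧ a * b' + b * d' = a' * b + b' * d ∧
      c * a' + d * c' = c' * a + d' * c ∧ c * b' + d * d' = c' * b + d' * d) ∧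
    ¬ (a * a' + b * c' = -(a' * a + b' * c) ∧ a * b' + b * d' = -(a' * b + b' * d) ∧
      c * a' + d * c' = -(c' * a + d' * c) ∧ c * b' + d * d' = -(c' * b + d' * d)) := by
  decide +kernel

/-- an element of `SL₂ ∖ Q8` does not normalise a subgroup of order four -/
theorem conj_ne {g x : G3} (hg : g ∈ SLs) (hgQ : g ∉ Q8) (hx : x ∈ Q8) (hxZ : x ∉ Z2) :
    g * x ≠ x * g ∧ g * x ≠ -(x * g) := by
  rw [mem_Z2'] at hxZ
  have h := conj_aux _ _ _ _ _ _ _ _ hg hgQ hx hxZ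
  constructor
  · intro e
    apply h.1
    rw [G3.ext_iff'] at e
    simpa only [mul00, mul01, mul10, mul11] using e
  · intro e
    apply h.2
    rw [G3.ext_iff'] at e
    simpa only [mul00, mul01, mul10, mul11, neg00, neg01, neg10, neg11] using e

theorem neg_one_mul' (x : G3) : (-1 : G3) * x = -x := by
  refine G3.ext' ?_ ?_ ?_ ?_ <;> simp

theorem inv_mul_mem_Z2_iff {x y : G3} : x⁻¹ * y ∈ Z2 ↔ y = x ∨ y = -x := by
  rw [mem_Z2, inv_mul_eq_one, inv_mul_eq_iff_eq_mul]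
  constructor
  · rintro (h | h)
    · exact Or.inl h.symm
    · right; rw [h]; simp
  · rintro (h | h)
    · exact Or.inl h.symm
    · right; rw [h]; simp

end fin

namespace Octa

variable (R : Octa) {H H' : Subgroup G3}

/-- the inertia group is normalised by the decomposition group -/
theorem conj_mem_inertia {P : Ideal (𝓞 R.N)} {g h : G3} (hg : g • P = P)
    (hh : h ∈ P.inertia G3) : g * h * g⁻¹ ∈ P.inertia G3 := by
  intro x
  change (g * h * g⁻¹) • x - x ∈ P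
  rw [← hg, Ideal.mem_pointwise_smul_iff_inv_smul_mem]
  have h4 := hh (g⁻¹ • x)
  change h • g⁻¹ • x - g⁻¹ • x ∈ P at h4
  have e : g⁻¹ • ((g * h * g⁻¹) • x - x) = h • g⁻¹ • x - g⁻¹ • x := by
    rw [smul_sub, ← mul_smul, ← mul_smul]
    congr 2
    group
  rw [e]
  exact h4

theorem smul_eq_of_mem_inertia {P : Ideal (𝓞 R.N)} {g : G3} (hg : g ∈ P.inertia G3) :
    g • P = P := by
  have key : ∀ g ∈ P.inertia G3, P ≤ g • P := by
    intro g hg x hx
    rw [Ideal.mem_pointwise_smul_iff_inv_smul_mem]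
    have h1 := (P.inertia G3).inv_mem hg x
    have h2 := P.add_mem h1 hx
    change g⁻¹ • x - x + x ∈ P at h2
    rwa [sub_add_cancel] at h2
  apply le_antisymm
  · have h1 := key g⁻¹ ((P.inertia G3).inv_mem hg)
    have h2 := Ideal.pointwise_smul_le_pointwise_smul_iff (a := g).mpr h1
    rwa [smul_inv_smul] at h2
  · exact key g hg

/-- inertia meets `Q8` in a group which is cyclic modulo `±1` -/
theorem inertia_Q8_pair {P : Ideal (𝓞 R.N)} [P.IsPrime] (hP : P ≠ ⊥) {x y : G3}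
    (hx : x ∈ P.inertia G3) (hxQ : x ∈ Q8) (hxZ : x ∉ Z2) (hy : y ∈ P.inertia G3) (hyQ : y ∈ Q8)
    (hyZ : y ∉ Z2) : y = x ∨ y = -x := by
  by_cases h3 : (3 : 𝓞 R.N) ∈ P
  · obtain ⟨ℓ, A, hℓ, hA, hPA⟩ := R.exists_cen_eq P hP
    have hℓ3 : ℓ = 3 := by
      have h1 := R.under_int hℓ hA
      have h4 : (3 : ℤ) ∈ Ideal.span {(ℓ : ℤ)} := by
        rw [← h1, Ideal.mem_comap, hPA]
        simpa using h3
      rw [Ideal.mem_span_singleton] at h4
      have h5 : ℓ ∣ 3 := by exact_mod_cast h4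
      exact (Nat.prime_dvd_prime_iff_eq hℓ Nat.prime_three).mp h5
    rw [← hPA] at hx hy
    obtain ⟨σ, hσ, rfl⟩ := (R.mem_inertia_iff hℓ hA).mp hx
    obtain ⟨τ, hτ, rfl⟩ := (R.mem_inertia_iff hℓ hA).mp hy
    let _ : TopologicalSpace (G3 ⧸ Z2) := ⊥
    have _ : DiscreteTopology (G3 ⧸ Z2) := ⟨rfl⟩
    have hcont : Continuous ((QuotientGroup.mk' Z2).comp R.ρ) :=
      (continuous_of_discreteTopology (f := (QuotientGroup.mk' Z2 : G3 → G3 ⧸ Z2))).comp
        R.isOcta.cont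
    have key := involution_unique_rep ((QuotientGroup.mk' Z2).comp R.ρ) hcont hℓ
      (by rw [hℓ3]; norm_num) hA hσ hτ ?_ ?_ ?_ ?_ ?_
    · rw [← inv_mul_mem_Z2_iff, ← QuotientGroup.eq]
      exact key
    · change ((R.ρ σ * R.ρ σ : G3) : G3 ⧸ Z2) = 1
      rw [QuotientGroup.eq_one_iff]
      exact Q8_sq hxQ
    · change ((R.ρ τ * R.ρ τ : G3) : G3 ⧸ Z2) = 1
      rw [QuotientGroup.eq_one_iff]
      exact Q8_sq hyQ
    · change ((R.ρ σ * R.ρ τ : G3) : G3 ⧸ Z2) = ((R.ρ τ * R.ρ σ : G3) : G3 ⧸ Z2)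
      rw [QuotientGroup.eq, inv_mul_mem_Z2_iff]
      exact Q8_comm hyQ hxQ
    · change ((R.ρ σ : G3) : G3 ⧸ Z2) ≠ 1
      rw [Ne, QuotientGroup.eq_one_iff]
      exact hxZ
    · change ((R.ρ τ : G3) : G3 ⧸ Z2) ≠ 1
      rw [Ne, QuotientGroup.eq_one_iff]
      exact hyZ
  · exfalso
    have h1 : (⟨x, hxQ⟩ : Q8) ∈ P.inertia Q8 := hx
    rw [R.inertia_Q8 hP h3, Subgroup.mem_bot] at h1
    apply hxZ
    have : x = 1 := congrArg Subtype.val h1
    rw [this]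
    exact Z2.one_mem

/-- **Ramified case.** If inertia contains an element of `SL₂ ∖ Q8` then the decomposition group
meets `Q8` in `±1`. -/
theorem mem_Z2_of_ram {P : Ideal (𝓞 R.N)} [P.IsPrime] (hP : P ≠ ⊥) {g : G3}
    (hg : g ∈ P.inertia G3) (hgS : g ∈ SLs) (hgQ : g ∉ Q8) {x : G3} (hxQ : x ∈ Q8)
    (hxP : x • P = P) : x ∈ Z2 := by
  by_contra hxZ
  have hn : g * x⁻¹ * g⁻¹ ∈ Q8 := (inferInstance : Q8.Normal).conj_mem _ (inv_mem hxQ) g
  set y := x * (g * x⁻¹ * g⁻¹) with hy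
  have hyQ : y ∈ Q8 := mul_mem hxQ hn
  have hyI : y ∈ P.inertia G3 := by
    have h1 := (P.inertia G3).mul_mem (R.conj_mem_inertia hxP hg) ((P.inertia G3).inv_mem hg)
    have e : x * g * x⁻¹ * g⁻¹ = y := by rw [hy]; group
    rwa [e] at h1
  have hyZ : y ∉ Z2 := by
    intro h
    have e : y * (g * x) = x * g := by rw [hy]; group
    have hc := conj_ne hgS hgQ hxQ hxZ
    rcases h with h | h
    · rw [h, one_mul] at e
      exact hc.1 e
    · rw [h, neg_one_mul'] at e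
      exact hc.2 (by rw [← e, neg_neg])
  have hgy : g * y * g⁻¹ ∈ P.inertia G3 := R.conj_mem_inertia (R.smul_eq_of_mem_inertia hg) hyI
  have hgyQ : g * y * g⁻¹ ∈ Q8 := (inferInstance : Q8.Normal).conj_mem _ hyQ g
  have hgyZ : g * y * g⁻¹ ∉ Z2 := by
    intro h
    apply hyZ
    have := (inferInstance : Z2.Normal).conj_mem _ h g⁻¹
    have e : g⁻¹ * (g * y * g⁻¹) * g⁻¹⁻¹ = y := by group
    rwa [e] at this
  rcases R.inertia_Q8_pair hP hyI hyQ hyZ hgy hgyQ hgyZ with h | h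
  · apply (conj_ne hgS hgQ hyQ hyZ).1
    rw [mul_inv_eq_iff_eq_mul] at h
    exact h
  · apply (conj_ne hgS hgQ hyQ hyZ).2
    rw [mul_inv_eq_iff_eq_mul] at h
    rw [h]
    refine G3.ext' ?_ ?_ ?_ ?_ <;> simp

theorem sq_of_dt_neg {c : G3} (hc : dt c = -1) : c * c = 1 ∨ (c * c ∈ Q8 ∧ c * c ∉ Z2) := by
  rw [mem_Z2', G3.ext_iff', mem_Q8]
  simp only [mul00, mul01, mul10, mul11, one00, one01, one10, one11]
  have key : ∀ a b c d : ZMod 3, a * d - b * c = -1 →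
    ((a * a + b * c = 1 ∧ a * b + b * d = 0 ∧ c * a + d * c = 0 ∧ c * b + d * d = 1) ∨
    (isQ (a * a + b * c) (a * b + b * d) (c * a + d * c) (c * b + d * d) ∧
      ¬ (a * a + b * c = c * b + d * d ∧ a * b + b * d = 0 ∧ c * a + d * c = 0))) := by
    decide +kernel
  exact key _ _ _ _ hc

/-- If `L / K` is ramified at `P` then `N / L` is not. -/
theorem inertia_Q8_of_ram {P : Ideal (𝓞 R.N)} [hp : P.IsPrime] (hP : P ≠ ⊥) {g : G3}
    (hg : g ∈ P.inertia G3) (hgS : g ∈ SLs) (hgQ : g ∉ Q8) : P.inertia Q8 = ⊥ := by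
  by_cases h3 : (3 : 𝓞 R.N) ∈ P
  · rw [Subgroup.eq_bot_iff_forall]
    intro x hx
    have hxI : (x : G3) ∈ P.inertia G3 := hx
    have hxZ := R.mem_Z2_of_ram hP hg hgS hgQ x.2 (R.smul_eq_of_mem_inertia hxI)
    rcases hxZ with h | h
    · exact Subtype.ext h
    · exfalso
      obtain ⟨c, hc, hdc⟩ := R.exists_inertia_dt' h3
      have hc2 : c * c ∈ P.inertia G3 := (P.inertia G3).mul_mem hc hc
      rcases sq_of_dt_neg hdc with h1 | ⟨h1, h2⟩
      · have hmax : P.IsMaximal := hp.isMaximal hP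
        have hfaith : FaithfulSMul G3 (𝓞 R.N) :=
          (inferInstance : IsGaloisGroup G3 ℤ (𝓞 R.N)).faithful
        rw [h] at hxI
        have h4 : c = -1 := involution_unique (two_notMem R h3) hc hxI h1 (by decide)
          (by rw [neg_one_mul', mul_neg, mul_one])
          (by rintro rfl; rw [dt_one] at hdc; exact absurd hdc (by decide)) (by decide)
        rw [h4] at hdc
        exact absurd hdc (by decide)
      · exact h2 (R.mem_Z2_of_ram hP hg hgS hgQ h1 (R.smul_eq_of_mem_inertia hc2))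
  · exact R.inertia_Q8 hP h3

theorem lam_of_mem_Z2 {w : HeightOneSpectrum (𝓞 R.L)} (h : (R.fr w : G3) ∈ Z2) :
    R.lam w = 2 ∨ R.lam w = -2 := by
  unfold lam trQ
  rcases h with h | h
  · left; rw [if_pos h]
  · right
    rw [if_neg, if_pos h]
    intro h1
    rw [h] at h1
    exact absurd h1 (by decide)

/-- Frobenius elements are in the decomposition group -/
theorem fr_smul (w : HeightOneSpectrum (𝓞 (R.fld H))) : (R.fr w : G3) • R.ab w = R.ab w :=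
  IsArithFrobAt.arithFrobAt_mem_stabilizer (𝓞 (R.fld H)) H (R.ab w)

/-- **The eigenvalues at the ramified places.** -/
theorem lam_of_ram {w : HeightOneSpectrum (𝓞 R.L)} {g : G3} (hg : g ∈ (R.ab w).inertia G3)
    (hgS : g ∈ SLs) (hgQ : g ∉ Q8) : R.lam w = 2 ∨ R.lam w = -2 :=
  R.lam_of_mem_Z2 (R.mem_Z2_of_ram (R.ab_ne_bot w) hg hgS hgQ (R.fr w).2 (R.fr_smul w))

/-- If `g` fixes `P` and acts trivially on the residue field of `fld H` then `g ∈ H · inertia`. -/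
theorem exists_inertia_mul {P : Ideal (𝓞 R.N)} [P.IsPrime] {g : G3}
    (hg : g • P = P) (hres : ∀ x : 𝓞 (R.fld H), g • algebraMap (𝓞 (R.fld H)) (𝓞 R.N) x -
      algebraMap (𝓞 (R.fld H)) (𝓞 R.N) x ∈ P) :
    ∃ h ∈ H, h • P = P ∧ h⁻¹ * g ∈ P.inertia G3 := by
  have hlo : P.LiesOver (P.under (𝓞 (R.fld H))) := ⟨rfl⟩
  have hlo2 : P.LiesOver (P.under ℤ) := ⟨rfl⟩
  let f0 : (𝓞 R.N ⧸ P) ≃+* (𝓞 R.N ⧸ P) :=
    (Ideal.Quotient.stabilizerHom P (P.under ℤ) G3 ⟨g, hg⟩ :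
      (𝓞 R.N ⧸ P) ≃ₐ[ℤ ⧸ P.under ℤ] (𝓞 R.N ⧸ P)).toRingEquiv
  have hf0 : ∀ y : 𝓞 R.N, f0 (Ideal.Quotient.mk P y) = Ideal.Quotient.mk P (g • y) := fun y => rfl
  let f : (𝓞 R.N ⧸ P) ≃ₐ[𝓞 (R.fld H) ⧸ P.under (𝓞 (R.fld H))] (𝓞 R.N ⧸ P) :=
    AlgEquiv.ofRingEquiv (f := f0) (by
      intro x
      obtain ⟨x, rfl⟩ := Ideal.Quotient.mk_surjective x
      change f0 (Ideal.Quotient.mk P (algebraMap _ _ x)) = Ideal.Quotient.mk P (algebraMap _ _ x)
      rw [hf0, Ideal.Quotient.eq]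
      exact hres x)
  obtain ⟨h, hh⟩ := Ideal.Quotient.stabilizerHom_surjective H (P.under (𝓞 (R.fld H))) P f
  have hhP : ((h : H) : G3) • P = P := h.2
  refine ⟨((h : H) : G3), (h : H).2, hhP, ?_⟩
  intro y
  have h1 : Ideal.Quotient.mk P (((h : H) : G3) • y) = Ideal.Quotient.mk P (g • y) := by
    have := DFunLike.congr_fun hh (Ideal.Quotient.mk P y)
    exact this
  rw [Ideal.Quotient.eq] at h1
  change (((h : H) : G3)⁻¹ * g) • y - y ∈ P
  rw [← neg_mem_iff]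
  have h2 : ((h : H) : G3)⁻¹ • (((h : H) : G3) • y - g • y) ∈ P := by
    rw [← Ideal.mem_pointwise_smul_iff_inv_smul_mem]
    exact hhP.symm ▸ h1
  rw [smul_sub, inv_smul_smul, ← mul_smul] at h2
  rwa [neg_sub]

theorem exists_inertia_of_triv {P : Ideal (𝓞 R.N)} [P.IsPrime] {g : G3}
    (hg : g • P = P) (hgS : g ∈ SLs) (hgQ : g ∉ Q8)
    (hres : ∀ x : 𝓞 R.L, g • algebraMap (𝓞 R.L) (𝓞 R.N) x -
      algebraMap (𝓞 R.L) (𝓞 R.N) x ∈ P) :
    ∃ g' ∈ P.inertia G3, g' ∈ SLs ∧ g' ∉ Q8 := by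
  obtain ⟨h, hh, -, hI⟩ := R.exists_inertia_mul (H := Q8) hg hres
  refine ⟨h⁻¹ * g, hI, mul_mem (inv_mem (Q8_le_SLs hh)) hgS, fun h' => hgQ ?_⟩
  have := mul_mem hh h'
  rwa [mul_inv_cancel_left] at this

/-! ### the place above `3` -/

theorem dt_mul_self' (g : G3) : g * g ∈ SLs := by
  rw [mem_SLs, dt_mul]
  exact dt_mul_self g

theorem exists_inertia_sq_ne (ht : ¬ TameAtThree R.ρ) {P : Ideal (𝓞 R.N)} [P.IsPrime]
    (h3 : (3 : 𝓞 R.N) ∈ P) : ∃ g ∈ P.inertia G3, g * g ≠ 1 := by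
  unfold TameAtThree at ht
  push Not at ht
  obtain ⟨A, hA, σ, hσ, hd⟩ := ht
  have h1 : (R.cen A).under ℤ = P.under ℤ := by
    rw [R.under_int Nat.prime_three hA]
    refine (isMaximal_span Nat.prime_three).eq_of_le (Ideal.IsPrime.ne_top inferInstance) ?_
    rw [Ideal.span_singleton_le_iff_mem, Ideal.mem_comap]
    simpa using h3
  obtain ⟨g, hg⟩ := Algebra.IsInvariant.exists_smul_of_under_eq ℤ (𝓞 R.N) G3 (R.cen A) P h1
  have h2 : R.ρ σ ∈ (R.cen A).inertia G3 := (R.mem_inertia_iff Nat.prime_three hA).mpr ⟨σ, hσ, rfl⟩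
  refine ⟨g * R.ρ σ * g⁻¹, ?_, ?_⟩
  · intro x
    change (g * R.ρ σ * g⁻¹) • x - x ∈ P
    rw [hg, Ideal.mem_pointwise_smul_iff_inv_smul_mem]
    have h4 := h2 (g⁻¹ • x)
    change R.ρ σ • g⁻¹ • x - g⁻¹ • x ∈ R.cen A at h4
    have e : g⁻¹ • ((g * R.ρ σ * g⁻¹) • x - x) = R.ρ σ • g⁻¹ • x - g⁻¹ • x := by
      rw [smul_sub, ← mul_smul, ← mul_smul]
      congr 2
      group
    rw [e]
    exact h4
  · intro h
    apply hd
    have e : (g * R.ρ σ * g⁻¹) * (g * R.ρ σ * g⁻¹) = g * (R.ρ σ ^ 2) * g⁻¹ := by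
      rw [sq]; group
    rw [e, mul_inv_eq_one] at h
    calc R.ρ σ ^ 2 = g⁻¹ * (g * R.ρ σ ^ 2) := by group
      _ = 1 := by rw [h]; group

/-- If `ρ` is not tame at `3` (exponent two) and `L / K` is not ramified at `P ∣ 3` then inertia
contains an element of order four. -/
theorem exists_order_four (ht : ¬ TameAtThree R.ρ) {P : Ideal (𝓞 R.N)} [hp : P.IsPrime]
    (h3 : (3 : 𝓞 R.N) ∈ P) (hI : ∀ g ∈ P.inertia G3, g ∈ SLs → g ∈ Q8) :
    ∃ x ∈ P.inertia G3, x ∈ Q8 ∧ x ∉ Z2 := by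
  obtain ⟨g, hg, hgg⟩ := R.exists_inertia_sq_ne ht h3
  rcases dt_eq_or g with hd | hd
  · refine ⟨g, hg, hI g hg hd, fun h => hgg ?_⟩
    rcases h with h | h <;> rw [h] <;> decide
  · have h1 : g * g ∈ P.inertia G3 := (P.inertia G3).mul_mem hg hg
    refine ⟨g * g, h1, hI _ h1 (dt_mul_self' g), fun h => ?_⟩
    rcases h with h | h
    · exact hgg h
    · rw [G3.ext_iff'] at h
      simp only [mul00, mul01, mul10, mul11, negone00, negone01, negone10, negone11] at h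
      have key : ∀ a b c d : ZMod 3, a * d - b * c = -1 → ¬ (a * a + b * c = -1 ∧
        a * b + b * d = 0 ∧ c * a + d * c = 0 ∧ c * b + d * d = -1) := by decide +kernel
      exact key _ _ _ _ hd h

/-- If `ρ` is not tame at `3` (exponent two) and `L / K` is not ramified at `P ∣ 3` then
the decomposition group in `SL₂` is contained in `Q8`, that is, `3` is split in `L / K`. -/
theorem stab_le_Q8 (ht : ¬ TameAtThree R.ρ) {P : Ideal (𝓞 R.N)} [hp : P.IsPrime]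
    (h3 : (3 : 𝓞 R.N) ∈ P) (hI : ∀ g ∈ P.inertia G3, g ∈ SLs → g ∈ Q8) {g : G3} (hg : g • P = P)
    (hgS : g ∈ SLs) : g ∈ Q8 := by
  have hP : P ≠ ⊥ := by
    rintro rfl
    rw [Ideal.mem_bot] at h3
    exact (by norm_num : (3 : 𝓞 R.N) ≠ 0) h3
  obtain ⟨x, hxI, hxQ, hxZ⟩ := R.exists_order_four ht h3 hI
  by_contra hgQ
  have h1 : g * x * g⁻¹ ∈ P.inertia G3 := R.conj_mem_inertia hg hxI
  have h2 : g * x * g⁻¹ ∈ Q8 := (inferInstance : Q8.Normal).conj_mem _ hxQ g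
  have h4 : g * x * g⁻¹ ∉ Z2 := by
    intro h
    apply hxZ
    have := (inferInstance : Z2.Normal).conj_mem _ h g⁻¹
    have e : g⁻¹ * (g * x * g⁻¹) * g⁻¹⁻¹ = x := by group
    rwa [e] at this
  rcases R.inertia_Q8_pair hP hxI hxQ hxZ h1 h2 h4 with h | h
  · apply (conj_ne hgS hgQ hxQ hxZ).1
    rw [mul_inv_eq_iff_eq_mul] at h
    exact h
  · apply (conj_ne hgS hgQ hxQ hxZ).2
    rw [mul_inv_eq_iff_eq_mul] at h
    rw [h]
    refine G3.ext' ?_ ?_ ?_ ?_ <;> simp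

end Octa

end Fermat.Agent.LT.K
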