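import Fermat.Agent.LT.K.Theta3
import Fermat.Agent.LT.K.Defs
import Fermat.Agent.LT.K.Lift

/-!
# LT piece K: from weight one (character `χ_{-3}`) to weight two modulo three

(helper51, LT/K.)
-/

set_option autoImplicit false

noncomputable section

open UpperHalfPlane ModularForm ModularFormClass CongruenceSubgroup ModularGroup
open scoped MatrixGroups ModularForm Manifold Topology Real

namespace Fermat.Agent.LT.K

open Fermat.Agent.Eis Fermat.Agent.Eis.ThetaK Fermat.Agent.DS.Hecke1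
  Fermat.Agent.JAN.EisCharB Fermat.Agent.HeckeDuality

/-! ### The character `χ_{-3}` -/

theorem chi3_mod (d : ℤ) : chi3 d = chi3 (d % 3) := by
  unfold chi3
  exact jacobiSym.mod_left d 3

theorem chi3_zero' : chi3 0 = 0 := by unfold chi3; norm_num
theorem chi3_one : chi3 1 = 1 := by unfold chi3; norm_num
theorem chi3_two : chi3 2 = -1 := by unfold chi3; norm_num

theorem chi3_cases (d : ℤ) : (d % 3 = 0 ∧ chi3 d = 0) ∨ (d % 3 = 1 ∧ chi3 d = 1) ∨
    (d % 3 = 2 ∧ chi3 d = -1) := by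
  have h : d % 3 = 0 ∨ d % 3 = 1 ∨ d % 3 = 2 := by omega
  rcases h with h | h | h
  · exact Or.inl ⟨h, by rw [chi3_mod, h, chi3_zero']⟩
  · exact Or.inr (Or.inl ⟨h, by rw [chi3_mod, h, chi3_one]⟩)
  · exact Or.inr (Or.inr ⟨h, by rw [chi3_mod, h, chi3_two]⟩)

theorem three_dvd_sub_chi3 (d : ℤ) : (3 : ℤ) ∣ d - chi3 d := by
  rcases chi3_cases d with ⟨h, h'⟩ | ⟨h, h'⟩ | ⟨h, h'⟩ <;> rw [h'] <;> omega

theorem chi3_mul (a b : ℤ) : chi3 (a * b) = chi3 a * chi3 b := by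
  unfold chi3
  exact jacobiSym.mul_left a b 3

theorem chi3_eq_legendreSym (d : ℤ) : chi3 d = legendreSym 3 d := by
  unfold chi3
  exact (jacobiSym.legendreSym.to_jacobiSym 3 d).symm

theorem chi3_mul_self {d : ℤ} (hd : ¬ (3 : ℤ) ∣ d) : chi3 d * chi3 d = 1 := by
  rcases chi3_cases d with ⟨h, h'⟩ | ⟨h, h'⟩ | ⟨h, h'⟩
  · omega
  · rw [h']; norm_num
  · rw [h']; norm_num

theorem not_three_dvd_of_mem {N : ℕ} (h3 : 3 ∣ N) {γ : SL(2, ℤ)} (hγ : γ ∈ Gamma0 N) :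
    ¬ (3 : ℤ) ∣ γ 1 1 := by
  intro h
  have hdet := det_eq γ
  have h1 : (N : ℤ) ∣ γ 1 0 := by
    rw [Gamma0_mem] at hγ
    exact (ZMod.intCast_zmod_eq_zero_iff_dvd _ _).1 hγ
  have h2 : (3 : ℤ) ∣ γ 1 0 := (Int.natCast_dvd_natCast.mpr h3).trans h1
  have h4 : (3 : ℤ) ∣ 1 := by
    rw [← hdet]
    exact dvd_sub (Dvd.dvd.mul_left h _) (Dvd.dvd.mul_left h2 _)
  omega

theorem mem_Gamma0_of_dvd {M N : ℕ} (h : M ∣ N) {γ : SL(2, ℤ)} (hγ : γ ∈ Gamma0 N) :
    γ ∈ Gamma0 M := by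
  rw [Gamma0_mem] at hγ ⊢
  exact (ZMod.intCast_zmod_eq_zero_iff_dvd _ _).2
    ((Int.natCast_dvd_natCast.mpr h).trans ((ZMod.intCast_zmod_eq_zero_iff_dvd _ _).1 hγ))

/-! ### The product with `θ` -/

variable {N : ℕ} [NeZero N]

/-- Weight one forms with character `χ_{-3}` on `Γ₀(N)`. -/
def IsChi3 (f : CuspForm (Gamma1 N) 1) : Prop :=
  ∀ γ ∈ Gamma0 N, (⇑f ∣[(1 : ℤ)] γ) = ((chi3 (γ 1 1) : ℤ) : ℂ) • ⇑f

theorem isZero_slash (f : CuspForm (Gamma1 N) 1) (g : SL(2, ℤ)) :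
    IsZeroAtImInfty (⇑f ∣[(1 : ℤ)] g) := CuspFormClass.zero_at_infty_slash f g

/-- `f θ` as a weight two cusp form on `Γ₀(N)`. -/
def mulTheta (h3 : 3 ∣ N) (f : CuspForm (Gamma1 N) 1) (hf : IsChi3 f) : CuspForm (Gamma0 N) 2 :=
  mkCuspForm (Gamma0 N) 2 (⇑f * thetaK 3)
    (fun γ hγ => by
      have e : (2 : ℤ) = 1 + 1 := rfl
      rw [e, mul_slash_SL2, hf γ hγ, theta3_slash (mem_Gamma0_of_dvd h3 hγ),
        ← chi3_eq_legendreSym]
      have h1 := chi3_mul_self (not_three_dvd_of_mem h3 hγ)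
      have h2 : ((chi3 (γ 1 1) : ℤ) : ℂ) * ((chi3 (γ 1 1) : ℤ) : ℂ) = 1 := by exact_mod_cast h1
      funext τ
      simp only [Pi.mul_apply, Pi.smul_apply, smul_eq_mul]
      linear_combination (f τ * thetaK 3 τ) * h2)
    (f.holo'.mul (mdiff_thetaK (by norm_num)))
    (fun g => by
      have e : (2 : ℤ) = 1 + 1 := rfl
      rw [e, mul_slash_SL2]
      exact isZeroAtImInfty_mul_bounded (isZero_slash f g) (bdd_theta3_slash g))

theorem coe_mulTheta (h3 : 3 ∣ N) (f : CuspForm (Gamma1 N) 1) (hf : IsChi3 f) :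
    ⇑(mulTheta h3 f hf) = ⇑f * thetaK 3 := rfl

/-- The integral power series of `θ`. -/
def thetaPS : PowerSeries ℤ := PowerSeries.mk fun n => ((rK 3 (n : ℤ) : ℕ) : ℤ)

theorem qExpansion_mulTheta (h3 : 3 ∣ N) (f : CuspForm (Gamma1 N) 1) (hf : IsChi3 f) :
    qExpansion 1 ⇑(mulTheta h3 f hf) =
      qExpansion 1 ⇑f * thetaPS.map (Int.castRingHom ℂ) := by
  rw [coe_mulTheta, UpperHalfPlane.qExpansion_mul (good f).analyticAt good_theta3.analyticAt]
  congr 1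
  ext n
  rw [PowerSeries.coeff_map, thetaPS, PowerSeries.coeff_mk]
  have := qCoeff_theta3 n
  rw [qCoeff] at this
  rw [this]
  simp

theorem constantCoeff_thetaPS : PowerSeries.constantCoeff thetaPS = 1 := by
  rw [← PowerSeries.coeff_zero_eq_constantCoeff_apply, thetaPS, PowerSeries.coeff_mk]
  have := rK_zero (q := 3) (by norm_num)
  rw [Nat.cast_zero, this, Nat.cast_one]

/-- `θ` is invertible over `ℤ`. -/
theorem exists_inv_thetaPS : ∃ S : PowerSeries ℤ, thetaPS * S = 1 := by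
  have h : IsUnit thetaPS := by
    rw [PowerSeries.isUnit_iff_constantCoeff, constantCoeff_thetaPS]
    exact isUnit_one
  exact h.exists_right_inv

theorem qCoeff_mulTheta (h3 : 3 ∣ N) (f : CuspForm (Gamma1 N) 1) (hf : IsChi3 f) (n : ℕ) :
    qCoeff ⇑(mulTheta h3 f hf) n =
      ∑ ij ∈ Finset.HasAntidiagonal.antidiagonal n, qCoeff ⇑f ij.1 * (((rK 3 (ij.2 : ℤ) : ℕ) : ℤ) : ℂ) := by
  rw [qCoeff, qExpansion_mulTheta, PowerSeries.coeff_mul]
  refine Finset.sum_congr rfl fun ij _ => ?_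
  rw [PowerSeries.coeff_map, thetaPS, PowerSeries.coeff_mk]
  rfl

/-- The coefficients of a weight one form span a finitely generated group. -/
theorem fg_coeff (hint : CuspForm.HasIntegralStructure N 2) (h3 : 3 ∣ N)
    (f : CuspForm (Gamma1 N) 1) (hf : IsChi3 f) :
    (Submodule.span ℤ (Set.range fun n => qCoeff ⇑f n)).FG := by
  -- the coefficients of `F = f θ`
  set F := mulTheta h3 f hf with hF
  have h1 : ∃ M : Submodule ℤ ℂ, M.FG ∧ ∀ n, qCoeff ⇑F n ∈ M := by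
    have hmem : F ∈ (⊤ : Submodule ℂ (CuspForm (Gamma0 N) 2)) := trivial
    rw [← hint] at hmem
    refine Submodule.span_induction (p := fun (F : CuspForm (Gamma0 N) 2) _ => ∃ M : Submodule ℤ ℂ, M.FG ∧
      ∀ n, qCoeff ⇑F n ∈ M) ?_ ?_ ?_ ?_ hmem
    · intro g hg
      refine ⟨Submodule.span ℤ {1}, Submodule.fg_span_singleton _, fun n => ?_⟩
      obtain ⟨m, hm⟩ := (mem_intLattice_iff g).mp hg n
      rw [hm, Submodule.mem_span_singleton]
      exact ⟨m, by simp⟩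
    · exact ⟨⊥, Submodule.fg_bot, fun n => by rw [qc_zero]; exact Submodule.zero_mem _⟩
    · rintro g g' - - ⟨M, hM, hgM⟩ ⟨M', hM', hgM'⟩
      refine ⟨M ⊔ M', hM.sup hM', fun n => ?_⟩
      rw [qc_add]
      exact Submodule.add_mem_sup (hgM n) (hgM' n)
    · rintro c g - ⟨M, hM, hgM⟩
      refine ⟨M.map ((LinearMap.mulLeft ℂ c).restrictScalars ℤ), hM.map _, fun n => ?_⟩
      rw [qc_smul]
      exact Submodule.mem_map_of_mem (f := (LinearMap.mulLeft ℂ c).restrictScalars ℤ) (hgM n)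
  obtain ⟨M, hM, hFM⟩ := h1
  refine Submodule.FG.of_le hM (Submodule.span_le.mpr ?_)
  rintro _ ⟨n, rfl⟩
  -- `f = F θ⁻¹`
  obtain ⟨S, hS⟩ := exists_inv_thetaPS
  have h2 : qExpansion 1 ⇑f = qExpansion 1 ⇑F * S.map (Int.castRingHom ℂ) := by
    rw [hF, qExpansion_mulTheta, mul_assoc, ← map_mul, hS, map_one, mul_one]
  change (qExpansion 1 ⇑f).coeff n ∈ M
  rw [h2, PowerSeries.coeff_mul]
  refine Submodule.sum_mem _ fun ij _ => ?_
  rw [PowerSeries.coeff_map, mul_comm, eq_intCast, ← zsmul_eq_mul]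
  exact Submodule.smul_mem _ _ (hFM _)

/-- There is a coefficient of maximal valuation. -/
theorem exists_max_coeff (B : ValuationSubring ℂ) (a : ℕ → ℂ)
    (hfg : (Submodule.span ℤ (Set.range a)).FG) :
    ∃ m, ∀ n, B.valuation (a n) ≤ B.valuation (a m) := by
  rw [Submodule.fg_span_iff_fg_span_finset_subset] at hfg
  obtain ⟨s, hs, hspan⟩ := hfg
  by_cases hne : s.Nonempty
  · obtain ⟨x, hx, hmax⟩ := Finset.exists_max_image s (fun x => B.valuation x) hne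
    obtain ⟨m, hm⟩ := hs hx
    refine ⟨m, fun n => ?_⟩
    have h1 : a n ∈ Submodule.span ℤ (s : Set ℂ) := by
      rw [← hspan]; exact Submodule.subset_span ⟨n, rfl⟩
    rw [hm]
    refine Submodule.span_induction (p := fun y _ => B.valuation y ≤ B.valuation x) ?_ ?_ ?_ ?_ h1
    · exact fun y hy => hmax y hy
    · rw [map_zero]; exact zero_le
    · exact fun y z _ _ hy hz => (B.valuation.map_add y z).trans (max_le hy hz)
    · intro c y _ hy
      rw [zsmul_eq_mul, map_mul]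
      refine (mul_le_of_le_one_left' ?_).trans hy
      exact (B.valuation_le_one_iff _).mpr (intCast_mem B c)
  · rw [Finset.not_nonempty_iff_eq_empty] at hne
    refine ⟨0, fun n => ?_⟩
    have h1 : ∀ n, a n = 0 := by
      intro n
      have h1 : a n ∈ Submodule.span ℤ (s : Set ℂ) := by
        rw [← hspan]; exact Submodule.subset_span ⟨n, rfl⟩
      rw [hne] at h1
      simpa using h1
    rw [h1, h1]

omit [NeZero N] in
theorem IsChi3.smul {f : CuspForm (Gamma1 N) 1} (hf : IsChi3 f) (c : ℂ) : IsChi3 (c • f) := by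
  intro γ hγ
  have h : ⇑(c • f) = c • ⇑f := rfl
  rw [h, SL_smul_slash, hf γ hγ, smul_comm]

/-- **Weight one to weight two.** -/
theorem exists_weightTwo (hint : CuspForm.HasIntegralStructure N 2) (h3 : 3 ∣ N)
    (B : ValuationSubring ℂ) (hB : B.valuation (3 : ℂ) < 1)
    (f : CuspForm (Gamma1 N) 1) (hχ : IsChi3 f) (hf : f ≠ 0) :
    ∃ h : CuspForm (Gamma0 N) 2, h.IsNormalizedEigenform ∧
      (∀ ℓ : ℕ, ℓ.Prime → qCoeff ⇑h ℓ ∈ B) ∧
      ∀ ℓ : ℕ, ℓ.Prime → ¬ ℓ ∣ N → ∀ c : ℂ,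
        (∀ n, qCoeff ⇑f (ℓ * n) + (if ℓ ∣ n then ((chi3 ℓ : ℤ) : ℂ) * qCoeff ⇑f (n / ℓ) else 0) =
          c * qCoeff ⇑f n) →
        c ∈ B ∧ B.valuation (qCoeff ⇑h ℓ - c) < 1 := by
  obtain ⟨m, hm⟩ := exists_max_coeff B (fun n => qCoeff ⇑f n) (fg_coeff hint h3 f hχ)

  have hm0 : qCoeff ⇑f m ≠ 0 := by
    intro h0
    apply hf
    refine ext_qc fun n => ?_
    have h1 := hm n
    rw [h0, map_zero, le_zero_iff, map_eq_zero] at h1
    rw [qc_apply, h1, map_zero]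
  -- normalise
  set f' : CuspForm (Gamma1 N) 1 := (qCoeff ⇑f m)⁻¹ • f with hf'
  have hχ' : IsChi3 f' := hχ.smul _
  have hcoef : ∀ n, qCoeff ⇑f' n = (qCoeff ⇑f m)⁻¹ * qCoeff ⇑f n := by
    intro n
    exact (good f).qCoeff_smul _ n
  have hB1 : ∀ n, B.valuation (qCoeff ⇑f' n) ≤ 1 := by
    intro n
    rw [hcoef, map_mul, map_inv₀, mul_comm, ← div_eq_mul_inv]
    exact div_le_one_of_le₀ (hm n) zero_le
  have hunit : qCoeff ⇑f' m = 1 := by rw [hcoef, inv_mul_cancel₀ hm0]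
  set F := mulTheta h3 f' hχ' with hF
  have hr : ∀ n : ℕ, n ≠ 0 → B.valuation (((rK 3 (n : ℤ) : ℕ) : ℤ) : ℂ) < 1 := by
    intro n hn
    obtain ⟨k, hk⟩ := three_dvd_rK (n := (n : ℤ)) (by exact_mod_cast hn)
    rw [hk]
    push_cast
    rw [mul_comm]
    exact val_mul_lt B ((B.valuation_le_one_iff _).mpr (natCast_mem B k)) hB
  have hr0 : (((rK 3 ((0 : ℕ) : ℤ) : ℕ) : ℤ) : ℂ) = 1 := by
    rw [Nat.cast_zero, rK_zero (by norm_num)]; simp
  have hFf : ∀ n, B.valuation (qCoeff ⇑F n - qCoeff ⇑f' n) < 1 := by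
    intro n
    rw [hF, qCoeff_mulTheta]
    have h1 : (n, 0) ∈ Finset.HasAntidiagonal.antidiagonal n := by simp
    rw [← Finset.add_sum_erase _ _ h1]
    simp only
    rw [hr0, mul_one, add_sub_cancel_left]
    refine Valuation.map_sum_lt _ one_ne_zero fun ij hij => ?_
    rw [Finset.mem_erase, Finset.HasAntidiagonal.mem_antidiagonal] at hij
    refine val_mul_lt B (hB1 _) (hr _ ?_)
    rintro h0
    apply hij.1
    have := hij.2
    rw [h0, add_zero] at this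
    exact Prod.ext this h0
  have hFm : ¬ ∀ n, B.valuation (qCoeff ⇑F n) < 1 := by
    intro hall
    have h1 : B.valuation (1 : ℂ) < 1 := by
      have h2 : (1 : ℂ) = qCoeff ⇑F m - (qCoeff ⇑F m - qCoeff ⇑f' m) := by rw [hunit]; ring
      rw [h2]
      exact (B.valuation.map_sub _ _).trans_lt (max_lt (hall m) (hFf m))
    rw [map_one] at h1
    exact lt_irrefl _ h1
  obtain ⟨h, hh, hhB, hcong⟩ := exists_eigenform_of_valuation hint B F hFm
  refine ⟨h, hh, hhB, fun ℓ hℓ hℓN c hc => ?_⟩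
  have hc' : ∀ n, qCoeff ⇑f' (ℓ * n) +
      (if ℓ ∣ n then ((chi3 ℓ : ℤ) : ℂ) * qCoeff ⇑f' (n / ℓ) else 0) = c * qCoeff ⇑f' n := by
    intro n
    have h1 := hc n
    rw [hcoef, hcoef, hcoef]
    split_ifs at h1 ⊢ <;> linear_combination (qCoeff ⇑f m)⁻¹ * h1
  have hcB : c ∈ B := by
    have h1 := hc' m
    rw [hunit, mul_one] at h1
    rw [← h1]
    refine B.add_mem _ _ ((B.valuation_le_one_iff _).mp (hB1 _)) ?_
    split_ifs
    · exact B.mul_mem _ _ (intCast_mem B _) ((B.valuation_le_one_iff _).mp (hB1 _))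
    · exact B.zero_mem
  refine ⟨hcB, hcong ℓ hℓ c hcB fun n => ?_⟩
  rw [qc_gen, mul_comm n ℓ]
  have hℓχ : B.valuation ((ℓ : ℂ) - ((chi3 ℓ : ℤ) : ℂ)) < 1 := by
    obtain ⟨k, hk⟩ := three_dvd_sub_chi3 (ℓ : ℤ)
    have h1 : (ℓ : ℂ) - ((chi3 ℓ : ℤ) : ℂ) = (k : ℂ) * 3 := by
      have h2 := congrArg (Int.cast : ℤ → ℂ) hk
      push_cast at h2
      rw [h2]; ring
    rw [h1]
    exact val_mul_lt B ((B.valuation_le_one_iff _).mpr (intCast_mem B k)) hB
  -- everything modulo the maximal ideal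
  have e1 := hFf (ℓ * n)
  have e2 := hFf (n / ℓ)
  have e3 := hFf n
  by_cases hd : ℓ ∣ n
  · rw [if_pos ⟨hd, hℓN⟩]
    have e := hc' n
    rw [if_pos hd] at e
    have key : qCoeff ⇑F (ℓ * n) + (ℓ : ℂ) ^ ((2 : ℤ) - 1) * qCoeff ⇑F (n / ℓ) - c * qCoeff ⇑F n =
        (qCoeff ⇑F (ℓ * n) - qCoeff ⇑f' (ℓ * n)) +
        (ℓ : ℂ) * (qCoeff ⇑F (n / ℓ) - qCoeff ⇑f' (n / ℓ)) +
        qCoeff ⇑f' (n / ℓ) * ((ℓ : ℂ) - ((chi3 ℓ : ℤ) : ℂ)) +
        (-c) * (qCoeff ⇑F n - qCoeff ⇑f' n) := by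
      rw [show (2 : ℤ) - 1 = 1 from rfl, zpow_one]
      linear_combination e
    rw [key]
    refine Valuation.map_add_lt _ (Valuation.map_add_lt _ (Valuation.map_add_lt _ e1 ?_) ?_) ?_
    · exact val_mul_lt B ((B.valuation_le_one_iff _).mpr (natCast_mem B ℓ)) e2
    · exact val_mul_lt B (hB1 _) hℓχ
    · exact val_mul_lt B ((B.valuation_le_one_iff _).mpr (B.neg_mem _ hcB)) e3
  · rw [if_neg fun h => hd h.1]
    have e := hc' n
    rw [if_neg hd] at e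
    have key : qCoeff ⇑F (ℓ * n) + 0 - c * qCoeff ⇑F n =
        (qCoeff ⇑F (ℓ * n) - qCoeff ⇑f' (ℓ * n)) + (-c) * (qCoeff ⇑F n - qCoeff ⇑f' n) := by
      linear_combination e
    rw [key]
    refine Valuation.map_add_lt _ e1 ?_
    exact val_mul_lt B ((B.valuation_le_one_iff _).mpr (B.neg_mem _ hcB)) e3

end Fermat.Agent.LT.K
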