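import Fermat.Agent.LT.K.GL23

/-!
# LT piece K: subgroups of `GL₂(𝔽₃)`

`SLs_le_of_order_three`: an irreducible subgroup containing an element of order three contains
`SL₂(𝔽₃)`. `reducible_of_central_involution`.
-/

set_option autoImplicit false

open Matrix

namespace Fermat.Agent.LT.K

/-- upper unipotent elements -/
def Tu (a : ZMod 3) : G3 := mk4 1 a 0 1 (by ring)

/-- lower unipotent elements -/
def Tl (c : ZMod 3) : G3 := mk4 1 0 c 1 (by ring)

theorem Tu_mul (a b : ZMod 3) : Tu a * Tu b = Tu (a + b) := by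
  refine G3.ext' ?_ ?_ ?_ ?_ <;> simp [Tu, add_comm]

theorem Tl_mul (a b : ZMod 3) : Tl a * Tl b = Tl (a + b) := by
  refine G3.ext' ?_ ?_ ?_ ?_ <;> simp [Tl]

theorem Tu_mem {G : Subgroup G3} {a : ZMod 3} (ha : a ≠ 0) (h : Tu a ∈ G) (b : ZMod 3) :
    Tu b ∈ G := by
  have h0 : Tu 0 ∈ G := by
    have : Tu 0 = 1 := by refine G3.ext' ?_ ?_ ?_ ?_ <;> simp [Tu]
    rw [this]; exact G.one_mem
  have h2 : Tu (a + a) ∈ G := by rw [← Tu_mul]; exact G.mul_mem h h
  have key : ∀ a b : ZMod 3, a ≠ 0 → b = 0 ∨ b = a ∨ b = a + a := by decide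
  rcases key a b ha with rfl | rfl | rfl
  · exact h0
  · exact h
  · exact h2

theorem Tl_mem {G : Subgroup G3} {a : ZMod 3} (ha : a ≠ 0) (h : Tl a ∈ G) (b : ZMod 3) :
    Tl b ∈ G := by
  have h0 : Tl 0 ∈ G := by
    have : Tl 0 = 1 := by refine G3.ext' ?_ ?_ ?_ ?_ <;> simp [Tl]
    rw [this]; exact G.one_mem
  have h2 : Tl (a + a) ∈ G := by rw [← Tl_mul]; exact G.mul_mem h h
  have key : ∀ a b : ZMod 3, a ≠ 0 → b = 0 ∨ b = a ∨ b = a + a := by decide
  rcases key a b ha with rfl | rfl | rfl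
  · exact h0
  · exact h
  · exact h2

theorem SLs_le_of_transvections {G : Subgroup G3} {a c : ZMod 3} (ha : a ≠ 0) (hc : c ≠ 0)
    (h1 : Tu a ∈ G) (h2 : Tl c ∈ G) : SLs ≤ G := by
  have hu := Tu_mem ha h1
  have hl := Tl_mem hc h2
  have main : ∀ g : G3, dt g = 1 → g 1 0 ≠ 0 → g ∈ G := by
    intro g hg hg0
    have h3 : g = Tu ((g 0 0 - 1) * g 1 0) * Tl (g 1 0) * Tu ((g 1 1 - 1) * g 1 0) := by
      have key : ∀ a b c d : ZMod 3, a * d - b * c = 1 → c ≠ 0 →
        (a = 1 + (a - 1) * c * c ∧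
          b = (1 + (a - 1) * c * c) * ((d - 1) * c) + (a - 1) * c ∧
          d = c * ((d - 1) * c) + 1) := by decide +kernel
      obtain ⟨k1, k2, k3⟩ := key _ _ _ _ hg hg0
      refine G3.ext' ?_ ?_ ?_ ?_
      · simpa [Tu, Tl] using k1
      · simpa [Tu, Tl] using k2
      · simp [Tu, Tl]
      · simpa [Tu, Tl] using k3
    rw [h3]
    exact G.mul_mem (G.mul_mem (hu _) (hl _)) (hu _)
  intro g hg
  by_cases h0 : g 1 0 = 0
  · have h4 : Tl 1 * g ∈ G := by
      apply main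
      · rw [dt_mul, show dt (Tl 1) = 1 by decide, one_mul]; exact hg
      · have h5 : dt g = 1 := hg
        rw [dt, h0, mul_zero, sub_zero] at h5
        simp only [Tl, mul10, mk4_10, mk4_11, one_mul, h0, add_zero]
        intro h6
        rw [h6, zero_mul] at h5
        exact zero_ne_one h5
    have h6 := G.mul_mem (G.inv_mem (hl 1)) h4
    rwa [inv_mul_cancel_left] at h6
  · exact main g hg h0

theorem eq_top_of_SLs_le {G : Subgroup G3} (h : SLs ≤ G) (hd : ∃ g ∈ G, dt g = -1) : G = ⊤ := by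
  obtain ⟨c, hc, hdc⟩ := hd
  rw [eq_top_iff]
  intro g _
  rcases dt_eq_or g with h1 | h1
  · exact h h1
  · have h2 : g * c⁻¹ ∈ SLs := by
      rw [mem_SLs, dt_mul, dt_inv, h1, hdc]; ring
    have h3 := G.mul_mem (h h2) hc
    rwa [inv_mul_cancel_right] at h3

/-- A subgroup of `GL₂(𝔽₃)` without stable line. -/
def Irr (G : Subgroup G3) : Prop :=
  ∀ x y : ZMod 3, ¬ (x = 0 ∧ y = 0) → ∃ h ∈ G,
    x * (h 1 0 * x + h 1 1 * y) - y * (h 0 0 * x + h 0 1 * y) ≠ 0

theorem conj_eq_of_mul_eq {g m t : G3} (h : g * m = m * t) : m⁻¹ * g * m = t := by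
  rw [mul_assoc, h, inv_mul_cancel_left]

set_option synthInstance.maxHeartbeats 200000 in
set_option synthInstance.maxSize 4000 in
theorem fact_unip : ∀ a b c d x y x' y' : ZMod 3, (a * d - b * c = 1 ∧ a + d = 2) →
      ¬ (a = 1 ∧ b = 0 ∧ c = 0 ∧ d = 1) → (x * y' - x' * y) * (x * y' - x' * y) = 1 →
      (a * x + b * y = x ∧ c * x + d * y = y) →
      ∃ k : ZMod 3, k ≠ 0 ∧ a * x' + b * y' = x * k + x' ∧ c * x' + d * y' = y * k + y' := by
  decide +kernel

theorem SLs_le_of_order_three {G : Subgroup G3} {g : G3} (hg : g ∈ G) (hg3 : g ^ 3 = 1)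
    (hg1 : g ≠ 1) (hirr : Irr G) : SLs ≤ G := by
  -- `g` is unipotent
  have hun : g 0 0 * g 1 1 - g 0 1 * g 1 0 = 1 ∧ g 0 0 + g 1 1 = 2 := by
    have h3 : (g * g) * g = 1 := by rw [← hg3, pow_succ, sq]
    rw [G3.ext_iff'] at h3
    simp only [mul00, mul01, mul10, mul11, one00, one01, one10, one11] at h3
    have key : ∀ a b c d : ZMod 3, ((a * a + b * c) * a + (a * b + b * d) * c = 1 ∧
      (a * a + b * c) * b + (a * b + b * d) * d = 0 ∧
      (c * a + d * c) * a + (c * b + d * d) * c = 0 ∧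
      (c * a + d * c) * b + (c * b + d * d) * d = 1) →
      a * d - b * c = 1 ∧ a + d = 2 := by decide +kernel
    exact key _ _ _ _ h3
  have hne : ¬ (g 0 0 = 1 ∧ g 0 1 = 0 ∧ g 1 0 = 0 ∧ g 1 1 = 1) := by
    intro h; exact hg1 (G3.ext_iff'.mpr h)
  -- a fixed vector
  obtain ⟨x, y, hxy, hfx, hfy⟩ : ∃ x y : ZMod 3, ¬ (x = 0 ∧ y = 0) ∧
      g 0 0 * x + g 0 1 * y = x ∧ g 1 0 * x + g 1 1 * y = y := by
    have key : ∀ a b c d : ZMod 3, (a * d - b * c = 1 ∧ a + d = 2) →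
      ∃ x y : ZMod 3, ¬ (x = 0 ∧ y = 0) ∧ a * x + b * y = x ∧ c * x + d * y = y := by
      decide +kernel
    exact key _ _ _ _ hun
  obtain ⟨h, hh, hne2⟩ := hirr x y hxy
  set x' := h 0 0 * x + h 0 1 * y with hx'
  set y' := h 1 0 * x + h 1 1 * y with hy'
  have hdet : (x * y' - x' * y) * (x * y' - x' * y) = 1 := by
    have key : ∀ t : ZMod 3, t ≠ 0 → t * t = 1 := by decide
    exact key _ (by rwa [mul_comm x' y])
  set m : G3 := mk4 x x' y y' hdet with hm
  -- general fact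
  have fact := fact_unip
  obtain ⟨k, hk, hk1, hk2⟩ := fact _ _ _ _ x y x' y' hun hne hdet ⟨hfx, hfy⟩
  have h1 : m⁻¹ * g * m = Tu k := by
    apply conj_eq_of_mul_eq
    refine G3.ext' ?_ ?_ ?_ ?_ <;> simp only [mul00, mul01, mul10, mul11, hm, Tu, mk4_00, mk4_01,
      mk4_10, mk4_11, mul_one, mul_zero, add_zero]
    · exact hfx
    · exact hk1
    · exact hfy
    · exact hk2
  -- the conjugate
  set g' : G3 := h * g * h⁻¹ with hg'
  have hg'G : g' ∈ G := G.mul_mem (G.mul_mem hh hg) (G.inv_mem hh)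
  have hg'3 : g' ^ 3 = 1 := by rw [hg', conj_pow, hg3, mul_one, mul_inv_cancel]
  have hg'1 : g' ≠ 1 := by
    intro e
    apply hg1
    rw [hg', mul_inv_eq_one] at e
    exact mul_eq_left.mp e
  have hun' : g' 0 0 * g' 1 1 - g' 0 1 * g' 1 0 = 1 ∧ g' 0 0 + g' 1 1 = 2 := by
    have h3 : (g' * g') * g' = 1 := by rw [← hg'3, pow_succ, sq]
    rw [G3.ext_iff'] at h3
    simp only [mul00, mul01, mul10, mul11, one00, one01, one10, one11] at h3
    have key : ∀ a b c d : ZMod 3, ((a * a + b * c) * a + (a * b + b * d) * c = 1 ∧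
      (a * a + b * c) * b + (a * b + b * d) * d = 0 ∧
      (c * a + d * c) * a + (c * b + d * d) * c = 0 ∧
      (c * a + d * c) * b + (c * b + d * d) * d = 1) →
      a * d - b * c = 1 ∧ a + d = 2 := by decide +kernel
    exact key _ _ _ _ h3
  have hne' : ¬ (g' 0 0 = 1 ∧ g' 0 1 = 0 ∧ g' 1 0 = 0 ∧ g' 1 1 = 1) := by
    intro h; exact hg'1 (G3.ext_iff'.mpr h)
  have hg'h : g' * h = h * g := by rw [hg', inv_mul_cancel_right]
  have hfix' : g' 0 0 * x' + g' 0 1 * y' = x' ∧ g' 1 0 * x' + g' 1 1 * y' = y' := by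
    have e := G3.ext_iff'.mp hg'h
    simp only [mul00, mul01, mul10, mul11] at e
    obtain ⟨e1, e2, e3, e4⟩ := e
    constructor
    · rw [hx', hy']
      linear_combination x * e1 + y * e2 + h 0 0 * hfx + h 0 1 * hfy
    · rw [hx', hy']
      linear_combination x * e3 + y * e4 + h 1 0 * hfx + h 1 1 * hfy
  obtain ⟨k', hk', hk1', hk2'⟩ := fact _ _ _ _ x' y' x y hun' hne' (by
    have : (x' * y - x * y') * (x' * y - x * y') = (x * y' - x' * y) * (x * y' - x' * y) := by ring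
    rw [this]; exact hdet) hfix'
  have h2 : m⁻¹ * g' * m = Tl k' := by
    apply conj_eq_of_mul_eq
    refine G3.ext' ?_ ?_ ?_ ?_ <;> simp only [mul00, mul01, mul10, mul11, hm, Tl, mk4_00, mk4_01,
      mk4_10, mk4_11, mul_one, mul_zero, zero_add]
    · rw [hk1', add_comm]
    · exact hfix'.1
    · rw [hk2', add_comm]
    · exact hfix'.2
  -- conclude by conjugation
  let G' : Subgroup G3 := G.comap (MulAut.conj m).toMonoidHom
  have hG' : ∀ t : G3, t ∈ G' ↔ m * t * m⁻¹ ∈ G := fun t => Iff.rfl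
  have h3 : SLs ≤ G' := by
    refine SLs_le_of_transvections hk hk' ((hG' _).mpr ?_) ((hG' _).mpr ?_)
    · rw [← h1]
      convert hg using 1
      group
    · rw [← h2]
      convert hg'G using 1
      group
  intro t ht
  have h4 : m⁻¹ * t * m ∈ SLs := by
    rw [mem_SLs, dt_mul, dt_mul, dt_inv, mem_SLs.mp ht]
    have := dt_mul_self m
    linear_combination this
  have h5 := (hG' _).mp (h3 h4)
  convert h5 using 1
  group

/-- An involution of determinant `-1` central in `G` gives a stable line. -/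
theorem not_irr_of_central_involution {G : Subgroup G3} {c : G3} (hc2 : c * c = 1)
    (hdc : dt c = -1) (hcen : ∀ g ∈ G, g * c = c * g) : ¬ Irr G := by
  intro hirr
  rw [G3.ext_iff'] at hc2
  simp only [mul00, mul01, mul10, mul11, one00, one01, one10, one11] at hc2
  obtain ⟨x, y, hxy, hfx, hfy⟩ : ∃ x y : ZMod 3, ¬ (x = 0 ∧ y = 0) ∧
      c 0 0 * x + c 0 1 * y = x ∧ c 1 0 * x + c 1 1 * y = y := by
    have key : ∀ a b c d : ZMod 3, (a * a + b * c = 1 ∧ a * b + b * d = 0 ∧ c * a + d * c = 0 ∧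
        c * b + d * d = 1) → a * d - b * c = -1 →
      ∃ x y : ZMod 3, ¬ (x = 0 ∧ y = 0) ∧ a * x + b * y = x ∧ c * x + d * y = y := by
      decide +kernel
    exact key _ _ _ _ hc2 hdc
  obtain ⟨h, hh, hne⟩ := hirr x y hxy
  have e := G3.ext_iff'.mp (hcen h hh)
  simp only [mul00, mul01, mul10, mul11] at e
  obtain ⟨e1, e2, e3, e4⟩ := e
  set x' := h 0 0 * x + h 0 1 * y with hx'
  set y' := h 1 0 * x + h 1 1 * y with hy'
  have hfx' : c 0 0 * x' + c 0 1 * y' = x' := by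
    rw [hx', hy']
    linear_combination -x * e1 - y * e2 + h 0 0 * hfx + h 0 1 * hfy
  have hfy' : c 1 0 * x' + c 1 1 * y' = y' := by
    rw [hx', hy']
    linear_combination -x * e3 - y * e4 + h 1 0 * hfx + h 1 1 * hfy
  have key : ∀ a b c d x y x' y' : ZMod 3, a * d - b * c = -1 →
      (a * x + b * y = x ∧ c * x + d * y = y) → (a * x' + b * y' = x' ∧ c * x' + d * y' = y') →
      x * y' - y * x' = 0 := by decide +kernel
  exact hne (key _ _ _ _ x y x' y' hdc ⟨hfx, hfy⟩ ⟨hfx', hfy'⟩)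

end Fermat.Agent.LT.K
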