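import Mathlib
import Fermat.Prelude.Def_FLTPrelim_Modularity
import Fermat.Agent.S16.ThetaK
import Fermat.Agent.S16.Gamma0Tools
import Fermat.Agent.JAN.EisCharB
import Fermat.Agent.DS.Hecke1Ops

/-!
# LT piece K: the weight one theta series of `ℤ[ω]`

`thetaK 3` is a modular form of weight one on `Γ₀(3)` with character `χ_{-3}`, and is
congruent to `1` modulo `3`.

(helper51, LT/K.)
-/

set_option autoImplicit false

noncomputable section

open UpperHalfPlane ModularForm ModularFormClass CongruenceSubgroup ModularGroup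
open scoped MatrixGroups ModularForm Manifold Topology Real

namespace Fermat.Agent.LT.K

open Fermat.Agent.Eis Fermat.Agent.Eis.ThetaK Fermat.Agent.DS.Hecke1

instance fact_prime_three' : Fact (Nat.Prime 3) := ⟨Nat.prime_three⟩

/-! ### Coefficients are divisible by three -/

/-- multiplication by a cube root of unity on the norm form `x² + xy + y²`. -/
def rot : Equiv.Perm (ℤ × ℤ) where
  toFun u := (-u.1 - u.2, u.1)
  invFun u := (u.2, -u.1 - u.2)
  left_inv u := Prod.ext (by simp only) (by simp only; ring)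
  right_inv u := Prod.ext (by simp only; ring) (by simp only)

theorem rot_apply (u : ℤ × ℤ) : rot u = (-u.1 - u.2, u.1) := rfl

theorem normK_rot (u : ℤ × ℤ) : normK 3 (rot u) = normK 3 u := by
  simp only [normK, rot_apply]
  norm_num
  ring

theorem three_dvd_rK {n : ℤ} (hn : n ≠ 0) : 3 ∣ rK 3 n := by
  have hfin : Finite {u : ℤ × ℤ // normK 3 u = n} := finite_fiber (by norm_num) n
  have : Fintype {u : ℤ × ℤ // normK 3 u = n} := Fintype.ofFinite _
  classical
  let σ : Equiv.Perm {u : ℤ × ℤ // normK 3 u = n} :=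
    { toFun := fun u => ⟨rot u.1, by rw [normK_rot]; exact u.2⟩
      invFun := fun u => ⟨rot.symm u.1, by
        have := normK_rot (rot.symm u.1)
        rw [Equiv.apply_symm_apply] at this
        rw [← this]; exact u.2⟩
      left_inv := fun u => Subtype.ext (rot.symm_apply_apply _)
      right_inv := fun u => Subtype.ext (rot.apply_symm_apply _) }
  have hσ : ∀ u, (σ u).1 = rot u.1 := fun _ => rfl
  have h3 : σ ^ 3 ^ 1 = 1 := by
    ext u
    · simp only [pow_succ, pow_zero, one_mul, Equiv.Perm.mul_apply, hσ, rot_apply,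
        Equiv.Perm.one_apply]
      ring
    · simp only [pow_succ, pow_zero, one_mul, Equiv.Perm.mul_apply, hσ, rot_apply,
        Equiv.Perm.one_apply]
      ring
  have h4 := Equiv.Perm.card_compl_support_modEq h3
  have h5 : σ.supportᶜ = ∅ := by
    rw [Finset.eq_empty_iff_forall_notMem]
    intro u hu
    rw [Finset.mem_compl, Equiv.Perm.mem_support, not_not] at hu
    have h6 := congrArg Subtype.val hu
    rw [hσ, rot_apply] at h6
    have h7 := congrArg Prod.fst h6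
    have h8 := congrArg Prod.snd h6
    simp only at h7 h8
    have h9 : u.1 = 0 := by
      apply Prod.ext
      · simp only [Prod.fst_zero]; omega
      · simp only [Prod.snd_zero]; omega
    apply hn
    rw [← u.2, h9]
    simp [normK]
  rw [h5, Finset.card_empty] at h4
  have h6 : rK 3 n = Fintype.card {u : ℤ × ℤ // normK 3 u = n} := by
    rw [rK, Nat.card_eq_fintype_card]
  rw [h6]
  exact (Nat.modEq_zero_iff_dvd.mp h4.symm)

/-! ### Boundedness -/

theorem norm_thetaK_le {q : ℕ} (hq : q % 4 = 3) : ∃ C : ℝ, ∀ τ : ℍ, 1 ≤ τ.im →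
    ‖thetaK q τ‖ ≤ C := by
  have hs : Summable fun u : ℤ × ℤ => Real.exp (-2 * π * 1 * nR q u.1 u.2) := by
    have := summable_exp_nR (three_le hq) one_pos 0 0
    simpa using this
  refine ⟨∑' u : ℤ × ℤ, Real.exp (-2 * π * 1 * nR q u.1 u.2), fun τ hτ => ?_⟩
  refine tsum_of_norm_bounded hs.hasSum fun u => ?_
  rw [Complex.norm_exp]
  refine Real.exp_le_exp.2 ?_
  have h1 : (2 * π * Complex.I * (normK q u : ℂ) * τ).re = -(2 * π * (normK q u : ℤ) * τ.im) := by
    simp [mul_assoc]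
  rw [h1, normK_cast hq]
  have h2 : 0 ≤ nR q u.1 u.2 := by
    rw [← normK_cast hq]; exact_mod_cast normK_nonneg q hq u
  have h4 : 0 ≤ 2 * π * nR q u.1 u.2 := by positivity
  nlinarith

theorem bdd_theta3 : IsBoundedAtImInfty (thetaK 3) := by
  obtain ⟨C, hC⟩ := norm_thetaK_le (q := 3) (by norm_num)
  rw [isBoundedAtImInfty_iff]
  exact ⟨C, 1, fun z hz => hC z hz⟩

theorem theta3_slash {γ : SL(2, ℤ)} (hγ : γ ∈ Gamma0 3) :
    thetaK 3 ∣[(1 : ℤ)] γ = ((legendreSym 3 (γ 1 1) : ℤ) : ℂ) • thetaK 3 := by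
  funext τ
  rw [SL_slash_apply, thetaK_smul (by norm_num) γ hγ τ, Pi.smul_apply, smul_eq_mul,
    ModularGroup.denom_apply, zpow_neg, zpow_one]
  have h : ((γ 1 0 : ℤ) : ℂ) * (τ : ℂ) + ((γ 1 1 : ℤ) : ℂ) ≠ 0 := by
    rw [← ModularGroup.denom_apply]
    exact UpperHalfPlane.denom_ne_zero _ τ
  field_simp

theorem bdd_theta3_S : IsBoundedAtImInfty (thetaK 3 ∣[(1 : ℤ)] (S : SL(2, ℤ))) := by
  obtain ⟨C, hC⟩ := norm_thetaK_le (q := 3) (by norm_num)
  rw [isBoundedAtImInfty_iff]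
  refine ⟨C, 3, fun τ hτ => ?_⟩
  have him : 0 < ((τ : ℂ) / ((3 : ℕ) : ℂ)).im := by
    have h1 := τ.im_pos
    have h2 : ((τ : ℂ) / ((3 : ℕ) : ℂ)).im = τ.im / 3 := by
      rw [Complex.div_natCast_im]; simp
    rw [h2]
    linarith
  let τ' : ℍ := ⟨(τ : ℂ) / ((3 : ℕ) : ℂ), him⟩
  have h1 : thetaK 3 (S • τ) = (-Complex.I * τ) / Real.sqrt (3 : ℕ) * thetaK 3 τ' :=
    thetaK_inv (by norm_num) τ τ' rfl
  rw [SL_slash_apply, h1, ModularGroup.denom_apply]
  have h2 : ((S : SL(2, ℤ)) 1 0 : ℤ) = 1 := by simp [S]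
  have h3 : ((S : SL(2, ℤ)) 1 1 : ℤ) = 0 := by simp [S]
  rw [h2, h3, zpow_neg, zpow_one]
  have h4 : (τ : ℂ) ≠ 0 := τ.ne_zero
  have h5 : (-Complex.I * τ) / (Real.sqrt (3 : ℕ) : ℂ) * thetaK 3 τ' *
      (((1 : ℤ) : ℂ) * (τ : ℂ) + ((0 : ℤ) : ℂ))⁻¹ =
      -Complex.I / (Real.sqrt (3 : ℕ) : ℂ) * thetaK 3 τ' := by
    push_cast
    rw [one_mul, add_zero]
    field_simp
  rw [h5, norm_mul, norm_div, norm_neg, Complex.norm_I]
  have h6 : ‖thetaK 3 τ'‖ ≤ C := by
    refine hC τ' ?_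
    have h2 : τ'.im = τ.im / 3 := by
      change ((τ : ℂ) / ((3 : ℕ) : ℂ)).im = τ.im / 3
      rw [Complex.div_natCast_im]; simp
    rw [h2]; linarith
  have h7 : (1 : ℝ) ≤ ‖((Real.sqrt (3 : ℕ) : ℝ) : ℂ)‖ := by
    rw [Complex.norm_real, Real.norm_of_nonneg (Real.sqrt_nonneg _)]
    rw [show (1 : ℝ) = Real.sqrt 1 by simp]
    exact Real.sqrt_le_sqrt (by norm_num)
  calc 1 / ‖((Real.sqrt (3 : ℕ) : ℝ) : ℂ)‖ * ‖thetaK 3 τ'‖
      ≤ 1 * ‖thetaK 3 τ'‖ := by
        refine mul_le_mul_of_nonneg_right ?_ (norm_nonneg _)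
        rw [div_le_one (by linarith)]
        exact h7
    _ ≤ C := by rw [one_mul]; exact h6

theorem isBoundedAtImInfty_const_smul {f : ℍ → ℂ} (hf : IsBoundedAtImInfty f) (c : ℂ) :
    IsBoundedAtImInfty (c • f) := hf.const_mul_left c

theorem bdd_theta3_slash (γ : SL(2, ℤ)) : IsBoundedAtImInfty (thetaK 3 ∣[(1 : ℤ)] γ) := by
  rcases gamma0_coset (p := 3) γ with h | ⟨γ', h, j, rfl⟩
  · rw [theta3_slash h]
    exact isBoundedAtImInfty_const_smul bdd_theta3 _
  · rw [SlashAction.slash_mul, theta3_slash h, SL_smul_slash]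
    refine isBoundedAtImInfty_const_smul ?_ _
    rw [SlashAction.slash_mul]
    exact isBoundedAtImInfty_slash_T bdd_theta3_S j

/-! ### `q`-expansion -/

theorem good_theta3 : Good (thetaK 3) where
  per := by
    intro w
    by_cases! hw : 0 < w.im
    · have h1 : 0 < (w + 1).im := by simp [hw]
      simp only [Function.comp_apply, ofComplex_apply_of_im_pos h1, ofComplex_apply_of_im_pos hw]
      exact thetaK_add_int 3 _ _ 1 (by simp)
    · have h1 : (w + 1).im ≤ 0 := by simpa using hw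
      simp [Function.comp_apply, ofComplex_apply_of_im_nonpos h1, ofComplex_apply_of_im_nonpos hw]
  hol := mdiff_thetaK (by norm_num)
  bdd := bdd_theta3

theorem qParam_pow (τ : ℂ) (m : ℕ) :
    Function.Periodic.qParam 1 τ ^ m = Complex.exp (2 * π * Complex.I * m * τ) := by
  rw [Function.Periodic.qParam, ← Complex.exp_nat_mul]
  congr 1
  push_cast
  ring

/-- Uniqueness of `q`-expansions. -/
theorem qCoeff_of_hasSum {f : ℍ → ℂ} (hf : Good f) {c : ℕ → ℂ}
    (h : ∀ τ : ℍ, HasSum (fun n : ℕ => c n * Complex.exp (2 * π * Complex.I * n * τ)) (f τ))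
    (n : ℕ) : qCoeff f n = c n := by
  have h1 : ∀ τ : ℍ, HasSum (fun m : ℕ => c m • Function.Periodic.qParam 1 (τ : ℂ) ^ m)
      ((ContinuousMap.mk f hf.hol.continuous) τ) := by
    intro τ
    have h1 := h τ
    simp only [← qParam_pow] at h1
    exact h1
  have h2 := UpperHalfPlane.qExpansion_coeff_unique (h := 1)
    (ContinuousMap.mk f hf.hol.continuous) one_pos hf.analyticAt h1 n
  rw [h2]
  rfl

theorem qCoeff_theta3 (n : ℕ) : qCoeff (thetaK 3) n = ((rK 3 (n : ℤ) : ℕ) : ℂ) :=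
  qCoeff_of_hasSum (c := fun n : ℕ => ((rK 3 (n : ℤ) : ℕ) : ℂ)) good_theta3
    (fun τ => hasSum_thetaK (q := 3) rfl τ) n

end Fermat.Agent.LT.K
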