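import Fermat.Agent.LT.K.AtkinThree

/-!
# LT piece K-D: the operator `W₃` on weight one forms with character `χ_{-3}`, `3 ∥ N`

(helper51, LT/K.)
-/

set_option autoImplicit false

noncomputable section

open UpperHalfPlane ModularForm ModularFormClass CongruenceSubgroup Matrix.SpecialLinearGroup
open scoped MatrixGroups ModularForm

namespace Fermat.Agent.LT.K

open Fermat.Agent Fermat.Agent.DS.Hecke1 Fermat.Agent.FrobExists

variable {N : ℕ}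

/-- The rational matrix. -/
def WData.glQ (w : WData N) : GL (Fin 2) ℚ :=
  Matrix.GeneralLinearGroup.mkOfDetNeZero (w.mat.map (Int.castRingHom ℚ)) (by
    rw [← RingHom.mapMatrix_apply, ← RingHom.map_det, w.det_mat]
    norm_num)

/-- The real matrix. -/
def WData.gl (w : WData N) : GL (Fin 2) ℝ :=
  Matrix.GeneralLinearGroup.map (Rat.castHom ℝ) w.glQ

theorem WData.gl_val (w : WData N) :
    (w.gl : Matrix (Fin 2) (Fin 2) ℝ) = w.mat.map (Int.castRingHom ℝ) := by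
  ext i j
  simp [WData.gl, WData.glQ, Matrix.GeneralLinearGroup.mkOfDetNeZero]

theorem WData.det_gl (w : WData N) : (w.gl.det : ℝ) = 3 := by
  rw [Matrix.GeneralLinearGroup.val_det_apply, w.gl_val, ← RingHom.mapMatrix_apply,
    ← RingHom.map_det, w.det_mat]
  norm_num

theorem WData.σ_gl (w : WData N) : UpperHalfPlane.σ w.gl = .refl ℝ ℂ := by
  rw [UpperHalfPlane.σ, if_pos (by rw [w.det_gl]; norm_num)]

theorem WData.smul_slash (w : WData N) (k : ℤ) (c : ℂ) (f : ℍ → ℂ) :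
    (c • f) ∣[k] w.gl = c • (f ∣[k] w.gl) := by
  rw [ModularForm.smul_slash, w.σ_gl, ContinuousAlgEquiv.refl_apply]

theorem mapGL_val (g : SL(2, ℤ)) : ((mapGL ℝ g : GL (Fin 2) ℝ) : Matrix (Fin 2) (Fin 2) ℝ) =
    (g : Matrix (Fin 2) (Fin 2) ℤ).map (Int.castRingHom ℝ) := by
  ext a b
  simp

variable [NeZero N]

theorem map_eq_of_eq {A B : Matrix (Fin 2) (Fin 2) ℤ} (h : A = B) :
    A.map (Int.castRingHom ℝ) = B.map (Int.castRingHom ℝ) := by rw [h]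

omit [NeZero N] in
theorem WData.gl_mul_gamma (w : WData N) {γ δ : SL(2, ℤ)}
    (h : (δ : Matrix (Fin 2) (Fin 2) ℤ) * w.mat = w.mat * (γ : Matrix (Fin 2) (Fin 2) ℤ)) :
    w.gl * (mapGL ℝ γ : GL (Fin 2) ℝ) = mapGL ℝ δ * w.gl := by
  apply Units.ext
  rw [Units.val_mul, Units.val_mul, w.gl_val, mapGL_val, mapGL_val, ← Matrix.map_mul,
    ← Matrix.map_mul, h]

omit [NeZero N] in
theorem IsChi3.slash_mapGL {f : CuspForm (Gamma1 N) 1} (hf : IsChi3 f) {γ : SL(2, ℤ)}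
    (hγ : γ ∈ Gamma0 N) :
    ⇑f ∣[(1 : ℤ)] (mapGL ℝ γ : GL (Fin 2) ℝ) = ((chi3 (γ 1 1) : ℤ) : ℂ) • ⇑f := hf γ hγ

omit [NeZero N] in
/-- The slash by `W` is compatible with `Γ₀(N)`. -/
theorem slash_gl_gamma (h3 : 3 ∣ N) (w : WData N) {f : CuspForm (Gamma1 N) 1} (hf : IsChi3 f)
    {γ : SL(2, ℤ)} (hγ : γ ∈ Gamma0 N) :
    (⇑f ∣[(1 : ℤ)] w.gl) ∣[(1 : ℤ)] (mapGL ℝ γ : GL (Fin 2) ℝ) =
      ((chi3 (γ 1 1) : ℤ) : ℂ) • (⇑f ∣[(1 : ℤ)] w.gl) := by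
  obtain ⟨δ, hδ, h1, h2⟩ := w.conj_gamma hγ
  rw [← SlashAction.slash_mul, w.gl_mul_gamma h1, SlashAction.slash_mul, hf.slash_mapGL hδ,
    w.smul_slash]
  congr 2
  have h4 : (3 : ℤ) ∣ δ 1 1 * γ 1 1 - 1 := by
    have hdet := det_eq γ
    have h5 : (3 : ℤ) ∣ γ 1 0 := (Int.natCast_dvd_natCast.mpr h3).trans (WData.dvd_of_mem hγ)
    have h6 : δ 1 1 * γ 1 1 - 1 = (δ 1 1 - γ 0 0) * γ 1 1 + γ 0 1 * γ 1 0 := by
      linear_combination hdet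
    rw [h6]
    exact dvd_add (Dvd.dvd.mul_right h2 _) (Dvd.dvd.mul_left h5 _)
  exact chi3_eq_of_mul h4

omit [NeZero N] in
theorem chi3_of_mem_Gamma1 (h3 : 3 ∣ N) {γ : SL(2, ℤ)} (hγ : γ ∈ Gamma1 N) :
    chi3 (γ 1 1) = 1 := by
  have h1 : (3 : ℤ) ∣ γ 1 1 - 1 := three_dvd_of_zmod h3 (by
    rw [((Gamma1_mem N γ).mp hγ).2.1]; simp)
  rw [chi3_congr h1, chi3_one]

/-- `W₃ f`. -/
def W3 (h3 : 3 ∣ N) (w : WData N) (f : CuspForm (Gamma1 N) 1) (hf : IsChi3 f) :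
    CuspForm (Gamma1 N) 1 where
  toFun := ⇑f ∣[(1 : ℤ)] w.gl
  slash_action_eq' := by
    rintro _ ⟨γ, hγ, rfl⟩
    rw [slash_gl_gamma h3 w hf (Gamma1_le_Gamma0' hγ), chi3_of_mem_Gamma1 h3 hγ]
    simp
  holo' := (CuspFormClass.holo f).slash 1 _
  zero_at_cusps' := fun {c} hc =>
    P2MW.S_CuspFormClass_isZeroAt_heckeT.ModularForm.S06W2.isZeroAt_slash_ratCast f w.glQ hc

theorem coe_W3 (h3 : 3 ∣ N) (w : WData N) (f : CuspForm (Gamma1 N) 1) (hf : IsChi3 f) :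
    ⇑(W3 h3 w f hf) = ⇑f ∣[(1 : ℤ)] w.gl := rfl

theorem isChi3_W3 (h3 : 3 ∣ N) (w : WData N) (f : CuspForm (Gamma1 N) 1) (hf : IsChi3 f) :
    IsChi3 (W3 h3 w f hf) := fun _ hγ => slash_gl_gamma h3 w hf hγ

theorem W3_ne_zero (h3 : 3 ∣ N) (w : WData N) {f : CuspForm (Gamma1 N) 1} (hf : IsChi3 f)
    (h0 : f ≠ 0) : W3 h3 w f hf ≠ 0 := by
  intro h
  apply h0
  apply DFunLike.coe_injective
  have h1 : ⇑f ∣[(1 : ℤ)] w.gl = 0 := congrArg (fun g : CuspForm (Gamma1 N) 1 => ⇑g) h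
  have h2 : (⇑f ∣[(1 : ℤ)] w.gl) ∣[(1 : ℤ)] w.gl⁻¹ = ⇑f := by
    rw [← SlashAction.slash_mul, mul_inv_cancel, SlashAction.slash_one]
  rw [← h2, h1, SlashAction.zero_slash]
  rfl

/-- **Commutation** of `W₃` and `T_p` (up to `χ_{-3}(p)`). -/
theorem TF_W3 (h3 : 3 ∣ N) (w : WData N) {f : CuspForm (Gamma1 N) 1} (hf : IsChi3 f)
    {p : ℕ} (hp : p.Prime) (hpN : ¬ p ∣ N) :
    TF N 1 hp hpN (⇑f ∣[(1 : ℤ)] w.gl) =
      ((chi3 p : ℤ) : ℂ) • ((TF N 1 hp hpN ⇑f) ∣[(1 : ℤ)] w.gl) := by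
  have : NeZero p := ⟨hp.ne_zero⟩
  obtain ⟨σ, hσ⟩ := w.exists_perm h3 hp hpN
  rw [TF_eq_sum, TF_eq_sum, SlashAction.sum_slash,
    ← Equiv.sum_comp σ fun i => (⇑f ∣[(1 : ℤ)] B N hp hpN i) ∣[(1 : ℤ)] w.gl, Finset.smul_sum]
  refine Finset.sum_congr rfl fun i _ => ?_
  obtain ⟨δ, hδ, h11, h⟩ := hσ i
  have h2 : w.gl * B N hp hpN i = mapGL ℝ δ * B N hp hpN (σ i) * w.gl := by
    apply Units.ext
    have hB : ∀ i, ((B N hp hpN i : GL (Fin 2) ℝ) : Matrix (Fin 2) (Fin 2) ℝ) =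
      (bmat p (rep N (pu hp hpN)) i).map (Int.castRingHom ℝ) := B_val hp hpN
    rw [Units.val_mul, Units.val_mul, Units.val_mul, w.gl_val, mapGL_val, hB, hB, ← Matrix.map_mul,
      ← Matrix.map_mul, ← Matrix.map_mul, h]
  rw [← SlashAction.slash_mul, h2, SlashAction.slash_mul, SlashAction.slash_mul,
    hf.slash_mapGL hδ, h11]
  rw [ModularForm.smul_slash, map_intCast, w.smul_slash]

/-! ### Eigenvectors -/

theorem dia_of_chi3 (h3 : 3 ∣ N) {f : CuspForm (Gamma1 N) 1} (hf : IsChi3 f) {p : ℕ}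
    (hp : p.Prime) (hpN : ¬ p ∣ N) : dia (pu hp hpN) f = ((chi3 p : ℤ) : ℂ) • f := by
  apply DFunLike.coe_injective
  rw [coe_dia, diaF, hf.slash_mapGL (rep_mem _)]
  have h1 : (3 : ℤ) ∣ (rep N (pu hp hpN)) 1 1 - p := three_dvd_of_zmod h3 (by
    rw [rep_11, coe_pu]; simp)
  rw [chi3_congr h1]
  rfl

theorem qCoeff_Tp (h3 : 3 ∣ N) {f : CuspForm (Gamma1 N) 1} (hf : IsChi3 f) {p : ℕ}
    (hp : p.Prime) (hpN : ¬ p ∣ N) (n : ℕ) :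
    qCoeff ⇑(Tp hp hpN f) n = qCoeff ⇑f (p * n) +
      if p ∣ n then ((chi3 p : ℤ) : ℂ) * qCoeff ⇑f (n / p) else 0 := by
  have h := qc_Tp hp hpN f n
  rw [qc_apply, qc_apply, dia_of_chi3 h3 hf hp hpN, map_smul, qc_apply, smul_eq_mul, sub_self,
    zpow_zero, one_mul, mul_comm n p] at h
  exact h

/-- The Hecke relation is the eigenvector equation. -/
theorem Tp_eq_smul_iff (h3 : 3 ∣ N) {f : CuspForm (Gamma1 N) 1} (hf : IsChi3 f) {p : ℕ}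
    (hp : p.Prime) (hpN : ¬ p ∣ N) (c : ℂ) :
    Tp hp hpN f = c • f ↔ ∀ n, qCoeff ⇑f (p * n) +
      (if p ∣ n then ((chi3 p : ℤ) : ℂ) * qCoeff ⇑f (n / p) else 0) = c * qCoeff ⇑f n := by
  constructor
  · intro h n
    rw [← qCoeff_Tp h3 hf hp hpN, h]
    exact (good f).qCoeff_smul c n
  · intro h
    refine ext_qc fun n => ?_
    rw [qc_apply, qCoeff_Tp h3 hf hp hpN, h n, map_smul, qc_apply, smul_eq_mul]

theorem isChi3_Tp {f : CuspForm (Gamma1 N) 1} (hf : IsChi3 f) {p : ℕ}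
    (hp : p.Prime) (hpN : ¬ p ∣ N) : IsChi3 (Tp hp hpN f) := by
  intro γ hγ
  change TF N 1 hp hpN ⇑f ∣[(1 : ℤ)] (mapGL ℝ γ : GL (Fin 2) ℝ) = _
  rw [(inv_coe f).TF_slash hp hpN hγ, hf.slash_mapGL hγ, TF_smul]
  rfl

/-- `W₃` maps eigenvectors to eigenvectors, the eigenvalue being multiplied by `χ_{-3}(p)`. -/
theorem Tp_W3 (h3 : 3 ∣ N) (w : WData N) {f : CuspForm (Gamma1 N) 1} (hf : IsChi3 f)
    {p : ℕ} (hp : p.Prime) (hpN : ¬ p ∣ N) {c : ℂ} (hc : Tp hp hpN f = c • f) :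
    Tp hp hpN (W3 h3 w f hf) = (((chi3 p : ℤ) : ℂ) * c) • W3 h3 w f hf := by
  apply DFunLike.coe_injective
  rw [coe_Tp, coe_W3, TF_W3 h3 w hf hp hpN]
  have h1 : TF N 1 hp hpN ⇑f = c • ⇑f := congrArg (fun g : CuspForm (Gamma1 N) 1 => ⇑g) hc
  rw [h1, w.smul_slash, smul_smul]
  rfl

end Fermat.Agent.LT.K
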