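import Fermat.Agent.LT.K.Prod
import Fermat.Agent.Lib.EigenCharacter
import Fermat.Agent.IntStr.Main

/-!
# LT piece K-A: the weight two eigenform attached to a weight one form of character `χ_{-3}`

(helper51, LT/K.)
-/

set_option autoImplicit false

noncomputable section

open UpperHalfPlane ModularForm ModularFormClass CongruenceSubgroup
open scoped MatrixGroups ModularForm

namespace Fermat.Agent.LT.K

open Fermat.Agent Fermat.Agent.FrobExists

/-- The centre on `ℤ̄` of a valuation ring over `p` is maximal. -/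
theorem center_isMaximal (B : ValuationSubring ℂ) {p : ℕ} (hp : p.Prime)
    (hB : B.LiesOverPrime p) : (center B).IsMaximal := by
  refine Ideal.isMaximal_of_isIntegral_of_isMaximal_comap (R := ℤ) (center B) ?_
  have hprime : ((center B).comap (algebraMap ℤ (integralClosure ℤ ℂ))).IsPrime :=
    Ideal.comap_isPrime _ _
  refine hprime.isMaximal ?_
  intro h0
  have h1 : (p : ℤ) ∈ (center B).comap (algebraMap ℤ (integralClosure ℤ ℂ)) := by
    rw [Ideal.mem_comap, mem_center]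
    have : ((algebraMap ℤ (integralClosure ℤ ℂ) (p : ℤ) : integralClosure ℤ ℂ) : ℂ) = (p : ℂ) := by
      simp
    rw [this]
    exact hB
  rw [h0, Ideal.mem_bot] at h1
  exact hp.ne_zero (by exact_mod_cast h1)

theorem natCast_mem_center (B : ValuationSubring ℂ) {p : ℕ} (hB : B.LiesOverPrime p) :
    ((p : ℕ) : integralClosure ℤ ℂ) ∈ center B := by
  rw [mem_center]
  exact hB

theorem mem_center_iff_valuation (B : ValuationSubring ℂ) (x : integralClosure ℤ ℂ) :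
    x ∈ center B ↔ B.valuation (x : ℂ) < 1 := by
  rw [mem_center]
  exact Iff.rfl

variable {N : ℕ} [NeZero N]

/-- **K-A**, valuation form. -/
theorem exists_weightTwo_of_chi3 (h3 : 3 ∣ N) (B : ValuationSubring ℂ) (hB : B.LiesOverPrime 3)
    (f : CuspForm (Gamma1 N) 1) (hχ : IsChi3 f) (hf : f ≠ 0) :
    ∃ h : CuspForm (Gamma0 N) 2, h.IsNormalizedEigenform ∧
      ∀ ℓ : ℕ, ℓ.Prime → ¬ ℓ ∣ N → ∀ c : ℂ,
        (∀ n, qCoeff ⇑f (ℓ * n) + (if ℓ ∣ n then ((chi3 ℓ : ℤ) : ℂ) * qCoeff ⇑f (n / ℓ) else 0) =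
          c * qCoeff ⇑f n) →
        c ∈ B ∧ ∃ a : integralClosure ℤ ℂ, (a : ℂ) = qCoeff ⇑h ℓ ∧
          B.valuation ((a : ℂ) - c) < 1 := by
  obtain ⟨h, hh, -, hc⟩ := exists_weightTwo (IntStr.hasIntegralStructure N 2) h3 B hB f hχ hf
  refine ⟨h, hh, fun ℓ hℓ hℓN c hrel => ?_⟩
  obtain ⟨h1, h2⟩ := hc ℓ hℓ hℓN c hrel
  exact ⟨h1, ⟨qCoeff ⇑h ℓ, EigenCharacter.isIntegral_qCoeff hh hℓ⟩, rfl, h2⟩

/-- **K-A**: a weight one form of character `χ_{-3}` which is an eigenform with integral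
eigenvalues `t p` for the primes `p ∈ P` with `χ_{-3}(p) = 1` gives a weight two eigenform on
`Γ₀(N)` with `a_p ≡ t p`. -/
theorem exists_weightTwo_of_rel (h3 : 3 ∣ N) (B : ValuationSubring ℂ) (hB : B.LiesOverPrime 3)
    (f : CuspForm (Gamma1 N) 1) (hχ : IsChi3 f) (hf : f ≠ 0) :
    ∃ h : CuspForm (Gamma0 N) 2, h.IsNormalizedEigenform ∧
      ∀ p : ℕ, p.Prime → ¬ p ∣ N → chi3 p = 1 → ∀ t : ℤ,
        (∀ n, qCoeff ⇑f (p * n) + (if p ∣ n then qCoeff ⇑f (n / p) else 0) =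
          (t : ℂ) * qCoeff ⇑f n) →
        ∃ a : integralClosure ℤ ℂ, (a : ℂ) = qCoeff ⇑h p ∧
          a - (t : integralClosure ℤ ℂ) ∈ center B := by
  obtain ⟨h, hh, hc⟩ := exists_weightTwo_of_chi3 h3 B hB f hχ hf
  refine ⟨h, hh, fun p hp hpN hχp t hrel => ?_⟩
  obtain ⟨-, a, ha, h2⟩ := hc p hp hpN t (fun n => by
    rw [← hrel n, hχp]; simp)
  refine ⟨a, ha, ?_⟩
  rw [mem_center_iff_valuation]
  have : ((a - (t : integralClosure ℤ ℂ) : integralClosure ℤ ℂ) : ℂ) = (a : ℂ) - (t : ℂ) := by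
    simp
  rw [this]
  exact h2

end Fermat.Agent.LT.K
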